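/-
S20 combinatorics, part B: the index of `Γ₀(N)` in `SL(2,ℤ)` is the Dedekind psi function.
-/
import Mathlib
import Fermat.Prelude.Def_ModularCurve_GenusNumerics

set_option autoImplicit false

open CongruenceSubgroup
open scoped MatrixGroups

namespace Fermat.Agent.S20

/-- general counting lemma -/
theorem combQuot_card_quot_eq {G α : Type*} [Group G] (H : Subgroup G) (f : G → α)
    (hf : ∀ x y, f x = f y ↔ x⁻¹ * y ∈ H) (hs : Function.Surjective f) :
    Nat.card (G ⧸ H) = Nat.card α := by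
  refine Nat.card_congr (Equiv.ofBijective (Quotient.lift f ?_) ⟨?_, ?_⟩)
  · intro a b hab
    exact (hf a b).2 (QuotientGroup.leftRel_apply.1 hab)
  · intro x y
    induction x using QuotientGroup.induction_on
    induction y using QuotientGroup.induction_on
    intro h
    exact QuotientGroup.eq.2 ((hf _ _).1 h)
  · intro a
    obtain ⟨x, rfl⟩ := hs a
    exact ⟨QuotientGroup.mk x, rfl⟩

theorem combQuot_mem_iff_dvd {N : ℕ} {A : SL(2, ℤ)} : A ∈ Gamma0 N ↔ (N : ℤ) ∣ A 1 0 := by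
  rw [Gamma0_mem, ZMod.intCast_zmod_eq_zero_iff_dvd]

theorem combQuot_inv_mul_10 (x y : SL(2, ℤ)) :
    (x⁻¹ * y) 1 0 = x 0 0 * y 1 0 - x 1 0 * y 0 0 := by
  rw [Matrix.SpecialLinearGroup.SL2_inv_expl]
  simp [Matrix.mul_apply, Fin.sum_univ_two]
  ring

theorem combQuot_det (x : SL(2, ℤ)) : x 0 0 * x 1 1 - x 0 1 * x 1 0 = 1 := by
  have := x.det_coe
  rw [Matrix.det_fin_two] at this
  exact this

/-- the two coordinates -/
noncomputable def combQuotA (p : ℕ) (x : SL(2, ℤ)) : ZMod p := ((x 0 0 : ℤ) : ZMod p)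
noncomputable def combQuotC (N p : ℕ) (x : SL(2, ℤ)) : ZMod p := ((x 1 0 / (N : ℤ) : ℤ) : ZMod p)

theorem combQuot_key {N p : ℕ} (hN : N ≠ 0) {x y : SL(2, ℤ)} (hx : x ∈ Gamma0 N)
    (hy : y ∈ Gamma0 N) :
    x⁻¹ * y ∈ Gamma0 (N * p) ↔
      combQuotA p x * combQuotC N p y = combQuotC N p x * combQuotA p y := by
  obtain ⟨c, hc⟩ := combQuot_mem_iff_dvd.1 hx
  obtain ⟨c', hc'⟩ := combQuot_mem_iff_dvd.1 hy
  have hN' : (N : ℤ) ≠ 0 := by exact_mod_cast hN
  rw [combQuot_mem_iff_dvd, combQuot_inv_mul_10, combQuotA, combQuotA, combQuotC, combQuotC,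
    hc, hc', Int.mul_ediv_cancel_left _ hN', Int.mul_ediv_cancel_left _ hN']
  rw [show x 0 0 * ((N : ℤ) * c') - (N : ℤ) * c * y 0 0 = (N : ℤ) * (x 0 0 * c' - c * y 0 0) by ring]
  push_cast
  rw [mul_dvd_mul_iff_left hN', ← ZMod.intCast_zmod_eq_zero_iff_dvd]
  push_cast
  rw [sub_eq_zero]

theorem combQuot_nondeg {N p : ℕ} (hN : N ≠ 0) {x : SL(2, ℤ)} (hx : x ∈ Gamma0 N) :
    combQuotA p x * ((x 1 1 : ℤ) : ZMod p) - ((x 0 1 : ℤ) : ZMod p) * (N : ZMod p) *
      combQuotC N p x = 1 := by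
  obtain ⟨c, hc⟩ := combQuot_mem_iff_dvd.1 hx
  have hN' : (N : ℤ) ≠ 0 := by exact_mod_cast hN
  have h := combQuot_det x
  rw [combQuotA, combQuotC, hc, Int.mul_ediv_cancel_left _ hN']
  rw [hc] at h
  have h2 := congrArg (fun z : ℤ => (z : ZMod p)) h
  push_cast at h2
  rw [← h2]; ring

/-- lower unipotent element -/
def combQuotL (c : ℤ) : SL(2, ℤ) := ⟨!![1, 0; c, 1], by simp [Matrix.det_fin_two]⟩

theorem combQuot_relIndex_of_dvd {N p : ℕ} (hN : N ≠ 0) (hp : p.Prime) (hpN : p ∣ N) :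
    (Gamma0 (N * p)).relIndex (Gamma0 N) = p := by
  have := Fact.mk hp
  have hN' : (N : ℤ) ≠ 0 := by exact_mod_cast hN
  have hA : ∀ x : Gamma0 N, combQuotA p (x : SL(2, ℤ)) ≠ 0 := by
    intro x h0
    have := combQuot_nondeg (p := p) hN x.2
    rw [h0, (ZMod.natCast_eq_zero_iff N p).2 hpN] at this
    simp at this
  have := combQuot_card_quot_eq ((Gamma0 (N * p)).subgroupOf (Gamma0 N))
    (fun x : Gamma0 N => combQuotC N p (x : SL(2, ℤ)) / combQuotA p (x : SL(2, ℤ))) ?_ ?_
  · rw [Subgroup.relIndex, Subgroup.index, this, Nat.card_zmod]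
  · intro x y
    rw [Subgroup.mem_subgroupOf]
    push_cast
    rw [combQuot_key hN x.2 y.2, div_eq_div_iff (hA x) (hA y)]
    constructor
    · intro h; linear_combination -h
    · intro h; linear_combination -h
  · intro t
    refine ⟨⟨combQuotL ((N : ℤ) * (t.val : ℤ)), ?_⟩, ?_⟩
    · rw [combQuot_mem_iff_dvd]; simp [combQuotL]
    · simp [combQuotC, combQuotA, combQuotL, Int.mul_ediv_cancel_left _ hN']

theorem combQuot_relIndex_of_not_dvd {N p : ℕ} (hN : N ≠ 0) (hp : p.Prime) (hpN : ¬ p ∣ N) :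
    (Gamma0 (N * p)).relIndex (Gamma0 N) = p + 1 := by
  classical
  have := Fact.mk hp
  have hN' : (N : ℤ) ≠ 0 := by exact_mod_cast hN
  have hC : ∀ x : Gamma0 N, combQuotA p (x : SL(2, ℤ)) = 0 → combQuotC N p (x : SL(2, ℤ)) ≠ 0 := by
    intro x h0 h1
    have := combQuot_nondeg (p := p) hN x.2
    rw [h0, h1] at this
    simp at this
  have := combQuot_card_quot_eq ((Gamma0 (N * p)).subgroupOf (Gamma0 N))
    (fun x : Gamma0 N => if combQuotA p (x : SL(2, ℤ)) = 0 then (none : Option (ZMod p)) else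
      some (combQuotC N p (x : SL(2, ℤ)) / combQuotA p (x : SL(2, ℤ)))) ?_ ?_
  · rw [Subgroup.relIndex, Subgroup.index, this, Nat.card_eq_fintype_card, Fintype.card_option,
      ZMod.card]
  · intro x y
    rw [Subgroup.mem_subgroupOf]
    push_cast
    rw [combQuot_key hN x.2 y.2]
    by_cases hx : combQuotA p (x : SL(2, ℤ)) = 0 <;> by_cases hy : combQuotA p (y : SL(2, ℤ)) = 0
    · simp [hx, hy]
    · simp [hx, hy, hC x hx]
    · simp [hx, hy, hC y hy]
    · simp only [hx, hy, if_false, Option.some_inj]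
      rw [div_eq_div_iff hx hy]
      constructor
      · intro h; linear_combination -h
      · intro h; linear_combination -h
  · intro t
    rcases t with _ | t
    · -- the point at infinity
      have hcop : IsCoprime (p : ℤ) (N : ℤ) := by
        rw [Nat.isCoprime_iff_coprime]
        exact (Nat.Prime.coprime_iff_not_dvd hp).2 hpN
      obtain ⟨u, v, huv⟩ := hcop
      refine ⟨⟨⟨!![(p : ℤ), -v; (N : ℤ), u], ?_⟩, ?_⟩, ?_⟩
      · rw [Matrix.det_fin_two]; simp; linarith
      · rw [combQuot_mem_iff_dvd]; simp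
      · simp [combQuotA]
    · refine ⟨⟨combQuotL ((N : ℤ) * (t.val : ℤ)), ?_⟩, ?_⟩
      · rw [combQuot_mem_iff_dvd]; simp [combQuotL]
      · simp [combQuotC, combQuotA, combQuotL, Int.mul_ediv_cancel_left _ hN']

theorem combQuot_le {N p : ℕ} : Gamma0 (N * p) ≤ Gamma0 N := by
  intro x hx
  rw [combQuot_mem_iff_dvd] at hx ⊢
  exact dvd_trans (by push_cast; exact dvd_mul_right _ _) hx

theorem combQuot_psi_of_dvd {N p : ℕ} (hN : N ≠ 0) (hp : p.Prime) (hpN : p ∣ N) :
    ModularCurve.dedekindPsi (N * p) = p * ModularCurve.dedekindPsi N := by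
  unfold ModularCurve.dedekindPsi
  have hset : (N * p).divisors.filter Squarefree = N.divisors.filter Squarefree := by
    ext d
    simp only [Finset.mem_filter, Nat.mem_divisors]
    constructor
    · rintro ⟨⟨hd, -⟩, hsq⟩
      refine ⟨⟨?_, hN⟩, hsq⟩
      by_cases hpd : p ∣ d
      · obtain ⟨e, rfl⟩ := hpd
        have hcop : Nat.Coprime p e := by
          rw [Nat.Prime.coprime_iff_not_dvd hp]
          rintro ⟨f, rfl⟩
          have := hsq p ⟨f, by ring⟩
          exact hp.one_lt.ne' (Nat.isUnit_iff.1 this)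
        have he : e ∣ N := by
          have : p * e ∣ p * N := by rwa [mul_comm p N]
          exact (Nat.mul_dvd_mul_iff_left hp.pos).1 this
        exact Nat.Coprime.mul_dvd_of_dvd_of_dvd hcop hpN he
      · have hcop : Nat.Coprime d p := ((Nat.Prime.coprime_iff_not_dvd hp).2 hpd).symm
        exact hcop.dvd_of_dvd_mul_right hd
    · rintro ⟨⟨hd, -⟩, hsq⟩
      exact ⟨⟨dvd_mul_of_dvd_left hd p, mul_ne_zero hN hp.ne_zero⟩, hsq⟩
  rw [hset, Finset.mul_sum]
  refine Finset.sum_congr rfl fun d hd => ?_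
  simp only [Finset.mem_filter, Nat.mem_divisors] at hd
  rw [mul_comm N p, Nat.mul_div_assoc _ hd.1.1]

theorem combQuot_psi_of_not_dvd {N p : ℕ} (hN : N ≠ 0) (hp : p.Prime) (hpN : ¬ p ∣ N) :
    ModularCurve.dedekindPsi (N * p) = (p + 1) * ModularCurve.dedekindPsi N := by
  classical
  unfold ModularCurve.dedekindPsi
  set S := N.divisors.filter Squarefree with hS
  have hSmem : ∀ d, d ∈ S ↔ (d ∣ N ∧ Squarefree d) := by
    intro d; simp [hS, hN]
  have hcopS : ∀ d ∈ S, Nat.Coprime d p := by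
    intro d hd
    refine ((Nat.Prime.coprime_iff_not_dvd hp).2 fun h => hpN (h.trans ((hSmem d).1 hd).1)).symm
  have hset : (N * p).divisors.filter Squarefree = S ∪ S.image (· * p) := by
    ext d
    simp only [Finset.mem_filter, Nat.mem_divisors, Finset.mem_union, Finset.mem_image]
    constructor
    · rintro ⟨⟨hd, -⟩, hsq⟩
      by_cases hpd : p ∣ d
      · right
        obtain ⟨e, rfl⟩ := hpd
        refine ⟨e, (hSmem e).2 ⟨?_, hsq.squarefree_of_dvd (dvd_mul_left _ _)⟩, mul_comm _ _⟩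
        have : p * e ∣ p * N := by rwa [mul_comm p N]
        exact (Nat.mul_dvd_mul_iff_left hp.pos).1 this
      · left
        have hcop : Nat.Coprime d p := ((Nat.Prime.coprime_iff_not_dvd hp).2 hpd).symm
        exact (hSmem d).2 ⟨hcop.dvd_of_dvd_mul_right hd, hsq⟩
    · rintro (hd | ⟨e, he, rfl⟩)
      · exact ⟨⟨dvd_mul_of_dvd_left ((hSmem d).1 hd).1 p, mul_ne_zero hN hp.ne_zero⟩,
          ((hSmem d).1 hd).2⟩
      · refine ⟨⟨Nat.mul_dvd_mul_right ((hSmem e).1 he).1 p, mul_ne_zero hN hp.ne_zero⟩, ?_⟩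
        rw [Nat.squarefree_mul (hcopS e he)]
        exact ⟨((hSmem e).1 he).2, hp.prime.irreducible.squarefree⟩
  have hdisj : Disjoint S (S.image (· * p)) := by
    rw [Finset.disjoint_left]
    intro d hd hd'
    obtain ⟨e, -, rfl⟩ := Finset.mem_image.1 hd'
    exact hpN ((dvd_mul_left p e).trans ((hSmem _).1 hd).1)
  rw [hset, Finset.sum_union hdisj, Finset.sum_image, add_mul, one_mul, Finset.mul_sum]
  · congr 1
    · refine Finset.sum_congr rfl fun d hd => ?_
      rw [mul_comm N p, Nat.mul_div_assoc _ ((hSmem d).1 hd).1]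
    · refine Finset.sum_congr rfl fun d hd => ?_
      rw [Nat.mul_div_mul_right _ _ hp.pos]
  · intro a _ b _ hab
    exact Nat.eq_of_mul_eq_mul_right hp.pos hab

theorem combQuot_index (N : ℕ) : N ≠ 0 → (Gamma0 N).index = ModularCurve.dedekindPsi N := by
  induction N using induction_on_primes with
  | zero => intro h; exact absurd rfl h
  | one =>
    intro _
    have : Gamma0 1 = ⊤ := by
      ext x
      simp only [Subgroup.mem_top, iff_true]
      rw [combQuot_mem_iff_dvd]; simp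
    rw [this, Subgroup.index_top, ModularCurve.dedekindPsi_one]
  | prime_mul p a hp ih =>
    intro h
    have ha : a ≠ 0 := fun h0 => h (by rw [h0, mul_zero])
    rw [mul_comm p a, ← Subgroup.relIndex_mul_index (combQuot_le (N := a) (p := p)), ih ha]
    by_cases hpa : p ∣ a
    · rw [combQuot_relIndex_of_dvd ha hp hpa, combQuot_psi_of_dvd ha hp hpa]
    · rw [combQuot_relIndex_of_not_dvd ha hp hpa, combQuot_psi_of_not_dvd ha hp hpa]

theorem card_quot (N : ℕ) [NeZero N] :
    Nat.card (SL(2, ℤ) ⧸ Gamma0 N) = ModularCurve.dedekindPsi N :=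
  combQuot_index N (NeZero.ne N)

end Fermat.Agent.S20
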