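/-
S20 combinatorics, part C: the number of `T`-orbits on `SL(2,ℤ) ⧸ Γ₀(N)` (= number of cusps).
-/
import Mathlib
import Fermat.Prelude.Def_ModularCurve_GenusNumerics
import Fermat.Agent.S20.CombQuot

set_option autoImplicit false

open CongruenceSubgroup
open scoped MatrixGroups

namespace Fermat.Agent.S20

/-- general counting lemma for orbits of a cyclic group on a coset space -/
theorem combCusps_card_orbits {G α : Type*} [Group G] (H : Subgroup G) (t : G) (f : G → α)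
    (hf : ∀ x y, f x = f y ↔ ∃ k : ℤ, (t ^ k * x)⁻¹ * y ∈ H) (hs : Function.Surjective f) :
    Nat.card (MulAction.orbitRel.Quotient (Subgroup.zpowers t) (G ⧸ H)) = Nat.card α := by
  have h1 : ∀ a b : G, (QuotientGroup.leftRel H) a b → f a = f b := by
    intro a b hab
    exact (hf a b).2 ⟨0, by simpa using QuotientGroup.leftRel_apply.1 hab⟩
  let F : G ⧸ H → α := Quotient.lift f h1
  have hF : ∀ x, F (QuotientGroup.mk x) = f x := fun x => rfl
  have h2 : ∀ a b : G ⧸ H, (MulAction.orbitRel (Subgroup.zpowers t) (G ⧸ H)) a b → F a = F b := by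
    intro a b hab
    induction a using QuotientGroup.induction_on with
    | H a =>
    induction b using QuotientGroup.induction_on with
    | H b =>
    rw [MulAction.orbitRel_apply, MulAction.mem_orbit_iff] at hab
    obtain ⟨⟨_, k, rfl⟩, hk⟩ := hab
    have hk' : (QuotientGroup.mk (t ^ k * b) : G ⧸ H) = QuotientGroup.mk a := hk
    rw [hF, hF, eq_comm, hf]
    exact ⟨k, QuotientGroup.eq.1 hk'⟩
  refine Nat.card_congr (Equiv.ofBijective (Quotient.lift F h2) ⟨?_, ?_⟩)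
  · intro x y
    induction x using Quotient.inductionOn with
    | h x =>
    induction y using Quotient.inductionOn with
    | h y =>
    induction x using QuotientGroup.induction_on with
    | H a =>
    induction y using QuotientGroup.induction_on with
    | H b =>
    intro h
    have h' : f a = f b := h
    obtain ⟨k, hk⟩ := (hf a b).1 h'
    apply Quotient.sound
    show (MulAction.orbitRel (Subgroup.zpowers t) (G ⧸ H)) _ _
    rw [MulAction.orbitRel_apply, MulAction.mem_orbit_iff]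
    refine ⟨⟨t ^ (-k), -k, rfl⟩, ?_⟩
    show (QuotientGroup.mk (t ^ (-k) * b) : G ⧸ H) = QuotientGroup.mk a
    rw [QuotientGroup.eq]
    have : (t ^ (-k) * b)⁻¹ * a = ((t ^ k * a)⁻¹ * b)⁻¹ := by
      simp [mul_assoc, zpow_neg]
    rw [this]
    exact H.inv_mem hk
  · intro a
    obtain ⟨x, rfl⟩ := hs a
    exact ⟨Quotient.mk _ (QuotientGroup.mk x), rfl⟩

/-- `e = gcd(d, N/d)` -/
def combCuspsE (N d : ℕ) : ℕ := Nat.gcd d (N / d)

noncomputable def combCuspsW (N d : ℕ) (a c : ℤ) : ℕ :=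
  (((a : ZMod (combCuspsE N d)) * ((c / (d : ℤ) : ℤ) : ZMod (combCuspsE N d))⁻¹)).val

noncomputable def combCuspsPhi (N : ℕ) (g : SL(2, ℤ)) : (_ : ℕ) × ℕ :=
  ⟨Int.gcd (g 1 0) N, combCuspsW N (Int.gcd (g 1 0) N) (g 0 0) (g 1 0)⟩

/-- structure of `c` relative to `N` -/
theorem combCusps_struct {N : ℕ} (hN : N ≠ 0) (c : ℤ) :
    ∃ (M : ℕ) (c1 u r : ℤ), Int.gcd c N ≠ 0 ∧ M ≠ 0 ∧ N = Int.gcd c N * M ∧ N / Int.gcd c N = M ∧
      c = (Int.gcd c N : ℤ) * c1 ∧ c / (Int.gcd c N : ℤ) = c1 ∧ c1 * u + (M : ℤ) * r = 1 := by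
  set d := Int.gcd c N with hd
  have hd0 : d ≠ 0 := by
    intro h
    rw [hd, Int.gcd_eq_zero_iff] at h
    exact hN (by exact_mod_cast h.2)
  have hdN : d ∣ N := by
    have : (d : ℤ) ∣ (N : ℤ) := Int.gcd_dvd_right c N
    exact_mod_cast this
  obtain ⟨M, hM⟩ := hdN
  obtain ⟨c1, hc1⟩ : (d : ℤ) ∣ c := Int.gcd_dvd_left c N
  have hd0' : (d : ℤ) ≠ 0 := by exact_mod_cast hd0
  have hM0 : M ≠ 0 := by rintro rfl; exact hN (by simpa using hM)
  obtain ⟨x, y, hbez⟩ : ∃ x y : ℤ, (d : ℤ) = c * x + (N : ℤ) * y :=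
    ⟨_, _, Int.gcd_eq_gcd_ab c N⟩
  refine ⟨M, c1, x, y, hd0, hM0, hM, ?_, hc1, ?_, ?_⟩
  · rw [hM, Nat.mul_div_cancel_left _ (Nat.pos_of_ne_zero hd0)]
  · rw [hc1, Int.mul_ediv_cancel_left _ hd0']
  · have hN' : (N : ℤ) = (d : ℤ) * (M : ℤ) := by exact_mod_cast hM
    apply mul_left_cancel₀ hd0'
    linear_combination (-1 : ℤ) * hbez - x * hc1 - y * hN'

/-- the arithmetic core, for a common `d` -/
theorem combCusps_core (d M : ℕ) (hd : d ≠ 0) (a a' c1 c1' u r u' r' : ℤ)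
    (h1 : c1 * u + (M : ℤ) * r = 1) (h1' : c1' * u' + (M : ℤ) * r' = 1) :
    ((a : ZMod (Nat.gcd d M)) * (c1 : ZMod (Nat.gcd d M))⁻¹
      = (a' : ZMod (Nat.gcd d M)) * (c1' : ZMod (Nat.gcd d M))⁻¹) ↔
    ∃ k : ℤ, ((d : ℤ) * (M : ℤ)) ∣ (a + k * ((d : ℤ) * c1)) * ((d : ℤ) * c1') - ((d : ℤ) * c1) * a' := by
  set e := Nat.gcd d M with he
  have hd' : (d : ℤ) ≠ 0 := by exact_mod_cast hd
  obtain ⟨m, hm⟩ : (e : ℤ) ∣ (M : ℤ) := by exact_mod_cast Nat.gcd_dvd_right d M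
  obtain ⟨n, hn⟩ : (e : ℤ) ∣ (d : ℤ) := by exact_mod_cast Nat.gcd_dvd_left d M
  have hu1 : (c1 : ZMod e) * (u : ZMod e) = 1 := by
    have := congrArg (fun z : ℤ => (z : ZMod e)) h1
    rw [hm] at this
    push_cast at this
    simpa using this
  have hu1' : (c1' : ZMod e) * (u' : ZMod e) = 1 := by
    have := congrArg (fun z : ℤ => (z : ZMod e)) h1'
    rw [hm] at this
    push_cast at this
    simpa using this
  have hi1 : (c1 : ZMod e) * (c1 : ZMod e)⁻¹ = 1 :=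
    ZMod.mul_inv_of_unit _ (IsUnit.of_mul_eq_one _ hu1)
  have hi1' : (c1' : ZMod e) * (c1' : ZMod e)⁻¹ = 1 :=
    ZMod.mul_inv_of_unit _ (IsUnit.of_mul_eq_one _ hu1')
  have step1 : ((a : ZMod e) * (c1 : ZMod e)⁻¹ = (a' : ZMod e) * (c1' : ZMod e)⁻¹) ↔
      (e : ℤ) ∣ a * c1' - c1 * a' := by
    rw [← ZMod.intCast_zmod_eq_zero_iff_dvd]
    push_cast
    constructor
    · intro h
      linear_combination (c1 : ZMod e) * (c1' : ZMod e) * h - (a : ZMod e) * (c1' : ZMod e) * hi1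
        + (a' : ZMod e) * (c1 : ZMod e) * hi1'
    · intro h
      linear_combination (c1 : ZMod e)⁻¹ * (c1' : ZMod e)⁻¹ * h
        - (a : ZMod e) * (c1 : ZMod e)⁻¹ * hi1' + (a' : ZMod e) * (c1' : ZMod e)⁻¹ * hi1
  rw [step1]
  constructor
  · rintro ⟨s, hs⟩
    have hbez : (e : ℤ) = (d : ℤ) * Int.gcdA d M + (M : ℤ) * Int.gcdB d M := by
      have := Int.gcd_eq_gcd_ab (d : ℤ) (M : ℤ)
      rw [Int.gcd_natCast_natCast] at this
      exact this
    set x := Int.gcdA d M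
    set y := Int.gcdB d M
    refine ⟨-s * x * u * u', (s * y + s * x * d * (r + r' - M * r * r')), ?_⟩
    have e1 : c1 * u = 1 - M * r := by linear_combination h1
    have e2 : c1' * u' = 1 - M * r' := by linear_combination h1'
    have : (a + -s * x * u * u' * ((d : ℤ) * c1)) * ((d : ℤ) * c1') - (d : ℤ) * c1 * a'
        = (d : ℤ) * ((a * c1' - c1 * a') - s * x * d * ((c1 * u) * (c1' * u'))) := by ring
    rw [this, hs, e1, e2]
    conv_lhs => enter [2, 1, 1]; rw [hbez]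
    ring
  · rintro ⟨k, w, hw⟩
    have h3 : (a * c1' - c1 * a') + k * d * c1 * c1' = (M : ℤ) * w := by
      apply mul_left_cancel₀ hd'
      linear_combination hw
    refine ⟨m * w - k * n * c1 * c1', ?_⟩
    have : a * c1' - c1 * a' = (M : ℤ) * w - k * d * c1 * c1' := by linear_combination h3
    rw [this]
    conv_lhs => rw [hm, hn]
    ring

theorem combCusps_abs {N d d' M M' : ℕ} {a c a' c' c1 u r c1' u' r' : ℤ}
    (hd0 : d ≠ 0) (hNM : N = d * M) (hdiv : N / d = M) (hc : c = (d : ℤ) * c1)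
    (hcdiv : c / (d : ℤ) = c1) (hbez : c1 * u + (M : ℤ) * r = 1) (hcop : IsCoprime (d : ℤ) a)
    (hNM' : N = d' * M') (hdiv' : N / d' = M') (hc' : c' = (d' : ℤ) * c1')
    (hcdiv' : c' / (d' : ℤ) = c1') (hbez' : c1' * u' + (M' : ℤ) * r' = 1)
    (hcop' : IsCoprime (d' : ℤ) a') :
    (d = d' ∧ combCuspsW N d a c = combCuspsW N d' a' c') ↔
      ∃ k : ℤ, (N : ℤ) ∣ (a + k * c) * c' - c * a' := by
  have hNZ : (N : ℤ) = (d : ℤ) * (M : ℤ) := by exact_mod_cast hNM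
  have hNZ' : (N : ℤ) = (d' : ℤ) * (M' : ℤ) := by exact_mod_cast hNM'
  constructor
  · rintro ⟨rfl, hw⟩
    obtain rfl : M = M' := hdiv.symm.trans hdiv'
    unfold combCuspsW combCuspsE at hw
    rw [hdiv, hcdiv, hcdiv'] at hw
    have : NeZero (Nat.gcd d M) := ⟨Nat.gcd_ne_zero_left hd0⟩
    obtain ⟨k, hk⟩ := (combCusps_core d M hd0 a a' c1 c1' u r u' r' hbez hbez').1
      (ZMod.val_injective _ hw)
    refine ⟨k, ?_⟩
    rw [hc, hc', hNZ]
    exact hk
  · rintro ⟨k, hk⟩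
    have hdd' : d ∣ d' := by
      have h1 : (d : ℤ) ∣ a * c' := by
        have h2 : (d : ℤ) ∣ (a + k * c) * c' - c * a' := (Dvd.intro _ hNZ.symm).trans hk
        have h3 : (d : ℤ) ∣ c * (k * c' - a') := Dvd.dvd.mul_right (Dvd.intro _ hc.symm) _
        have h4 := dvd_sub h2 h3
        have h5 : (a + k * c) * c' - c * a' - c * (k * c' - a') = a * c' := by ring
        rwa [h5] at h4
      have h6 : (d : ℤ) ∣ c' := hcop.dvd_of_dvd_mul_left h1
      have h7 : (d' : ℤ) = c' * u' + (N : ℤ) * r' := by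
        rw [hc', hNZ']; linear_combination (-(d' : ℤ)) * hbez'
      have h8 : (d : ℤ) ∣ (d' : ℤ) := by
        rw [h7]
        exact dvd_add (Dvd.dvd.mul_right h6 _) (Dvd.dvd.mul_right (Dvd.intro _ hNZ.symm) _)
      exact_mod_cast h8
    have hd'd : d' ∣ d := by
      have h1 : (d' : ℤ) ∣ a' * c := by
        have h2 : (d' : ℤ) ∣ (a + k * c) * c' - c * a' := (Dvd.intro _ hNZ'.symm).trans hk
        have h3 : (d' : ℤ) ∣ c' * (a + k * c) := Dvd.dvd.mul_right (Dvd.intro _ hc'.symm) _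
        have h4 := dvd_sub h3 h2
        have h5 : c' * (a + k * c) - ((a + k * c) * c' - c * a') = a' * c := by ring
        rwa [h5] at h4
      have h6 : (d' : ℤ) ∣ c := hcop'.dvd_of_dvd_mul_left h1
      have h7 : (d : ℤ) = c * u + (N : ℤ) * r := by
        rw [hc, hNZ]; linear_combination (-(d : ℤ)) * hbez
      have h8 : (d' : ℤ) ∣ (d : ℤ) := by
        rw [h7]
        exact dvd_add (Dvd.dvd.mul_right h6 _) (Dvd.dvd.mul_right (Dvd.intro _ hNZ'.symm) _)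
      exact_mod_cast h8
    obtain rfl : d = d' := Nat.dvd_antisymm hdd' hd'd
    obtain rfl : M = M' := hdiv.symm.trans hdiv'
    refine ⟨rfl, ?_⟩
    unfold combCuspsW combCuspsE
    rw [hdiv, hcdiv, hcdiv']
    congr 1
    refine (combCusps_core d M hd0 a a' c1 c1' u r u' r' hbez hbez').2 ⟨k, ?_⟩
    rw [hc, hc', hNZ] at hk
    exact hk

theorem combCusps_T_entries (k : ℤ) (g : SL(2, ℤ)) :
    (ModularGroup.T ^ k * g) 0 0 = g 0 0 + k * g 1 0 ∧
      (ModularGroup.T ^ k * g) 1 0 = g 1 0 := by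
  constructor <;>
  simp [Matrix.SpecialLinearGroup.coe_mul, ModularGroup.coe_T_zpow, Matrix.mul_apply,
    Fin.sum_univ_two]

theorem combCusps_rel_iff (N : ℕ) (g g' : SL(2, ℤ)) (k : ℤ) :
    (ModularGroup.T ^ k * g)⁻¹ * g' ∈ Gamma0 N ↔
      (N : ℤ) ∣ (g 0 0 + k * g 1 0) * g' 1 0 - g 1 0 * g' 0 0 := by
  rw [combQuot_mem_iff_dvd, combQuot_inv_mul_10, (combCusps_T_entries k g).1,
    (combCusps_T_entries k g).2]

theorem combCusps_isCoprime (N : ℕ) (g : SL(2, ℤ)) :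
    IsCoprime ((Int.gcd (g 1 0) N : ℕ) : ℤ) (g 0 0) := by
  obtain ⟨m, hm⟩ : ((Int.gcd (g 1 0) N : ℕ) : ℤ) ∣ g 1 0 := Int.gcd_dvd_left _ _
  refine ⟨-(g 0 1) * m, g 1 1, ?_⟩
  have := combQuot_det g
  generalize ((Int.gcd (g 1 0) N : ℕ) : ℤ) = d at hm ⊢
  linear_combination this + (g 0 1) * hm

theorem combCusps_phi_eq_iff {N : ℕ} (hN : N ≠ 0) (g g' : SL(2, ℤ)) :
    combCuspsPhi N g = combCuspsPhi N g' ↔
      ∃ k : ℤ, (ModularGroup.T ^ k * g)⁻¹ * g' ∈ Gamma0 N := by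
  simp only [combCusps_rel_iff]
  obtain ⟨M, c1, u, r, hd0, -, hNM, hdiv, hc, hcdiv, hbez⟩ := combCusps_struct hN (g 1 0)
  obtain ⟨M', c1', u', r', -, -, hNM', hdiv', hc', hcdiv', hbez'⟩ :=
    combCusps_struct hN (g' 1 0)
  rw [← combCusps_abs hd0 hNM hdiv hc hcdiv hbez (combCusps_isCoprime N g) hNM' hdiv' hc' hcdiv'
    hbez' (combCusps_isCoprime N g')]
  unfold combCuspsPhi
  rw [Sigma.mk.inj_iff, heq_iff_eq]

/-- the target finset -/
def combCuspsS (N : ℕ) : Finset ((_ : ℕ) × ℕ) :=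
  N.divisors.sigma fun d => (Finset.range (combCuspsE N d)).filter (combCuspsE N d).Coprime

theorem combCusps_card_S (N : ℕ) : (combCuspsS N).card = ModularCurve.cuspCount N := by
  unfold combCuspsS ModularCurve.cuspCount
  rw [Finset.card_sigma]
  rfl

theorem combCusps_phi_mem {N : ℕ} (hN : N ≠ 0) (g : SL(2, ℤ)) :
    combCuspsPhi N g ∈ combCuspsS N := by
  obtain ⟨M, c1, u, r, hd0, -, hNM, hdiv, hc, hcdiv, hbez⟩ := combCusps_struct hN (g 1 0)
  have hcop := combCusps_isCoprime N g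
  unfold combCuspsPhi combCuspsS
  rw [Finset.mem_sigma]
  simp only
  generalize Int.gcd (g 1 0) N = d at *
  refine ⟨Nat.mem_divisors.2 ⟨Dvd.intro _ hNM.symm, hN⟩, ?_⟩
  have hne : NeZero (combCuspsE N d) := ⟨Nat.gcd_ne_zero_left hd0⟩
  rw [Finset.mem_filter, Finset.mem_range]
  refine ⟨ZMod.val_lt _, ?_⟩
  obtain ⟨m, hm⟩ : ((combCuspsE N d : ℕ) : ℤ) ∣ (M : ℤ) := by
    rw [← hdiv]; exact_mod_cast Nat.gcd_dvd_right d (N / d)
  obtain ⟨n, hn⟩ : ((combCuspsE N d : ℕ) : ℤ) ∣ (d : ℤ) := by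
    exact_mod_cast Nat.gcd_dvd_left d (N / d)
  have hu1 : (c1 : ZMod (combCuspsE N d)) * (u : ZMod (combCuspsE N d)) = 1 := by
    have := congrArg (fun z : ℤ => (z : ZMod (combCuspsE N d))) hbez
    rw [hm] at this
    push_cast at this
    simpa using this
  have hi1 : (c1 : ZMod (combCuspsE N d)) * (c1 : ZMod (combCuspsE N d))⁻¹ = 1 :=
    ZMod.mul_inv_of_unit _ (IsUnit.of_mul_eq_one _ hu1)
  obtain ⟨x, y, hxy⟩ := hcop
  have hua : (y : ZMod (combCuspsE N d)) * ((g 0 0 : ℤ) : ZMod (combCuspsE N d)) = 1 := by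
    have := congrArg (fun z : ℤ => (z : ZMod (combCuspsE N d))) hxy
    rw [hn] at this
    push_cast at this
    simpa using this
  have hz : IsUnit (((g 0 0 : ℤ) : ZMod (combCuspsE N d)) * (c1 : ZMod (combCuspsE N d))⁻¹) := by
    refine IsUnit.of_mul_eq_one ((y : ZMod (combCuspsE N d)) * (c1 : ZMod (combCuspsE N d))) ?_
    linear_combination ((y : ZMod (combCuspsE N d)) * ((g 0 0 : ℤ) : ZMod (combCuspsE N d))) * hi1 + hua
  unfold combCuspsW
  rw [hcdiv]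
  have := ZMod.val_coe_unit_coprime hz.unit
  rw [IsUnit.unit_spec] at this
  exact this.symm

theorem combCusps_phi_surj {N : ℕ} (hN : N ≠ 0) (x : (_ : ℕ) × ℕ) (hx : x ∈ combCuspsS N) :
    ∃ g : SL(2, ℤ), combCuspsPhi N g = x := by
  obtain ⟨d, w⟩ := x
  unfold combCuspsS at hx
  rw [Finset.mem_sigma] at hx
  simp only [Finset.mem_filter, Finset.mem_range, Nat.mem_divisors] at hx
  obtain ⟨⟨hdN, -⟩, hwlt, hwcop⟩ := hx
  have hd0 : d ≠ 0 := by rintro rfl; exact hN (by simpa using hdN)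
  have hned : NeZero d := ⟨hd0⟩
  have hed : combCuspsE N d ∣ d := Nat.gcd_dvd_left d (N / d)
  obtain ⟨a, hcop, hcast⟩ : ∃ a : ℤ, IsCoprime a (d : ℤ) ∧
      (a : ZMod (combCuspsE N d)) = (w : ZMod (combCuspsE N d)) := by
    obtain ⟨v, hv⟩ := ZMod.unitsMap_surjective hed (ZMod.unitOfCoprime w hwcop.symm)
    refine ⟨(((v : ZMod d).val : ℕ) : ℤ), ?_, ?_⟩
    · rw [Nat.isCoprime_iff_coprime]
      exact ZMod.val_coe_unit_coprime v
    · have h1 := congrArg (fun z : (ZMod (combCuspsE N d))ˣ => (z : ZMod (combCuspsE N d))) hv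
      simp only [ZMod.coe_unitOfCoprime, ZMod.unitsMap_def, Units.coe_map, MonoidHom.coe_coe,
        ZMod.castHom_apply] at h1
      rw [← h1]
      push_cast
      rw [ZMod.natCast_val]
  obtain ⟨x, y, hxy⟩ := hcop
  have hdet : (!![a, -y; (d : ℤ), x] : Matrix (Fin 2) (Fin 2) ℤ).det = 1 := by
    rw [Matrix.det_fin_two]; simp; linarith
  refine ⟨⟨!![a, -y; (d : ℤ), x], hdet⟩, ?_⟩
  unfold combCuspsPhi
  have h10 : (⟨!![a, -y; (d : ℤ), x], hdet⟩ : SL(2, ℤ)).1 1 0 = (d : ℤ) := by simp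
  have h00 : (⟨!![a, -y; (d : ℤ), x], hdet⟩ : SL(2, ℤ)).1 0 0 = a := by simp
  rw [h10, h00, Int.gcd_natCast_natCast, Nat.gcd_eq_left hdN]
  congr 1
  unfold combCuspsW
  rw [hcast, Int.ediv_self (by exact_mod_cast hd0)]
  have hone : (1 : ZMod (combCuspsE N d))⁻¹ = 1 := by
    have := ZMod.mul_inv_of_unit (1 : ZMod (combCuspsE N d)) isUnit_one
    rwa [one_mul] at this
  rw [Int.cast_one, hone, mul_one]
  exact ZMod.val_natCast_of_lt hwlt

theorem card_orbits_T (N : ℕ) [NeZero N] :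
    Nat.card (MulAction.orbitRel.Quotient (Subgroup.zpowers ModularGroup.T)
      (SL(2, ℤ) ⧸ Gamma0 N)) = ModularCurve.cuspCount N := by
  have hN : N ≠ 0 := NeZero.ne N
  rw [combCusps_card_orbits (Gamma0 N) ModularGroup.T
    (fun g => (⟨combCuspsPhi N g, combCusps_phi_mem hN g⟩ : {x // x ∈ combCuspsS N})) ?_ ?_]
  · rw [Nat.card_eq_fintype_card, Fintype.card_coe, combCusps_card_S]
  · intro x y
    rw [Subtype.mk.injEq]
    exact combCusps_phi_eq_iff hN x y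
  · rintro ⟨x, hx⟩
    obtain ⟨g, hg⟩ := combCusps_phi_surj hN x hx
    exact ⟨g, Subtype.ext hg⟩

end Fermat.Agent.S20
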