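/-
S20 combinatorics, part A: fixed points of `S` and `S * T` on `SL(2,ℤ) ⧸ Γ₀(N)`.
-/
import Mathlib
import Fermat.Prelude.Def_ModularCurve_GenusNumerics
import Fermat.Agent.S20.CombQuot

set_option autoImplicit false

open CongruenceSubgroup
open scoped MatrixGroups

namespace Fermat.Agent.S20

theorem combFixed_smul_mk_eq_iff (N : ℕ) (M g : SL(2, ℤ)) :
    M • (QuotientGroup.mk g : SL(2, ℤ) ⧸ Gamma0 N) = QuotientGroup.mk g ↔
      (N : ℤ) ∣ (M * g) 0 0 * g 1 0 - (M * g) 1 0 * g 0 0 := by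
  rw [MulAction.Quotient.smul_mk, QuotientGroup.eq, combQuot_mem_iff_dvd, combQuot_inv_mul_10]
  rfl

theorem combFixed_mk_eq_iff (N : ℕ) (g h : SL(2, ℤ)) :
    (QuotientGroup.mk g : SL(2, ℤ) ⧸ Gamma0 N) = QuotientGroup.mk h ↔
      (N : ℤ) ∣ g 0 0 * h 1 0 - g 1 0 * h 0 0 := by
  rw [QuotientGroup.eq, combQuot_mem_iff_dvd, combQuot_inv_mul_10]

theorem combFixed_S_iff (N : ℕ) (g : SL(2, ℤ)) :
    ModularGroup.S • (QuotientGroup.mk g : SL(2, ℤ) ⧸ Gamma0 N) = QuotientGroup.mk g ↔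
      ((g 0 0 : ℤ) : ZMod N) ^ 2 + ((g 1 0 : ℤ) : ZMod N) ^ 2 = 0 := by
  rw [combFixed_smul_mk_eq_iff]
  have h1 : (ModularGroup.S * g) 0 0 = - g 1 0 := by
    simp [ModularGroup.S, Matrix.mul_apply, Fin.sum_univ_two]
  have h2 : (ModularGroup.S * g) 1 0 = g 0 0 := by
    simp [ModularGroup.S, Matrix.mul_apply, Fin.sum_univ_two]
  rw [h1, h2, ← ZMod.intCast_zmod_eq_zero_iff_dvd]
  push_cast
  constructor
  · intro h; linear_combination -h
  · intro h; linear_combination -h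

theorem combFixed_ST_iff (N : ℕ) (g : SL(2, ℤ)) :
    (ModularGroup.S * ModularGroup.T) • (QuotientGroup.mk g : SL(2, ℤ) ⧸ Gamma0 N)
        = QuotientGroup.mk g ↔
      ((g 0 0 : ℤ) : ZMod N) ^ 2 + ((g 0 0 : ℤ) : ZMod N) * ((g 1 0 : ℤ) : ZMod N)
        + ((g 1 0 : ℤ) : ZMod N) ^ 2 = 0 := by
  rw [combFixed_smul_mk_eq_iff]
  have h1 : (ModularGroup.S * ModularGroup.T * g) 0 0 = - g 1 0 := by
    simp [ModularGroup.S, ModularGroup.T, Matrix.mul_apply, Fin.sum_univ_two]
  have h2 : (ModularGroup.S * ModularGroup.T * g) 1 0 = g 0 0 + g 1 0 := by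
    simp [ModularGroup.S, ModularGroup.T, Matrix.mul_apply, Fin.sum_univ_two]
  rw [h1, h2, ← ZMod.intCast_zmod_eq_zero_iff_dvd]
  push_cast
  constructor
  · intro h; linear_combination -h
  · intro h; linear_combination -h

theorem combFixed_detZ (N : ℕ) (g : SL(2, ℤ)) :
    ((g 0 0 : ℤ) : ZMod N) * ((g 1 1 : ℤ) : ZMod N)
      - ((g 0 1 : ℤ) : ZMod N) * ((g 1 0 : ℤ) : ZMod N) = 1 := by
  have h2 := congrArg (fun z : ℤ => (z : ZMod N)) (combQuot_det g)
  push_cast at h2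
  exact h2

theorem combFixed_L_00 (c : ℤ) : (combQuotL c) 0 0 = 1 := by simp [combQuotL]
theorem combFixed_L_10 (c : ℤ) : (combQuotL c) 1 0 = c := by simp [combQuotL]

theorem combFixed_val_cast (N : ℕ) [NeZero N] (x : ZMod N) : (((x.val : ℤ)) : ZMod N) = x := by
  simp

/-- general principle -/
theorem combFixed_card (N : ℕ) [NeZero N] (M : SL(2, ℤ)) (P : ZMod N → ZMod N → ZMod N)
    (hM : ∀ g : SL(2, ℤ), M • (QuotientGroup.mk g : SL(2, ℤ) ⧸ Gamma0 N) = QuotientGroup.mk g ↔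
      P ((g 0 0 : ℤ) : ZMod N) ((g 1 0 : ℤ) : ZMod N) = 0)
    (hunit : ∀ a b c d : ZMod N, a * d - b * c = 1 → P a c = 0 → ∃ a', a * a' = 1) :
    Nat.card {q : SL(2, ℤ) ⧸ Gamma0 N // M • q = q} = Nat.card {x : ZMod N // P 1 x = 0} := by
  symm
  refine Nat.card_congr (Equiv.ofBijective
    (fun x => ⟨QuotientGroup.mk (combQuotL (x.1.val : ℤ)), ?_⟩) ⟨?_, ?_⟩)
  · rw [hM, combFixed_L_00, combFixed_L_10, combFixed_val_cast]
    simpa using x.2
  · intro x y hxy
    have h := congrArg Subtype.val hxy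
    simp only at h
    rw [combFixed_mk_eq_iff, combFixed_L_00, combFixed_L_10, combFixed_L_00, combFixed_L_10,
      ← ZMod.intCast_zmod_eq_zero_iff_dvd] at h
    push_cast at h
    rw [ZMod.natCast_zmod_val, ZMod.natCast_zmod_val] at h
    apply Subtype.ext
    linear_combination -h
  · rintro ⟨q, hq⟩
    induction q using QuotientGroup.induction_on with
    | H g =>
      have hP := (hM g).1 hq
      obtain ⟨a', ha'⟩ := hunit _ _ _ _ (combFixed_detZ N g) hP
      have key : (QuotientGroup.mk (combQuotL (((((g 1 0 : ℤ) : ZMod N) * a').val : ℕ) : ℤ)) :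
          SL(2, ℤ) ⧸ Gamma0 N) = QuotientGroup.mk g := by
        rw [combFixed_mk_eq_iff, combFixed_L_00, combFixed_L_10,
          ← ZMod.intCast_zmod_eq_zero_iff_dvd]
        push_cast
        rw [ZMod.natCast_zmod_val]
        linear_combination (-((g 1 0 : ℤ) : ZMod N)) * ha'
      refine ⟨⟨((g 1 0 : ℤ) : ZMod N) * a', ?_⟩, Subtype.ext key⟩
      have h3 := (hM (combQuotL (((((g 1 0 : ℤ) : ZMod N) * a').val : ℕ) : ℤ))).1 (by rw [key]; exact hq)
      rw [combFixed_L_00, combFixed_L_10, combFixed_val_cast] at h3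
      simpa using h3

theorem card_fixed_S (N : ℕ) [NeZero N] :
    Nat.card {q : SL(2, ℤ) ⧸ Gamma0 N // ModularGroup.S • q = q} = ModularCurve.nuTwo N := by
  rw [combFixed_card N ModularGroup.S (fun a c => a ^ 2 + c ^ 2) (combFixed_S_iff N)]
  · unfold ModularCurve.nuTwo
    refine Nat.card_congr (Equiv.subtypeEquivRight fun x => ?_)
    constructor
    · intro h; linear_combination h
    · intro h; linear_combination h
  · intro a b c d h1 h2
    refine ⟨a * d ^ 2 - 2 * b * c * d - a * b ^ 2, ?_⟩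

    linear_combination (a * d - b * c + 1) * h1 - b ^ 2 * h2

theorem card_fixed_ST (N : ℕ) [NeZero N] :
    Nat.card {q : SL(2, ℤ) ⧸ Gamma0 N // (ModularGroup.S * ModularGroup.T) • q = q}
      = ModularCurve.nuThree N := by
  rw [combFixed_card N (ModularGroup.S * ModularGroup.T) (fun a c => a ^ 2 + a * c + c ^ 2)
    (combFixed_ST_iff N)]
  · unfold ModularCurve.nuThree
    refine Nat.card_congr (Equiv.subtypeEquivRight fun x => ?_)
    constructor
    · intro h; linear_combination h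
    · intro h; linear_combination h
  · intro a b c d h1 h2
    refine ⟨a * d ^ 2 - 2 * b * c * d - b ^ 2 * (a + c), ?_⟩

    linear_combination (a * d - b * c + 1) * h1 - b ^ 2 * h2

end Fermat.Agent.S20
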