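/-
S20, basic definitions: vector valued modular forms for the permutation representation of
`SL(2,ℤ)` on `Q N = SL(2,ℤ) ⧸ Γ₀(N)`, frames.
-/
import Fermat.Agent.S23.Pres
import Fermat.Agent.S23.Conv

set_option autoImplicit false

open UpperHalfPlane ModularForm CongruenceSubgroup Filter Topology
open scoped MatrixGroups Manifold

namespace Fermat.Agent.S20

open Fermat.Agent.S23 (Q tr tr_mk tr_one tr_slash tr_mdiff slash_eq_of_mem_Gamma0
  exists_levelOne_of exists_levelOne_cusp_of bdd_sum)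

/-- `φ` is (the family of translates of) a modular form of weight `k` on `Γ₀(N)`. -/
structure IsVF (N : ℕ) (k : ℤ) (φ : Q N → ℍ → ℂ) : Prop where
  slash : ∀ (γ : SL(2, ℤ)) (q : Q N), φ q ∣[k] γ = φ (γ⁻¹ • q)
  holo : ∀ q, MDiff (φ q)
  bdd : ∀ q, IsBoundedAtImInfty (φ q)

/-- `φ` is (the family of translates of) a cusp form of weight `k` on `Γ₀(N)`. -/
structure IsVC (N : ℕ) (k : ℤ) (φ : Q N → ℍ → ℂ) : Prop where
  slash : ∀ (γ : SL(2, ℤ)) (q : Q N), φ q ∣[k] γ = φ (γ⁻¹ • q)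
  holo : ∀ q, MDiff (φ q)
  zero : ∀ q, IsZeroAtImInfty (φ q)

variable {N : ℕ} {k k' : ℤ} {φ ψ : Q N → ℍ → ℂ}

lemma IsVC.isVF (h : IsVC N k φ) : IsVF N k φ :=
  ⟨h.slash, h.holo, fun q => (h.zero q).boundedAtFilter⟩

lemma IsVF.cast (h : IsVF N k φ) (hk : k = k') : IsVF N k' φ := hk ▸ h

lemma IsVC.cast (h : IsVC N k φ) (hk : k = k') : IsVC N k' φ := hk ▸ h

lemma isVF_zero (N : ℕ) (k : ℤ) : IsVF N k (fun _ => 0) :=
  ⟨fun γ _ => SlashAction.zero_slash k γ, fun _ => mdifferentiable_const,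
    fun _ => Filter.const_boundedAtFilter atImInfty (0 : ℂ)⟩

lemma IsVF.add (h : IsVF N k φ) (h' : IsVF N k ψ) : IsVF N k (fun q => φ q + ψ q) :=
  ⟨fun γ q => by rw [SlashAction.add_slash, h.slash, h'.slash],
    fun q => (h.holo q).add (h'.holo q), fun q => (h.bdd q).add (h'.bdd q)⟩

lemma IsVF.smul (h : IsVF N k φ) (c : ℂ) : IsVF N k (fun q => c • φ q) :=
  ⟨fun γ q => by rw [ModularForm.SL_smul_slash, h.slash],
    fun q => (h.holo q).const_smul c, fun q => (h.bdd q).const_smul_left c⟩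

lemma IsVF.sum {ι : Type} (s : Finset ι) {F : ι → Q N → ℍ → ℂ} (h : ∀ i ∈ s, IsVF N k (F i)) :
    IsVF N k (fun q => ∑ i ∈ s, F i q) :=
  ⟨fun γ q => by
      rw [SlashAction.sum_slash]
      exact Finset.sum_congr rfl fun i hi => (h i hi).slash γ q,
    fun q => MDifferentiable.sum fun i hi => (h i hi).holo q,
    fun q => bdd_sum _ _ fun i hi => (h i hi).bdd q⟩

/-- multiplication by a level one form -/
lemma IsVF.mul_levelOne {w : ℤ} (A : ModularForm 𝒮ℒ w) (h : IsVF N k φ) :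
    IsVF N (w + k) (fun q => ⇑A * φ q) :=
  ⟨fun γ q => by
      rw [mul_slash_SL2, h.slash]
      congr 1
      exact SlashInvariantFormClass.slash_action_eq A _ ⟨γ, rfl⟩,
    fun q => A.holo'.mul (h.holo q),
    fun q => (ModularFormClass.bdd_at_infty A).mul (h.bdd q)⟩

/-- the vector attached to a modular form -/
lemma isVF_tr [NeZero N] (f : ModularForm (Gamma0 N) k) : IsVF N k (tr k f (slash_eq_of_mem_Gamma0 f)) :=
  ⟨tr_slash _ _ _, tr_mdiff _ _ _ f.holo', fun q => by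
    induction q using QuotientGroup.induction_on with
    | H g => exact ModularFormClass.bdd_at_infty_slash f g⁻¹⟩

lemma isVC_tr [NeZero N] (f : CuspForm (Gamma0 N) k) : IsVC N k (tr k f (slash_eq_of_mem_Gamma0 f)) :=
  ⟨tr_slash _ _ _, tr_mdiff _ _ _ f.holo', fun q => by
    induction q using QuotientGroup.induction_on with
    | H g => exact CuspFormClass.zero_at_infty_slash f g⁻¹⟩

lemma IsVF.apply_mk (hs : ∀ (γ : SL(2, ℤ)) (q : Q N), φ q ∣[k] γ = φ (γ⁻¹ • q)) (g : SL(2, ℤ)) :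
    φ (QuotientGroup.mk g) = φ (QuotientGroup.mk 1) ∣[k] g⁻¹ := by
  rw [hs, inv_inv, MulAction.Quotient.smul_mk, smul_eq_mul, mul_one]

lemma slash_one_of (hs : ∀ (γ : SL(2, ℤ)) (q : Q N), φ q ∣[k] γ = φ (γ⁻¹ • q))
    (γ : SL(2, ℤ)) (hγ : γ ∈ Gamma0 N) :
    φ (QuotientGroup.mk 1) ∣[k] γ = φ (QuotientGroup.mk 1) := by
  rw [hs, MulAction.Quotient.smul_mk, smul_eq_mul, mul_one]
  congr 1
  rw [QuotientGroup.eq]
  simpa using hγ

/-- the modular form attached to a vector -/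
lemma IsVF.exists_modularForm (h : IsVF N k φ) :
    ∃ f : ModularForm (Gamma0 N) k, ⇑f = φ (QuotientGroup.mk 1) :=
  ⟨{ toFun := φ (QuotientGroup.mk 1)
     slash_action_eq' := by
      rintro _ ⟨γ, hγ, rfl⟩
      exact slash_one_of h.slash γ hγ
     holo' := h.holo _
     bdd_at_cusps' := fun {c} hc => by
      have hc' : IsCusp c 𝒮ℒ := hc.mono (by
        rintro _ ⟨γ, _, rfl⟩
        exact ⟨γ, rfl⟩)
      refine (OnePoint.isBoundedAt_iff_forall_SL2Z hc').mpr fun γ _ => ?_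
      rw [h.slash]
      exact h.bdd _ }, rfl⟩

lemma IsVC.exists_cuspForm (h : IsVC N k φ) :
    ∃ f : CuspForm (Gamma0 N) k, ⇑f = φ (QuotientGroup.mk 1) :=
  ⟨{ toFun := φ (QuotientGroup.mk 1)
     slash_action_eq' := by
      rintro _ ⟨γ, hγ, rfl⟩
      exact slash_one_of h.slash γ hγ
     holo' := h.holo _
     zero_at_cusps' := fun {c} hc => by
      have hc' : IsCusp c 𝒮ℒ := hc.mono (by
        rintro _ ⟨γ, _, rfl⟩
        exact ⟨γ, rfl⟩)
      refine (OnePoint.isZeroAt_iff_forall_SL2Z hc').mpr fun γ _ => ?_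
      rw [h.slash]
      exact h.zero _ }, rfl⟩

/-- a vector is determined by its component at the trivial coset -/
lemma ext_of_one (hs : ∀ (γ : SL(2, ℤ)) (q : Q N), φ q ∣[k] γ = φ (γ⁻¹ • q))
    (hs' : ∀ (γ : SL(2, ℤ)) (q : Q N), ψ q ∣[k] γ = ψ (γ⁻¹ • q))
    (h : φ (QuotientGroup.mk 1) = ψ (QuotientGroup.mk 1)) : φ = ψ := by
  funext q
  induction q using QuotientGroup.induction_on with
  | H g => rw [IsVF.apply_mk hs, IsVF.apply_mk hs', h]

/-! ### Vanishing results -/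

lemma IsVF.eq_zero_of_neg [NeZero N] (h : IsVF N k φ) (hk : k < 0) : φ = fun _ => 0 := by
  obtain ⟨f, hf⟩ := h.exists_modularForm
  refine ext_of_one h.slash (isVF_zero N k).slash ?_
  rw [← hf, ModularForm.isZero_of_neg_weight hk f]
  rfl

lemma IsVF.const_of_weight_zero [NeZero N] (h : IsVF N 0 φ) : ∃ c : ℂ, ∀ q z, φ q z = c := by
  obtain ⟨f, hf⟩ := h.exists_modularForm
  obtain ⟨c, hc⟩ := ModularForm.eq_const_of_weight_zero f
  refine ⟨c, fun q z => ?_⟩
  induction q using QuotientGroup.induction_on with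
  | H g =>
    rw [IsVF.apply_mk h.slash, ← hf, hc, SL_slash_apply]
    simp

lemma IsVC.eq_zero_of_nonpos [NeZero N] (h : IsVC N k φ) (hk : k ≤ 0) : φ = fun _ => 0 := by
  rcases hk.lt_or_eq with hk | rfl
  · exact h.isVF.eq_zero_of_neg hk
  · obtain ⟨c, hc⟩ := h.isVF.const_of_weight_zero
    have h0 : c = 0 := by
      have h1 : Tendsto (φ (QuotientGroup.mk 1)) atImInfty (𝓝 0) := h.zero _
      have h2 : Tendsto (φ (QuotientGroup.mk 1)) atImInfty (𝓝 c) := by
        have : φ (QuotientGroup.mk 1) = fun _ => c := funext fun z => hc _ z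
        rw [this]
        exact tendsto_const_nhds
      exact tendsto_nhds_unique h2 h1
    funext q z
    rw [hc, h0]
    rfl

lemma neg_one_smul_Q (q : Q N) : (-1 : SL(2, ℤ)) • q = q := by
  induction q using QuotientGroup.induction_on with
  | H g =>
    rw [MulAction.Quotient.smul_mk, QuotientGroup.eq]
    simp [Gamma0_mem]

lemma IsVF.eq_zero_of_odd (hs : ∀ (γ : SL(2, ℤ)) (q : Q N), φ q ∣[k] γ = φ (γ⁻¹ • q))
    (hk : Odd k) : φ = fun _ => 0 := by
  funext q z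
  have h1 := congrFun (hs (-1) q) z
  rw [inv_neg, inv_one, neg_one_smul_Q, SL_slash_apply] at h1
  have h2 : denom ((-1 : SL(2, ℤ)) : GL (Fin 2) ℝ) z = -1 := by
    simp [denom]
  have h3 : ((-1 : SL(2, ℤ)) • z) = z := by
    simp
  rw [h3] at h1
  erw [h2] at h1
  rw [(Odd.neg hk).neg_one_zpow] at h1
  have : φ q z = 0 := by linear_combination (-1 / 2 : ℂ) * h1
  simpa using this

/-! ### Traces to level one -/

lemma trace_slash [NeZero N]
    (hs : ∀ (γ : SL(2, ℤ)) (q : Q N), φ q ∣[k] γ = φ (γ⁻¹ • q))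
    (hs' : ∀ (γ : SL(2, ℤ)) (q : Q N), ψ q ∣[k'] γ = ψ (γ⁻¹ • q)) (γ : SL(2, ℤ)) :
    (∑ q, φ q * ψ q) ∣[k + k'] γ = ∑ q, φ q * ψ q := by
  rw [SlashAction.sum_slash]
  simp only [mul_slash_SL2, hs, hs']
  exact Equiv.sum_comp (MulAction.toPerm (γ⁻¹ : SL(2, ℤ))) (fun q => φ q * ψ q)

lemma IsVF.trace_mul [NeZero N] (h : IsVF N k φ) (h' : IsVF N k' ψ) :
    ∃ M : ModularForm 𝒮ℒ (k + k'), ⇑M = ∑ q, φ q * ψ q :=
  exists_levelOne_of _ _ (trace_slash h.slash h'.slash)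
    (MDifferentiable.sum fun q _ => (h.holo q).mul (h'.holo q))
    (bdd_sum _ _ fun q _ => (h.bdd q).mul (h'.bdd q))

lemma IsVF.trace_mul_cusp [NeZero N] (h : IsVF N k φ) (h' : IsVC N k' ψ) :
    ∃ M : CuspForm 𝒮ℒ (k + k'), ⇑M = ∑ q, φ q * ψ q := by
  refine exists_levelOne_cusp_of _ _ (trace_slash h.slash h'.slash)
    (MDifferentiable.sum fun q _ => (h.holo q).mul (h'.holo q)) ?_
  have h1 : ∀ q ∈ (Finset.univ : Finset (Q N)),
      Tendsto (fun z => φ q z * ψ q z) atImInfty (𝓝 0) := fun q _ =>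
    BoundedAtFilter.mul_zeroAtFilter (h.bdd q) (h'.zero q)
  have := tendsto_finsetSum _ h1
  simpa [IsZeroAtImInfty, ZeroAtFilter, Finset.sum_fn] using this

/-! ### Frames -/

noncomputable instance instDecEqQ (N : ℕ) : DecidableEq (Q N) := Classical.decEq _

/-- the matrix of values of a family of vectors (columns = members of the family) -/
noncomputable def Mat (φ : Q N → Q N → ℍ → ℂ) (z : ℍ) : Matrix (Q N) (Q N) ℂ :=
  Matrix.of fun q j => φ j q z

@[simp] lemma Mat_apply (φ : Q N → Q N → ℍ → ℂ) (z : ℍ) (q j : Q N) : Mat φ z q j = φ j q z := rfl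

/-- a frame: as many vector valued forms as the index, generically linearly independent. -/
structure IsFrame (N : ℕ) [NeZero N] (k : Q N → ℤ) (φ : Q N → Q N → ℍ → ℂ) : Prop where
  vf : ∀ j, IsVF N (k j) (φ j)
  det_ne : ∃ z, (Mat φ z).det ≠ 0

/-- a frame of minimal total weight. -/
structure IsMinFrame (N : ℕ) [NeZero N] (k : Q N → ℤ) (φ : Q N → Q N → ℍ → ℂ) : Prop where
  frame : IsFrame N k φ
  min : ∀ (k' : Q N → ℤ) (φ' : Q N → Q N → ℍ → ℂ), IsFrame N k' φ' → ∑ j, k j ≤ ∑ j, k' j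

/-- `G` is a level one form whose zeros are simple and are exactly (contained in) the orbit of
`z₀`, and which does not vanish at `i∞`. -/
structure SimpleDiv {w : ℤ} (G : ModularForm 𝒮ℒ w) (z₀ : ℍ) : Prop where
  zeros : ∀ z, G z = 0 → ∃ γ : SL(2, ℤ), z = γ • z₀
  simple : ∀ z : ℍ, G z = 0 → deriv (⇑G ∘ ofComplex) z ≠ 0
  infty : ∃ c : ℂ, c ≠ 0 ∧ Tendsto G atImInfty (𝓝 c)

/-! ### The translation `T` acting on `ℂ^Q` -/

/-- the matrix of `v ↦ (q ↦ v (T⁻¹ • q))`; for a vector valued form `φ(z+1) = PT * φ(z)`. -/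
noncomputable def PT (N : ℕ) : Matrix (Q N) (Q N) ℂ :=
  Matrix.of fun q q' => if q' = (ModularGroup.T)⁻¹ • q then 1 else 0

/-- `exp(2πi/N)` -/
noncomputable def zetaN (N : ℕ) : ℂ := Complex.exp (2 * Real.pi * Complex.I / N)

/-- the projection onto the `ζ^r`-eigenspace of `PT`. -/
noncomputable def pr (N : ℕ) [NeZero N] (r : ℕ) : Matrix (Q N) (Q N) ℂ :=
  (N : ℂ)⁻¹ • ∑ s ∈ Finset.range N, (zetaN N ^ (r * s))⁻¹ • PT N ^ s

/-- `E(z) = ∑_{0 ≤ r < N} exp(2πi r z / N) p_r`. -/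
noncomputable def EE (N : ℕ) [NeZero N] (z : ℂ) : Matrix (Q N) (Q N) ℂ :=
  ∑ r ∈ Finset.range N, Complex.exp (2 * Real.pi * Complex.I * r * z / N) • pr N r

/-- the number of cusps of `Γ₀(N)`, as the number of `T`-orbits on `Q N`. -/
noncomputable def numCusps (N : ℕ) : ℕ :=
  Nat.card (MulAction.orbitRel.Quotient (Subgroup.zpowers ModularGroup.T) (Q N))

/-- the vector of leading coefficients at `i∞`. -/
noncomputable def Lam (N : ℕ) [NeZero N] (φ : Q N → ℍ → ℂ) (q : Q N) : ℂ :=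
  limUnder atImInfty (fun z : ℍ => Matrix.mulVec (EE N (-(z : ℂ))) (fun q' => φ q' z) q)

end Fermat.Agent.S20
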