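/-
S20: division of vector valued forms by level one forms.
-/
import Fermat.Agent.S20.Basic

set_option autoImplicit false

open UpperHalfPlane ModularForm CongruenceSubgroup Filter Topology Asymptotics
open scoped MatrixGroups Manifold

namespace Fermat.Agent.S20

open Fermat.Agent.S23 (Q)

/-- local division of holomorphic functions: `g` has only simple zeros, at which `f` vanishes. -/
theorem div_exists_quotient {U : Set ℂ} (hU : IsOpen U) {f g : ℂ → ℂ}
    (hf : DifferentiableOn ℂ f U) (hg : DifferentiableOn ℂ g U)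
    (h0 : ∀ z ∈ U, g z = 0 → f z = 0 ∧ deriv g z ≠ 0) :
    ∃ h : ℂ → ℂ, DifferentiableOn ℂ h U ∧ ∀ z ∈ U, g z * h z = f z := by
  classical
  refine ⟨fun z => if g z = 0 then deriv f z / deriv g z else f z / g z, ?_, ?_⟩
  · intro z₀ hz₀
    refine DifferentiableAt.differentiableWithinAt ?_
    have hUn : U ∈ 𝓝 z₀ := hU.mem_nhds hz₀
    by_cases hgz : g z₀ = 0
    · obtain ⟨hfz, hdg⟩ := h0 z₀ hz₀ hgz
      have hf1 : DifferentiableAt ℂ (dslope f z₀) z₀ :=
        ((Complex.differentiableOn_dslope hUn).mpr hf).differentiableAt hUn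
      have hg1 : DifferentiableAt ℂ (dslope g z₀) z₀ :=
        ((Complex.differentiableOn_dslope hUn).mpr hg).differentiableAt hUn
      have hg1z : dslope g z₀ z₀ ≠ 0 := by rw [dslope_same]; exact hdg
      have hev : ∀ᶠ w in 𝓝 z₀, dslope g z₀ w ≠ 0 := hg1.continuousAt.eventually_ne hg1z
      refine (hf1.div hg1 hg1z).congr_of_eventuallyEq ?_
      filter_upwards [hev] with w hw
      by_cases hwz : w = z₀
      · subst hwz
        simp only [hgz, if_true, Pi.div_apply, dslope_same]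
      · have e1 : g w = (w - z₀) * dslope g z₀ w := by
          have := sub_smul_dslope g z₀ w
          rw [hgz, sub_zero, smul_eq_mul] at this
          exact this.symm
        have e2 : f w = (w - z₀) * dslope f z₀ w := by
          have := sub_smul_dslope f z₀ w
          rw [hfz, sub_zero, smul_eq_mul] at this
          exact this.symm
        have hne : w - z₀ ≠ 0 := sub_ne_zero.mpr hwz
        have hgw : g w ≠ 0 := by rw [e1]; exact mul_ne_zero hne hw
        simp only [hgw, if_false, Pi.div_apply]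
        rw [e1, e2, mul_div_mul_left _ _ hne]
    · have hgd := hg.differentiableAt hUn
      have hev : ∀ᶠ w in 𝓝 z₀, g w ≠ 0 := hgd.continuousAt.eventually_ne hgz
      refine ((hf.differentiableAt hUn).div hgd hgz).congr_of_eventuallyEq ?_
      filter_upwards [hev] with w hw
      simp only [hw, if_false, Pi.div_apply]
  · intro z hz
    by_cases hgz : g z = 0
    · simp only [hgz, if_true, zero_mul]
      exact (h0 z hz hgz).1.symm
    · simp only [hgz, if_false]
      field_simp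

variable {N : ℕ} {k : ℤ} {φ : Q N → ℍ → ℂ}

lemma div_apply_smul_eq_zero (hs : ∀ (γ : SL(2, ℤ)) (q : Q N), φ q ∣[k] γ = φ (γ⁻¹ • q))
    {z₀ : ℍ} (h0 : ∀ q, φ q z₀ = 0) (γ : SL(2, ℤ)) (q : Q N) : φ q (γ • z₀) = 0 := by
  have h1 := congrFun (hs γ q) z₀
  rw [SL_slash_apply, h0] at h1
  exact (mul_eq_zero.mp h1).resolve_right (zpow_ne_zero _ (denom_ne_zero _ _))

/-- If all components of `φ` vanish at `z₀` then `φ` is divisible by `G`. -/
theorem IsVF.div [NeZero N] {w : ℤ} {G : ModularForm 𝒮ℒ w} {z₀ : ℍ} (hG : SimpleDiv G z₀)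
    (hφ : IsVF N k φ) (h0 : ∀ q, φ q z₀ = 0) :
    ∃ ψ : Q N → ℍ → ℂ, IsVF N (k - w) ψ ∧ ∀ q z, G z * ψ q z = φ q z := by
  have hex : ∀ q, ∃ h : ℂ → ℂ, DifferentiableOn ℂ h {z : ℂ | 0 < z.im} ∧
      ∀ z ∈ {z : ℂ | 0 < z.im}, (⇑G ∘ ofComplex) z * h z = (φ q ∘ ofComplex) z := by
    intro q
    apply div_exists_quotient isOpen_upperHalfPlaneSet
      (UpperHalfPlane.mdifferentiable_iff.mp (hφ.holo q))
      (UpperHalfPlane.mdifferentiable_iff.mp G.holo')
    intro z hz hgz
    have e : ofComplex z = ⟨z, hz⟩ := ofComplex_apply_of_im_pos hz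
    simp only [Function.comp_apply, e] at hgz ⊢
    obtain ⟨γ, hγ⟩ := hG.zeros _ hgz
    refine ⟨by rw [hγ]; exact div_apply_smul_eq_zero hφ.slash h0 γ q, hG.simple ⟨z, hz⟩ hgz⟩
  choose h hd hmul using hex
  let ψ : Q N → ℍ → ℂ := fun q z => h q (z : ℂ)
  have hψmul : ∀ q z, G z * ψ q z = φ q z := by
    intro q z
    have := hmul q (z : ℂ) z.2
    simpa using this
  have hholo : ∀ q, MDiff (ψ q) := by
    intro q
    rw [UpperHalfPlane.mdifferentiable_iff]
    refine (hd q).congr ?_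
    intro z hz
    simp only [Function.comp_apply, ψ, ofComplex_apply_of_im_pos hz]
  obtain ⟨c, hc0, hc⟩ := hG.infty
  have hG0 : (⇑G : ℍ → ℂ) ≠ 0 := by
    intro hzero
    rw [hzero] at hc
    exact hc0 (tendsto_nhds_unique hc tendsto_const_nhds)
  refine ⟨ψ, ⟨?_, hholo, ?_⟩, hψmul⟩
  · intro γ q
    have hGs : (⇑G : ℍ → ℂ) ∣[w] γ = G := SlashInvariantFormClass.slash_action_eq G _ ⟨γ, rfl⟩
    have e1 : ∀ q, (⇑G : ℍ → ℂ) * ψ q = φ q := fun q => funext fun z => hψmul q z
    have e2 : (⇑G : ℍ → ℂ) * (ψ q ∣[k - w] γ) = G * ψ (γ⁻¹ • q) := by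
      rw [e1, ← hφ.slash, ← e1 q]
      have := mul_slash_SL2 w (k - w) γ (⇑G) (ψ q)
      rw [hGs] at this
      rw [← this]
      congr 1
      ring
    have e3 : (ψ q ∣[k - w] γ - ψ (γ⁻¹ • q)) * (⇑G : ℍ → ℂ) = 0 := by
      rw [sub_mul, mul_comm, e2, mul_comm, sub_self]
    have hcont : Continuous (ψ q ∣[k - w] γ - ψ (γ⁻¹ • q)) :=
      (((hholo q).slash (k - w) _).sub (hholo _)).continuous
    exact sub_eq_zero.mp (Fermat.Agent.S23.conv_eq_zero_of_mul_eq_zero G.holo' hG0 hcont e3)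
  · intro q
    have hcpos : 0 < ‖c‖ / 2 := by positivity
    have hev : ∀ᶠ z in atImInfty, ‖c‖ / 2 < ‖G z‖ :=
      (hc.norm).eventually_const_lt (by linarith)
    have h1 : ψ q =O[atImInfty] φ q := by
      refine IsBigO.of_bound (‖c‖ / 2)⁻¹ ?_
      filter_upwards [hev] with z hz
      rw [← hψmul q z, norm_mul, ← mul_assoc]
      have : 1 ≤ (‖c‖ / 2)⁻¹ * ‖G z‖ := by
        rw [inv_mul_eq_div, one_le_div hcpos]
        exact hz.le
      nlinarith [norm_nonneg (ψ q z)]
    exact h1.trans (hφ.bdd q)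

/-- If all components of `φ` are `O(exp(-2π Im z))` then `φ` is divisible by `Δ`. -/
theorem IsVF.div_discriminant [NeZero N] (hφ : IsVF N k φ)
    (h0 : ∀ q, φ q =O[atImInfty] fun z : ℍ => Real.exp (-2 * Real.pi * z.im)) :
    ∃ ψ : Q N → ℍ → ℂ, IsVF N (k - 12) ψ ∧ ∀ q z, discriminant z * ψ q z = φ q z := by
  refine ⟨fun q => φ q / discriminant, ⟨?_, ?_, ?_⟩, ?_⟩
  · intro γ q
    rw [div_slash_SL2, hφ.slash]
    congr 1
    exact SlashInvariantFormClass.slash_action_eq CuspForm.discriminant _ ⟨γ, rfl⟩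
  · intro q
    exact (hφ.holo q).div CuspForm.discriminant.holo' discriminant_ne_zero
  · intro q
    have h1 : φ q =O[atImInfty] discriminant := (h0 q).trans exp_isBigO_discriminant
    exact (div_isBoundedUnder_of_isBigO h1).isBigO_one ℝ
  · intro q z
    simp only [Pi.div_apply]
    field_simp [discriminant_ne_zero z]

end Fermat.Agent.S20
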