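/-
S20: frames.  Existence of frames (Vandermonde in a primitive element), minimal frames, the
reduction lemma, covariance of the matrix of a frame.
-/
import Fermat.Agent.S20.Basic
import Fermat.Agent.S23.Prim

set_option autoImplicit false

open UpperHalfPlane ModularForm CongruenceSubgroup Filter Topology
open scoped MatrixGroups Manifold

namespace Fermat.Agent.S20

open Fermat.Agent.S23 (Q tr tr_mk tr_one tr_slash tr_mdiff slash_eq_of_mem_Gamma0 exists_prim
  pow_slash_SL)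

variable {N : ℕ} [NeZero N] {k : Q N → ℤ} {φ : Q N → Q N → ℍ → ℂ}

/-! ### Covariance -/

omit [NeZero N] in
lemma prod_zpow_eq {ι : Type*} {a : ℂ} (ha : a ≠ 0) (s : Finset ι) (f : ι → ℤ) :
    ∏ j ∈ s, a ^ f j = a ^ ∑ j ∈ s, f j := by
  classical
  induction s using Finset.induction_on with
  | empty => simp
  | insert i s hi ih => rw [Finset.prod_insert hi, Finset.sum_insert hi, ih, zpow_add₀ ha]

omit [NeZero N] in
lemma apply_smul {κ : ℤ} {f : Q N → ℍ → ℂ}
    (hs : ∀ (γ : SL(2, ℤ)) (q : Q N), f q ∣[κ] γ = f (γ⁻¹ • q)) (γ : SL(2, ℤ)) (q : Q N) (z : ℍ) :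
    f q (γ • z) = denom γ z ^ κ * f (γ⁻¹ • q) z := by
  rw [← hs, SL_slash_apply, mul_comm, mul_assoc, ← zpow_add₀ (denom_ne_zero _ _)]
  simp

lemma Mat_smul (hs : ∀ j (γ : SL(2, ℤ)) (q : Q N), φ j q ∣[k j] γ = φ j (γ⁻¹ • q))
    (γ : SL(2, ℤ)) (z : ℍ) :
    Mat φ (γ • z) = Matrix.of fun q j => denom γ z ^ k j *
      ((Mat φ z).submatrix (MulAction.toPerm (γ⁻¹ : SL(2, ℤ))) id) q j := by
  ext q j
  exact apply_smul (hs j) γ q z

lemma det_Mat_smul (hs : ∀ j (γ : SL(2, ℤ)) (q : Q N), φ j q ∣[k j] γ = φ j (γ⁻¹ • q))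
    (γ : SL(2, ℤ)) (z : ℍ) :
    (Mat φ (γ • z)).det = (∏ j, denom γ z ^ k j) *
      (((Equiv.Perm.sign (MulAction.toPerm (γ⁻¹ : SL(2, ℤ)) : Equiv.Perm (Q N)) : ℤˣ) : ℤ) : ℂ)
        * (Mat φ z).det := by
  rw [Mat_smul hs, Matrix.det_mul_row, Matrix.det_permute]
  ring

lemma det_Mat_smul_ne_zero (hs : ∀ j (γ : SL(2, ℤ)) (q : Q N), φ j q ∣[k j] γ = φ j (γ⁻¹ • q))
    (γ : SL(2, ℤ)) (z : ℍ) (h : (Mat φ z).det ≠ 0) : (Mat φ (γ • z)).det ≠ 0 := by
  rw [det_Mat_smul hs]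
  refine mul_ne_zero (mul_ne_zero ?_ ?_) h
  · exact Finset.prod_ne_zero_iff.mpr fun j _ => zpow_ne_zero _ (denom_ne_zero _ _)
  · rcases Int.units_eq_one_or (Equiv.Perm.sign (MulAction.toPerm (γ⁻¹ : SL(2, ℤ)) :
      Equiv.Perm (Q N))) with h | h <;> simp [h]

lemma det_Mat_sq_smul (hs : ∀ j (γ : SL(2, ℤ)) (q : Q N), φ j q ∣[k j] γ = φ j (γ⁻¹ • q))
    (γ : SL(2, ℤ)) (z : ℍ) :
    (Mat φ (γ • z)).det ^ 2 = denom γ z ^ (2 * ∑ j, k j) * (Mat φ z).det ^ 2 := by
  rw [det_Mat_smul hs, mul_pow, mul_pow]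
  have h1 : ((((Equiv.Perm.sign (MulAction.toPerm (γ⁻¹ : SL(2, ℤ)) : Equiv.Perm (Q N)) : ℤˣ) : ℤ)
      : ℂ)) ^ 2 = 1 := by
    rcases Int.units_eq_one_or (Equiv.Perm.sign (MulAction.toPerm (γ⁻¹ : SL(2, ℤ)) :
      Equiv.Perm (Q N))) with h | h <;> simp [h]
  rw [h1, mul_one, prod_zpow_eq (denom_ne_zero _ _), ← zpow_natCast, ← zpow_mul]
  congr 2
  push_cast
  ring

lemma mdiff_det (hh : ∀ j q, MDiff (φ j q)) : MDiff (fun z => (Mat φ z).det) := by
  have : (fun z => (Mat φ z).det) = ∑ σ : Equiv.Perm (Q N),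
      (((Equiv.Perm.sign σ : ℤˣ) : ℤ) : ℂ) • ∏ i, φ i (σ i) := by
    ext z
    rw [Matrix.det_apply']
    simp [Finset.sum_apply, Finset.prod_apply]
  rw [this]
  exact MDifferentiable.sum fun σ _ => (MDifferentiable.prod fun i _ => hh _ _).const_smul _

/-! ### Weights of a frame -/

lemma IsFrame.ne_zero (h : IsFrame N k φ) (j : Q N) : φ j ≠ fun _ => 0 := by
  intro h0
  obtain ⟨z, hz⟩ := h.det_ne
  exact hz (Matrix.det_eq_zero_of_column_eq_zero j fun q => by simp [h0])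

lemma IsFrame.weight_nonneg (h : IsFrame N k φ) (j : Q N) : 0 ≤ k j := by
  by_contra hk
  exact h.ne_zero j ((h.vf j).eq_zero_of_neg (not_le.mp hk))

lemma IsFrame.weight_even (h : IsFrame N k φ) (j : Q N) : Even (k j) := by
  by_contra hk
  exact h.ne_zero j (IsVF.eq_zero_of_odd (h.vf j).slash (Int.not_even_iff_odd.mp hk))

/-! ### Existence -/

theorem exists_frame (N : ℕ) [NeZero N] :
    ∃ (k : Q N → ℤ) (φ : Q N → Q N → ℍ → ℂ), IsFrame N k φ := by
  obtain ⟨h, -, hh⟩ := exists_prim N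
  set χ : Q N → ℍ → ℂ := tr 4 h (slash_eq_of_mem_Gamma0 h) with hχ
  have hχv : IsVF N 4 χ := isVF_tr h
  have hinj : Function.Injective χ := by
    intro q q' hqq
    induction q using QuotientGroup.induction_on with
    | H g =>
      induction q' using QuotientGroup.induction_on with
      | H g' =>
        rw [hχ, tr_mk, tr_mk] at hqq
        have h1 : (⇑h : ℍ → ℂ) ∣[(4 : ℤ)] (g⁻¹ * g') = ⇑h := by
          rw [SlashAction.slash_mul, hqq, ← SlashAction.slash_mul, inv_mul_cancel,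
            SlashAction.slash_one]
        rw [QuotientGroup.eq]
        by_contra hg
        exact hh _ hg h1
  let e : Q N ≃ Fin (Fintype.card (Q N)) := Fintype.equivFin _
  refine ⟨fun j => ((e j : ℕ) : ℤ) * 4, fun j q => χ q ^ (e j : ℕ), ⟨fun j => ⟨?_, ?_, ?_⟩, ?_⟩⟩
  · intro γ q
    rw [pow_slash_SL, hχv.slash]
  · intro q
    exact (hχv.holo q).pow _
  · intro q
    have := Filter.BoundedAtFilter.prod (Finset.range (e j : ℕ)) (f := fun _ => χ q)
      (l := atImInfty) (fun _ _ => hχv.bdd q)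
    simpa [IsBoundedAtImInfty] using this
  · have hne : ∏ p ∈ (Finset.univ : Finset (Q N × Q N)).filter (fun p => p.1 ≠ p.2),
        (χ p.1 - χ p.2) ≠ 0 := by
      intro h0
      rw [UpperHalfPlane.prod_eq_zero_iff (fun p _ => (hχv.holo _).sub (hχv.holo _))] at h0
      obtain ⟨p, hp, hp0⟩ := h0
      exact (Finset.mem_filter.mp hp).2 (hinj (sub_eq_zero.mp hp0))
    obtain ⟨z, hz⟩ := Function.ne_iff.mp hne
    refine ⟨z, ?_⟩
    have hz' : Function.Injective fun q => χ q z := by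
      intro q q' hqq
      by_contra hne'
      apply hz
      rw [Finset.prod_apply]
      refine Finset.prod_eq_zero (i := (q, q')) (by simpa using hne') ?_
      simpa [sub_eq_zero] using hqq
    have h2 : Mat (fun j q => χ q ^ (e j : ℕ)) z
        = (Matrix.vandermonde fun i => χ (e.symm i) z).submatrix e e := by
      ext q j
      simp [Matrix.vandermonde_apply]
    rw [h2, Matrix.det_submatrix_equiv_self, Matrix.det_vandermonde_ne_zero_iff]
    exact hz'.comp e.symm.injective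

theorem exists_minFrame (N : ℕ) [NeZero N] :
    ∃ (k : Q N → ℤ) (φ : Q N → Q N → ℍ → ℂ), IsMinFrame N k φ := by
  classical
  have hex : ∃ n : ℕ, ∃ (k : Q N → ℤ) (φ : Q N → Q N → ℍ → ℂ), IsFrame N k φ ∧ ∑ j, k j = n := by
    obtain ⟨k, φ, h⟩ := exists_frame N
    refine ⟨(∑ j, k j).toNat, k, φ, h, ?_⟩
    rw [Int.toNat_of_nonneg (Finset.sum_nonneg fun j _ => h.weight_nonneg j)]
  obtain ⟨k, φ, h, hn⟩ := Nat.find_spec hex
  refine ⟨k, φ, h, fun k' φ' h' => ?_⟩
  have h1 : Nat.find hex ≤ (∑ j, k' j).toNat :=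
    Nat.find_min' hex ⟨k', φ', h', by
      rw [Int.toNat_of_nonneg (Finset.sum_nonneg fun j _ => h'.weight_nonneg j)]⟩
  have h2 := Int.toNat_of_nonneg (Finset.sum_nonneg fun j (_ : j ∈ Finset.univ) =>
    h'.weight_nonneg j)
  omega

/-! ### The reduction lemma -/

theorem IsMinFrame.no_reduction (h : IsMinFrame N k φ) (b : Q N → ℍ → ℂ) (G : ℍ → ℂ)
    (ψ : Q N → ℍ → ℂ) (W : ℤ) (hψ : IsVF N W ψ)
    (hrel : ∀ q z, G z * ψ q z = ∑ j, b j z * φ j q z) (j₀ : Q N) (hb : MDiff (b j₀))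
    (hb0 : b j₀ ≠ 0) (hW : W < k j₀) : False := by
  have hD : MDiff (fun z => (Mat φ z).det) := mdiff_det fun j q => (h.frame.vf j).holo q
  have hD0 : (fun z => (Mat φ z).det) ≠ 0 := by
    obtain ⟨z, hz⟩ := h.frame.det_ne
    exact fun h0 => hz (congrFun h0 z)
  have hprod : b j₀ * (fun z => (Mat φ z).det) ≠ 0 := by
    rw [Ne, UpperHalfPlane.mul_eq_zero_iff hb hD]
    tauto
  obtain ⟨z, hz⟩ := Function.ne_iff.mp hprod
  have hframe : IsFrame N (Function.update k j₀ W) (Function.update φ j₀ ψ) := by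
    refine ⟨fun j => ?_, z, ?_⟩
    · by_cases hj : j = j₀
      · subst hj
        simpa using hψ
      · simpa [Function.update_of_ne hj] using h.frame.vf j
    · have h1 : Mat (Function.update φ j₀ ψ) z = (Mat φ z).updateCol j₀ fun q => ψ q z := by
        ext q j
        by_cases hj : j = j₀
        · subst hj
          simp
        · simp [Function.update_of_ne hj, Matrix.updateCol_ne hj]
      have h2 : G z * ((Mat φ z).updateCol j₀ fun q => ψ q z).det = b j₀ z * (Mat φ z).det := by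
        rw [← Matrix.det_updateCol_smul, ← smul_eq_mul (b j₀ z),
          ← Matrix.det_updateCol_sum (Mat φ z) j₀ (fun j => b j z)]
        congr 2
        funext q
        simpa using hrel q z
      rw [h1]
      intro h0
      rw [h0, mul_zero] at h2
      exact hz h2.symm
  have h3 := h.min _ _ hframe
  have h4 : ∑ j, Function.update k j₀ W j = ∑ j, k j - k j₀ + W := by
    rw [Finset.sum_update_of_mem (Finset.mem_univ j₀), ← Finset.sum_erase_eq_sub (Finset.mem_univ j₀)]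
    rw [Finset.sdiff_singleton_eq_erase]
    ring
  omega

end Fermat.Agent.S20
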