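/-
S20 level one input, part 1: `(E₄, E₆)` up to weighted scaling determines the `SL(2,ℤ)`-orbit
(lattices are determined by their Eisenstein sums, via the Weierstrass `℘`-function).
-/
import Mathlib

set_option autoImplicit false

open UpperHalfPlane ModularForm EisensteinSeries Filter Topology
open scoped MatrixGroups PeriodPair

namespace Fermat.Agent.S20


lemma jinj_exists_monomial (k : ℤ) (hk : 4 ≤ k) (he : Even k) :
    ∃ (a b : ℕ) (G : ModularForm 𝒮ℒ k), (a : ℤ) * 4 + (b : ℤ) * 6 = k ∧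
      (∀ τ, G τ = E₄ τ ^ a * E₆ τ ^ b) ∧ (qExpansion 1 G).coeff 0 = 1 := by
  obtain ⟨a, b, hab⟩ : ∃ a b : ℕ, (a : ℤ) * 4 + (b : ℤ) * 6 = k := by
    obtain ⟨m, hm⟩ := he
    rcases Int.even_or_odd' m with ⟨c, hc | hc⟩
    · exact ⟨c.toNat, 0, by omega⟩
    · exact ⟨(c - 1).toNat, 1, by omega⟩
  refine ⟨a, b, ModularForm.mcast hab ((E₄.pow a).mul (E₆.pow b)), hab, fun τ => by simp, ?_⟩
  rw [ModularForm.qExpansion_mcast, ModularForm.qExpansion_mul one_pos one_mem_strictPeriods_SL,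
    ModularForm.qExpansion_pow one_pos one_mem_strictPeriods_SL,
    ModularForm.qExpansion_pow one_pos one_mem_strictPeriods_SL]
  have h4 := E_qExpansion_coeff_zero (k := 4) (by norm_num) ⟨2, rfl⟩
  have h6 := E_qExpansion_coeff_zero (k := 6) (by norm_num) ⟨3, rfl⟩
  simp only [PowerSeries.coeff_zero_eq_constantCoeff, map_mul, map_pow] at h4 h6 ⊢
  rw [h4, h6]
  simp

section
variable (z w : ℍ) (lam : ℂ) (hlam : lam ≠ 0)
    (h4 : E₄ w = lam ^ 4 * E₄ z) (h6 : E₆ w = lam ^ 6 * E₆ z)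
include hlam h4 h6

lemma jinj_scale_step (k : ℤ) (ih : ∀ F₁ : ModularForm 𝒮ℒ (k - 12), F₁ w = lam ^ (k - 12) * F₁ z)
    (F : ModularForm 𝒮ℒ k) : F w = lam ^ k * F z := by
  rcases lt_trichotomy k 0 with hk | hk | hk
  · rw [rank_zero_iff_forall_zero.mp (levelOne_neg_weight_rank_zero hk) F]
    simp
  · subst hk
    obtain ⟨c, hc⟩ := ModularFormClass.levelOne_weight_zero_const F
    rw [hc]; simp
  · rcases Int.even_or_odd k with he | ho
    swap
    · rw [levelOne_odd_weight_eq_zero ho F]; simp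
    by_cases h2 : k = 2
    · subst h2
      rw [rank_zero_iff_forall_zero.mp levelOne_weight_two_rank_zero F]; simp
    have hk4 : 4 ≤ k := by
      obtain ⟨m, hm⟩ := he
      omega
    obtain ⟨a, b, G, hab, hG, hG0⟩ := jinj_exists_monomial k hk4 he
    have hcusp := (isCuspForm_iff_coeffZero_eq_zero _).mp (sub_smul_isCuspForm F G hG0)
    generalize (qExpansion 1 F).coeff 0 = c at hcusp
    set F₁ : ModularForm 𝒮ℒ (k - 12) := CuspForm.discriminantEquiv (toCuspForm (F - c • G) hcusp)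
      with hF₁
    have hdec : ∀ τ, F τ = c * G τ + discriminant τ * F₁ τ := by
      intro τ
      rw [hF₁, discriminant_mul_discriminantEquiv_apply, toCuspForm_apply]
      simp
    have hGs : G w = lam ^ k * G z := by
      rw [hG, hG, h4, h6, ← hab, zpow_add₀ hlam, zpow_mul, zpow_mul]
      simp only [zpow_natCast]
      have e1 : (lam ^ a) ^ (4 : ℤ) = (lam ^ 4) ^ a := by
        rw [show (4 : ℤ) = ((4 : ℕ) : ℤ) from rfl, zpow_natCast, ← pow_mul, ← pow_mul, mul_comm]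
      have e2 : (lam ^ b) ^ (6 : ℤ) = (lam ^ 6) ^ b := by
        rw [show (6 : ℤ) = ((6 : ℕ) : ℤ) from rfl, zpow_natCast, ← pow_mul, ← pow_mul, mul_comm]
      rw [e1, e2, mul_pow, mul_pow]
      ring
    have hΔ : discriminant w = lam ^ (12 : ℤ) * discriminant z := by
      rw [discriminant_eq_E₄_cube_sub_E₆_sq, discriminant_eq_E₄_cube_sub_E₆_sq, h4, h6,
        show (12 : ℤ) = ((12 : ℕ) : ℤ) from rfl, zpow_natCast]
      ring
    rw [hdec w, hdec z, hGs, hΔ, ih F₁]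
    have e3 : lam ^ k = lam ^ (12 : ℤ) * lam ^ (k - 12) := by
      rw [← zpow_add₀ hlam]; congr 1; ring
    rw [e3]
    ring

theorem jinj_scale : ∀ (n : ℕ) (k : ℤ), k < n → ∀ F : ModularForm 𝒮ℒ k, F w = lam ^ k * F z := by
  intro n
  induction n with
  | zero =>
    intro k hk F
    rw [rank_zero_iff_forall_zero.mp (levelOne_neg_weight_rank_zero (by simpa using hk)) F]
    simp
  | succ n ih =>
    intro k hk F
    exact jinj_scale_step z w lam hlam h4 h6 k (ih (k - 12) (by push_cast at hk; omega)) F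

theorem jinj_scale' {k : ℤ} (F : ModularForm 𝒮ℒ k) : F w = lam ^ k * F z :=
  jinj_scale z w lam hlam h4 h6 (k.toNat + 1) k (by omega) F

end



/-- the period pair `(c τ, c)` -/
noncomputable def jinjPair (c : ℂ) (hc : c ≠ 0) (τ : ℍ) : PeriodPair where
  ω₁ := c * τ
  ω₂ := c
  indep := by
    rw [LinearIndependent.pair_iff]
    intro s t hst
    have h1 : c * ((s : ℂ) * τ + t) = 0 := by
      simp only [Complex.real_smul] at hst
      linear_combination hst
    have h2 : (s : ℂ) * τ + t = 0 := (mul_eq_zero.mp h1).resolve_left hc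
    have h3 := congrArg Complex.im h2
    simp only [Complex.add_im, Complex.mul_im, Complex.ofReal_re, Complex.ofReal_im, zero_mul,
      add_zero, Complex.zero_im, UpperHalfPlane.coe_im] at h3
    have hs : s = 0 := (mul_eq_zero.mp h3).resolve_right τ.im_pos.ne'
    subst hs
    simp only [Complex.ofReal_zero, zero_mul, zero_add, Complex.ofReal_eq_zero] at h2
    exact ⟨rfl, h2⟩

lemma jinj_G (c : ℂ) (hc : c ≠ 0) (τ : ℍ) (n : ℕ) (hn : 3 ≤ n) :
    (jinjPair c hc τ).G n = (c ^ n)⁻¹ * (2 * riemannZeta n * E hn τ) := by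
  have hE : E hn τ = (1 / 2 : ℂ) * eisensteinSeries (N := 1) 0 n τ := by
    rw [show E hn τ = (1 / 2 : ℂ) • eisensteinSeriesSIF (N := 1) 0 n τ from rfl,
      eisensteinSeriesSIF_apply 0 n τ, smul_eq_mul]
  have h1 := tsum_eisSummand_eq_riemannZeta_mul_eisensteinSeries hn τ
  have h2 : 2 * riemannZeta n * E hn τ = ∑' v : Fin 2 → ℤ, eisSummand n v τ := by
    rw [h1, hE]; ring
  rw [h2, PeriodPair.G, ← tsum_mul_left,
    ← ((jinjPair c hc τ).latticeEquivProd.symm.toEquiv).tsum_eq,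
    ← (finTwoArrowEquiv ℤ).tsum_eq]
  refine tsum_congr fun v => ?_
  simp only [LinearEquiv.coe_toEquiv, PeriodPair.latticeEquiv_symm_apply, finTwoArrowEquiv_apply,
    eisSummand, zpow_neg, zpow_natCast]
  rw [← mul_inv, ← mul_pow]
  congr 2
  have e1 : ((finTwoArrowEquiv ℤ) v).1 = v 0 := rfl
  have e2 : ((finTwoArrowEquiv ℤ) v).2 = v 1 := rfl
  change (((finTwoArrowEquiv ℤ) v).1 : ℂ) * (c * τ) + (((finTwoArrowEquiv ℤ) v).2 : ℂ) * c = _
  rw [e1, e2]
  ring



lemma jinj_except_zero (L : PeriodPair) : ℘[L - (0 : ℂ)] 0 = 0 := by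
  rw [PeriodPair.weierstrassPExcept]
  have : ∀ l : L.lattice, (if (l : ℂ) = 0 then (0 : ℂ) else (1 / (0 - (l : ℂ)) ^ 2 - 1 / (l : ℂ) ^ 2)) = 0 := by
    intro l
    split_ifs
    · rfl
    · rw [zero_sub, neg_sq, sub_self]
  simp only [this, tsum_zero]

lemma jinj_eventuallyEq_except (L₁ L₂ : PeriodPair) (h : ∀ n, 3 ≤ n → L₁.G n = L₂.G n) :
    ℘[L₁ - (0 : ℂ)] =ᶠ[𝓝 0] ℘[L₂ - (0 : ℂ)] := by
  have h1 := L₁.hasFPowerSeriesAt_weierstrassPExcept 0
  have h2 := L₂.hasFPowerSeriesAt_weierstrassPExcept 0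
  have hs : (fun i : ℕ => if i = 0 then ℘[L₁ - (0 : ℂ)] 0 else ((i : ℂ) + 1) * L₁.sumInvPow 0 (i + 2)) =
      (fun i : ℕ => if i = 0 then ℘[L₂ - (0 : ℂ)] 0 else ((i : ℂ) + 1) * L₂.sumInvPow 0 (i + 2)) := by
    funext i
    split_ifs with hi
    · rw [jinj_except_zero, jinj_except_zero]
    · rw [PeriodPair.sumInvPow_zero, PeriodPair.sumInvPow_zero, h (i + 2) (by omega)]
  rw [hs] at h1
  filter_upwards [h1.eventually_hasSum_sub, h2.eventually_hasSum_sub] with y hy1 hy2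
  exact hy1.unique hy2

lemma jinj_countable_lattice (L : PeriodPair) : (L.lattice : Set ℂ).Countable := by
  have : Countable L.lattice := L.latticeEquivProd.toEquiv.injective.countable
  exact Set.countable_coe_iff.mp this

lemma jinj_eqOn (L₁ L₂ : PeriodPair) (h : ∀ n, 3 ≤ n → L₁.G n = L₂.G n) :
    Set.EqOn ℘[L₁] ℘[L₂] ((L₁.lattice : Set ℂ) ∪ L₂.lattice)ᶜ := by
  have hopen : IsOpen ((L₁.lattice : Set ℂ) ∪ L₂.lattice)ᶜ :=
    (L₁.isClosed_lattice.union L₂.isClosed_lattice).isOpen_compl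
  have hconn : IsPreconnected ((L₁.lattice : Set ℂ) ∪ L₂.lattice)ᶜ :=
    (((jinj_countable_lattice L₁).union (jinj_countable_lattice L₂)).isPathConnected_compl_of_one_lt_rank
      (by rw [Complex.rank_real_complex]; norm_num)).isConnected.isPreconnected
  -- an open neighbourhood of `0`
  have hev : ∀ᶠ y in 𝓝 (0 : ℂ), ℘[L₁ - (0 : ℂ)] y = ℘[L₂ - (0 : ℂ)] y ∧
      y ∈ ((L₁.lattice : Set ℂ) \ {0})ᶜ ∧ y ∈ ((L₂.lattice : Set ℂ) \ {0})ᶜ :=
    (jinj_eventuallyEq_except L₁ L₂ h).and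
      (Filter.Eventually.and (L₁.compl_lattice_sdiff_singleton_mem_nhds 0)
        (L₂.compl_lattice_sdiff_singleton_mem_nhds 0))
  obtain ⟨W, hW, hWo, h0W⟩ := eventually_nhds_iff.mp hev
  have hW' : W \ {0} ∈ 𝓝[≠] (0 : ℂ) := by
    rw [Set.sdiff_eq, Set.inter_comm]
    exact inter_mem_nhdsWithin _ (hWo.mem_nhds h0W)
  obtain ⟨z₀, hz₀W, hz₀⟩ := Filter.nonempty_of_mem hW'
  have hWo' : IsOpen (W \ {0}) := hWo.sdiff isClosed_singleton
  have key : ∀ y ∈ W \ {0}, ℘[L₁] y = ℘[L₂] y ∧ y ∈ ((L₁.lattice : Set ℂ) ∪ L₂.lattice)ᶜ := by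
    rintro y ⟨hyW, hy0⟩
    obtain ⟨e, m1, m2⟩ := hW y hyW
    refine ⟨?_, ?_⟩
    · rw [← L₁.weierstrassPExcept_add 0, ← L₂.weierstrassPExcept_add 0]
      simp only [ZeroMemClass.coe_zero]
      rw [e]
    · simp only [Set.mem_compl_iff, Set.mem_sdiff, Set.mem_union, not_and, not_not, not_or] at m1 m2 ⊢
      exact ⟨fun hh => hy0 (m1 hh), fun hh => hy0 (m2 hh)⟩
  refine AnalyticOnNhd.eqOn_of_preconnected_of_eventuallyEq
    (L₁.analyticOnNhd_weierstrassP.mono (by intro y hy hh; exact hy (Or.inl hh)))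
    (L₂.analyticOnNhd_weierstrassP.mono (by intro y hy hh; exact hy (Or.inr hh)))
    hconn (key z₀ ⟨hz₀W, hz₀⟩).2 ?_
  filter_upwards [hWo'.mem_nhds ⟨hz₀W, hz₀⟩] with y hy
  exact (key y hy).1

lemma jinj_lattice_le (L₁ L₂ : PeriodPair) (h : ∀ n, 3 ≤ n → L₁.G n = L₂.G n) :
    L₁.lattice ≤ L₂.lattice := by
  intro l hl
  by_contra hl2
  have h1 : ℘[L₁] =ᶠ[𝓝[≠] l] ℘[L₂] := by
    have ha : ∀ᶠ y in 𝓝 l, y ∈ ((L₁.lattice : Set ℂ) \ {l})ᶜ ∧ y ∈ (L₂.lattice : Set ℂ)ᶜ :=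
      Filter.Eventually.and (L₁.compl_lattice_sdiff_singleton_mem_nhds l)
        (L₂.isClosed_lattice.isOpen_compl.mem_nhds hl2)
    rw [EventuallyEq, eventually_nhdsWithin_iff]
    filter_upwards [ha] with y hy hyl
    refine jinj_eqOn L₁ L₂ h ?_
    simp only [Set.mem_compl_iff, Set.mem_sdiff, Set.mem_union, not_and, not_not, not_or] at hy ⊢
    exact ⟨fun hh => hyl (hy.1 hh), hy.2⟩
  have h2 := meromorphicOrderAt_congr h1
  rw [L₁.order_weierstrassP l hl] at h2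
  have h3 := (L₂.analyticOnNhd_weierstrassP l hl2).meromorphicOrderAt_nonneg
  rw [← h2] at h3
  exact absurd h3 (by decide)

theorem jinj_lattice_eq (L₁ L₂ : PeriodPair) (h : ∀ n, 3 ≤ n → L₁.G n = L₂.G n) :
    L₁.lattice = L₂.lattice :=
  le_antisymm (jinj_lattice_le L₁ L₂ h) (jinj_lattice_le L₂ L₁ fun n hn => (h n hn).symm)



/-- lattice equality gives an element of `SL(2,ℤ)` -/
lemma jinj_exists_SL2 (z w : ℍ) (μ : ℂ)
    (a b c d a' b' c' d' : ℤ)
    (h1 : (a : ℂ) * (μ * z) + b * μ = w) (h2 : (c : ℂ) * (μ * z) + d * μ = 1)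
    (h3 : (a' : ℂ) * w + b' = μ * z) (h4 : (c' : ℂ) * w + d' = μ) :
    ∃ γ : SL(2, ℤ), w = γ • z := by
  -- independence of `w, 1`
  have hind : ∀ s t : ℤ, (s : ℂ) * w + t = 0 → s = 0 ∧ t = 0 := by
    intro s t hst
    have h5 := congrArg Complex.im hst
    simp only [Complex.add_im, Complex.mul_im, Complex.intCast_re, Complex.intCast_im, zero_mul,
      add_zero, Complex.zero_im, UpperHalfPlane.coe_im] at h5
    have hs : (s : ℝ) = 0 := (mul_eq_zero.mp h5).resolve_right w.im_pos.ne'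
    have hs' : s = 0 := by exact_mod_cast hs
    subst hs'
    simp only [Int.cast_zero, zero_mul, zero_add] at hst
    exact ⟨rfl, by exact_mod_cast hst⟩
  have e1 : ((a * a' + b * c' - 1 : ℤ) : ℂ) * w + ((a * b' + b * d' : ℤ) : ℂ) = 0 := by
    push_cast
    linear_combination h1 + (a : ℂ) * h3 + (b : ℂ) * h4
  have e2 : ((c * a' + d * c' : ℤ) : ℂ) * w + ((c * b' + d * d' - 1 : ℤ) : ℂ) = 0 := by
    push_cast
    linear_combination h2 + (c : ℂ) * h3 + (d : ℂ) * h4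
  obtain ⟨f1, f2⟩ := hind _ _ e1
  obtain ⟨f3, f4⟩ := hind _ _ e2
  have hdet : (a * d - b * c) * (a' * d' - b' * c') = 1 := by
    linear_combination (c * b' + d * d') * f1 - (c * a' + d * c') * f2 + f4 -
      0 * f3
  have hunit : a * d - b * c = 1 ∨ a * d - b * c = -1 :=
    Int.isUnit_iff.mp (IsUnit.of_mul_eq_one _ hdet)
  -- the relation `w (c z + d) = a z + b`
  have hμ : μ ≠ 0 := by
    rintro rfl
    simp at h2
  have hw : (w : ℂ) * ((c : ℂ) * z + d) = (a : ℂ) * z + b := by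
    have h5 : μ * ((w : ℂ) * ((c : ℂ) * z + d)) = μ * ((a : ℂ) * z + b) := by
      linear_combination (w : ℂ) * h2 - h1
    exact mul_left_cancel₀ hμ h5
  have hcd : (c : ℂ) * z + d ≠ 0 := by
    intro h0
    have : μ * ((c : ℂ) * z + d) = 1 := by linear_combination h2
    rw [h0, mul_zero] at this
    exact zero_ne_one this
  have hre := congrArg Complex.re hw
  have him := congrArg Complex.im hw
  simp only [Complex.add_re, Complex.add_im, Complex.mul_re, Complex.mul_im, Complex.intCast_re,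
    Complex.intCast_im, zero_mul, add_zero, sub_zero, UpperHalfPlane.coe_im,
    UpperHalfPlane.coe_re] at hre him
  have hkey : w.im * (((c : ℝ) * z.re + d) ^ 2 + ((c : ℝ) * z.im) ^ 2) =
      ((a : ℝ) * d - b * c) * z.im := by
    linear_combination ((c : ℝ) * z.re + d) * him - ((c : ℝ) * z.im) * hre
  have hpos : 0 < ((c : ℝ) * z.re + d) ^ 2 + ((c : ℝ) * z.im) ^ 2 := by
    rcases eq_or_ne ((c : ℝ) * z.im) 0 with h0 | h0
    · have hc0 : (c : ℝ) = 0 := (mul_eq_zero.mp h0).resolve_right z.im_pos.ne'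
      have hd0 : (d : ℝ) ≠ 0 := by
        intro hd0
        apply hcd
        have hc0' : c = 0 := by exact_mod_cast hc0
        have hd0' : d = 0 := by exact_mod_cast hd0
        simp [hc0', hd0']
      rw [hc0]
      simp only [zero_mul, zero_add]
      positivity
    · positivity
  have hdetpos : 0 < ((a : ℝ) * d - b * c) := by
    have h5 : 0 < ((a : ℝ) * d - b * c) * z.im := by
      rw [← hkey]; exact mul_pos w.im_pos hpos
    exact (pos_iff_pos_of_mul_pos h5).mpr z.im_pos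
  have hdet1 : a * d - b * c = 1 := by
    rcases hunit with h | h
    · exact h
    · exfalso
      have : ((a * d - b * c : ℤ) : ℝ) = -1 := by rw [h]; simp
      push_cast at this
      linarith
  refine ⟨⟨!![a, b; c, d], by rw [Matrix.det_fin_two_of]; exact hdet1⟩, ?_⟩
  rw [UpperHalfPlane.ext_iff, coe_specialLinearGroup_apply]
  simp only [Matrix.of_apply, Matrix.cons_val_zero, Matrix.cons_val_one, Matrix.cons_val',
    Matrix.cons_val_fin_one, algebraMap_int_eq, Int.coe_castRingHom]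
  rw [eq_div_iff]
  · push_cast
    exact hw
  · push_cast
    exact hcd


theorem exists_smul_eq_of_E₄_E₆ (z w : ℍ) (lam : ℂ) (hlam : lam ≠ 0)
    (h4 : E₄ w = lam ^ 4 * E₄ z) (h6 : E₆ w = lam ^ 6 * E₆ z) :
    ∃ γ : SL(2, ℤ), w = γ • z := by
  have hG : ∀ n, 3 ≤ n → (jinjPair 1 one_ne_zero w).G n =
      (jinjPair lam⁻¹ (inv_ne_zero hlam) z).G n := by
    intro n hn
    rw [jinj_G _ _ _ n hn, jinj_G _ _ _ n hn, jinj_scale' z w lam hlam h4 h6 (E hn), zpow_natCast,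
      one_pow, inv_one, one_mul, inv_pow, inv_inv]
    ring
  have hL := jinj_lattice_eq _ _ hG
  have m1 : (jinjPair 1 one_ne_zero w).ω₁ ∈ (jinjPair lam⁻¹ (inv_ne_zero hlam) z).lattice :=
    hL ▸ PeriodPair.ω₁_mem_lattice _
  have m2 : (jinjPair 1 one_ne_zero w).ω₂ ∈ (jinjPair lam⁻¹ (inv_ne_zero hlam) z).lattice :=
    hL ▸ PeriodPair.ω₂_mem_lattice _
  have m3 : (jinjPair lam⁻¹ (inv_ne_zero hlam) z).ω₁ ∈ (jinjPair 1 one_ne_zero w).lattice :=
    hL.symm ▸ PeriodPair.ω₁_mem_lattice _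
  have m4 : (jinjPair lam⁻¹ (inv_ne_zero hlam) z).ω₂ ∈ (jinjPair 1 one_ne_zero w).lattice :=
    hL.symm ▸ PeriodPair.ω₂_mem_lattice _
  obtain ⟨a, b, e1⟩ := PeriodPair.mem_lattice.mp m1
  obtain ⟨c, d, e2⟩ := PeriodPair.mem_lattice.mp m2
  obtain ⟨a', b', e3⟩ := PeriodPair.mem_lattice.mp m3
  obtain ⟨c', d', e4⟩ := PeriodPair.mem_lattice.mp m4
  simp only [jinjPair, one_mul, mul_one] at e1 e2 e3 e4
  exact jinj_exists_SL2 z w lam⁻¹ a b c d a' b' c' d' e1 e2 e3 e4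

end Fermat.Agent.S20
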