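/-
S20 level one input, part 2: Ramanujan's identities (via Mathlib's Serre derivative) and the
simplicity of the zeros of `E₄`, `E₆` and `Δ(z₀) E₄³ - E₄(z₀)³ Δ`.
-/
import Mathlib

set_option autoImplicit false

open UpperHalfPlane ModularForm EisensteinSeries
open scoped MatrixGroups

namespace Fermat.Agent.S20

open Filter Topology Derivative Complex Function
open scoped Manifold Real

local notation "𝕢" => Periodic.qParam

/-- A level one modular form tends to its constant coefficient at `i∞`. -/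
lemma serre_tendsto_coeff_zero {k : ℤ} (f : ModularForm 𝒮ℒ k) :
    Tendsto f atImInfty (𝓝 ((qExpansion 1 f).coeff 0)) := by
  have hanal := ModularFormClass.analyticAt_cuspFunction_zero f one_pos one_mem_strictPeriods_SL
  have hper := SlashInvariantFormClass.periodic_comp_ofComplex f one_mem_strictPeriods_SL
  rw [qExpansion_coeff_zero one_pos hanal hper, ← cuspFunction_apply_zero one_pos hanal hper]
  exact (hanal.continuousAt.tendsto.comp (qParam_tendsto_atImInfty one_pos)).congr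
    (fun τ ↦ SlashInvariantFormClass.eq_cuspFunction f τ one_mem_strictPeriods_SL one_ne_zero)

lemma serre_eq_zero_of_tendsto {k : ℤ} (hk : k < 12) (f : ModularForm 𝒮ℒ k)
    (h : Tendsto f atImInfty (𝓝 0)) : f = 0 := by
  have h0 : (qExpansion 1 f).coeff 0 = 0 := tendsto_nhds_unique (serre_tendsto_coeff_zero f) h
  have h1 : toCuspForm f h0 = 0 :=
    rank_zero_iff_forall_zero.mp (CuspForm.rank_eq_zero_of_weight_lt_twelve hk) _
  ext z
  have := congrArg (fun g : CuspForm 𝒮ℒ k => g z) h1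
  simpa using this

/-- `D f = q * (cuspFunction f)'(q)`. -/
lemma serre_D_eq {k : ℤ} (f : ModularForm 𝒮ℒ k) (τ : ℍ) :
    D f τ = 𝕢 1 τ * deriv (cuspFunction 1 f) (𝕢 1 τ) := by
  have hd : DifferentiableAt ℂ (cuspFunction 1 f) (𝕢 1 τ) :=
    ModularFormClass.differentiableAt_cuspFunction f one_pos one_mem_strictPeriods_SL
      (Periodic.norm_qParam_lt_one one_pos τ.im_pos)
  have hq : HasDerivAt (𝕢 1) (2 * π * Complex.I * 𝕢 1 τ) (τ : ℂ) := by
    have h1 : HasDerivAt (fun z : ℂ => 2 * π * Complex.I * z / (1 : ℝ)) (2 * π * Complex.I) (τ : ℂ) := by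
      simpa using (hasDerivAt_id (τ : ℂ)).const_mul (2 * π * Complex.I)
    have h2 := h1.cexp
    have e : (𝕢 1) = fun z : ℂ => cexp (2 * π * Complex.I * z / (1 : ℝ)) := rfl
    rw [mul_comm (2 * π * Complex.I : ℂ) (𝕢 1 τ), e]
    exact h2
  have hcomp : (f ∘ ofComplex) =ᶠ[𝓝 (τ : ℂ)] (cuspFunction 1 f ∘ 𝕢 1) := by
    filter_upwards [isOpen_upperHalfPlaneSet.mem_nhds τ.im_pos] with w hw
    have := SlashInvariantFormClass.eq_cuspFunction f ⟨w, hw⟩ one_mem_strictPeriods_SL one_ne_zero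
    simp only [Function.comp_apply, ofComplex_apply_of_im_pos hw]
    exact this.symm
  have hder : HasDerivAt (f ∘ ofComplex)
      (deriv (cuspFunction 1 f) (𝕢 1 τ) * (2 * π * Complex.I * 𝕢 1 τ)) (τ : ℂ) :=
    (hd.hasDerivAt.comp (τ : ℂ) hq).congr_of_eventuallyEq hcomp
  rw [normalizedDerivOfComplex, hder.deriv]
  have : (2 * π * Complex.I : ℂ) ≠ 0 := by simp [Real.pi_ne_zero]
  field_simp

lemma serre_tendsto_D {k : ℤ} (f : ModularForm 𝒮ℒ k) : Tendsto (D f) atImInfty (𝓝 0) := by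
  have hanal := ModularFormClass.analyticAt_cuspFunction_zero f one_pos one_mem_strictPeriods_SL
  have hc : ContinuousAt (fun q => q * deriv (cuspFunction 1 f) q) 0 :=
    continuousAt_id.mul hanal.deriv.continuousAt
  have := hc.tendsto.comp (qParam_tendsto_atImInfty one_pos)
  simp only [zero_mul] at this
  exact this.congr fun τ => (serre_D_eq f τ).symm

lemma serre_hasSum_E2 (τ : ℍ) :
    HasSum (fun m : ℕ ↦ (if m = 0 then 1 else -24 * ArithmeticFunction.sigma 1 m : ℂ) • 𝕢 1 τ ^ m)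
      (E2 τ) := by
  simpa only [Function.Periodic.qParam, ofReal_one, div_one] using hasSum_qExpansion_E2 (z := τ)

lemma serre_E2_periodic : Periodic (E2 ∘ ofComplex) (1 : ℝ) := by
  intro w
  by_cases! hw : 0 < im w
  · have hw' : 0 < im (w + (1 : ℝ)) := by simp [hw]
    simp only [comp_apply, ofComplex_apply_of_im_pos hw', ofComplex_apply_of_im_pos hw]
    have h1 := serre_hasSum_E2 ⟨w + (1 : ℝ), hw'⟩
    have h2 := serre_hasSum_E2 ⟨w, hw⟩
    have e : 𝕢 1 (w + (1 : ℝ)) = 𝕢 1 w := by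
      simp only [Periodic.qParam, ofReal_one, div_one, mul_add, mul_one, Complex.exp_add,
        Complex.exp_two_pi_mul_I]
    simp only [e] at h1 h2
    exact h1.unique h2
  · have : im (w + (1 : ℝ)) ≤ 0 := by simpa using hw
    simp only [comp_apply]
    rw [ofComplex_apply_of_im_nonpos this, ofComplex_apply_of_im_nonpos hw]

lemma serre_tendsto_E2 : Tendsto E2 atImInfty (𝓝 1) := by
  have hanal : AnalyticAt ℂ (cuspFunction 1 E2) 0 :=
    analyticAt_cuspFunction_zero one_pos serre_E2_periodic E2_mdifferentiable isBoundedAtImInfty_E2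
  have H := hasFPowerSeriesOnBall_cuspFunction one_pos hanal serre_hasSum_E2
  have h2 : cuspFunction 1 E2 0 = 1 := by
    have := H.coeff_zero (fun _ => 0)
    simpa [FormalMultilinearSeries.ofScalars] using this.symm
  rw [← h2]
  exact (hanal.continuousAt.tendsto.comp (qParam_tendsto_atImInfty one_pos)).congr
    (fun τ ↦ eq_cuspFunction τ one_ne_zero serre_E2_periodic)

lemma serre_slash {k : ℤ} (f : ModularForm 𝒮ℒ k) (γ : SL(2, ℤ)) :
    serreDerivative k f ∣[k + 2] γ = serreDerivative k f := by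
  have h : (⇑f) ∣[k] γ = ⇑f := f.slash_action_eq' _ ⟨γ, rfl⟩
  exact serreDerivative_slash_invariant f.holo' h

lemma serre_tendsto_serreDerivative {k : ℤ} (f : ModularForm 𝒮ℒ k) :
    Tendsto (serreDerivative k f) atImInfty (𝓝 (- (k * 12⁻¹ * (qExpansion 1 f).coeff 0))) := by
  have h : Tendsto (serreDerivative k f) atImInfty
      (𝓝 (0 - k * 12⁻¹ * 1 * (qExpansion 1 f).coeff 0)) :=
    (serre_tendsto_D f).sub ((serre_tendsto_E2.const_mul _).mul (serre_tendsto_coeff_zero f))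
  rwa [zero_sub, mul_one] at h

/-- The Serre derivative of a level one modular form, as a modular form. -/
noncomputable def serreForm {k : ℤ} (f : ModularForm 𝒮ℒ k) : ModularForm 𝒮ℒ (k + 2) where
  toFun := serreDerivative k f
  slash_action_eq' := fun _ ⟨γ, hγ⟩ ↦ hγ ▸ serre_slash f γ
  holo' := serreDerivative_mdifferentiable k f.holo'
  bdd_at_cusps' {c} hc := by
    rw [Subgroup.IsArithmetic.isCusp_iff_isCusp_SL2Z] at hc
    rw [OnePoint.isBoundedAt_iff_forall_SL2Z hc]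
    intro γ _
    rw [serre_slash f γ]
    exact (serre_tendsto_serreDerivative f).isBigO_one ℝ

lemma serreForm_apply {k : ℤ} (f : ModularForm 𝒮ℒ k) (z : ℍ) :
    serreForm f z = D f z - k * 12⁻¹ * E2 z * f z := rfl

lemma serre_tendsto_serreForm {k : ℤ} (f : ModularForm 𝒮ℒ k) :
    Tendsto (serreForm f) atImInfty (𝓝 (- (k * 12⁻¹ * (qExpansion 1 f).coeff 0))) :=
  serre_tendsto_serreDerivative f

lemma serre_E₄_coeff_zero : (qExpansion 1 E₄).coeff 0 = 1 := E_qExpansion_coeff_zero _ ⟨2, rfl⟩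

lemma serre_E₆_coeff_zero : (qExpansion 1 E₆).coeff 0 = 1 := E_qExpansion_coeff_zero _ ⟨3, rfl⟩

/-- Ramanujan's identity for `E₄`. -/
theorem ramanujan_E₄ (z : ℍ) : D E₄ z = 3⁻¹ * (E2 z * E₄ z - E₆ z) := by
  let H : ModularForm 𝒮ℒ (4 + 2) := serreForm E₄ + (3⁻¹ : ℂ) • ModularForm.mcast (by decide) E₆
  have hH : ∀ w, H w = D E₄ w - (4 : ℤ) * 12⁻¹ * E2 w * E₄ w + 3⁻¹ * E₆ w := fun w => rfl
  have ht : Tendsto H atImInfty (𝓝 0) := by
    have h1 := (serre_tendsto_serreForm E₄).add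
      ((serre_tendsto_coeff_zero E₆).const_mul (3⁻¹ : ℂ))
    rw [serre_E₄_coeff_zero, serre_E₆_coeff_zero] at h1
    have e : -(((4 : ℤ) : ℂ) * 12⁻¹ * 1) + 3⁻¹ * 1 = 0 := by norm_num
    rw [e] at h1
    exact h1
  have h0 := serre_eq_zero_of_tendsto (by norm_num) H ht
  have h1 := hH z
  rw [h0] at h1
  have h2 : (0 : ModularForm 𝒮ℒ (4 + 2)) z = 0 := rfl
  rw [h2] at h1
  push_cast at h1
  linear_combination -h1

/-- Ramanujan's identity for `E₆`. -/
theorem ramanujan_E₆ (z : ℍ) : D E₆ z = 2⁻¹ * (E2 z * E₆ z - E₄ z ^ 2) := by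
  let H : ModularForm 𝒮ℒ (6 + 2) := serreForm E₆ +
    (2⁻¹ : ℂ) • ModularForm.mcast (by decide) (E₄.mul E₄)
  have hH : ∀ w, H w = D E₆ w - (6 : ℤ) * 12⁻¹ * E2 w * E₆ w + 2⁻¹ * (E₄ w * E₄ w) := fun w => rfl
  have ht : Tendsto H atImInfty (𝓝 0) := by
    have h1 := (serre_tendsto_serreForm E₆).add
      (((serre_tendsto_coeff_zero E₄).mul (serre_tendsto_coeff_zero E₄)).const_mul (2⁻¹ : ℂ))
    rw [serre_E₄_coeff_zero, serre_E₆_coeff_zero] at h1
    have e : -(((6 : ℤ) : ℂ) * 12⁻¹ * 1) + 2⁻¹ * (1 * 1) = 0 := by norm_num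
    rw [e] at h1
    exact h1
  have h0 := serre_eq_zero_of_tendsto (by norm_num) H ht
  have h1 := hH z
  rw [h0] at h1
  have h2 : (0 : ModularForm 𝒮ℒ (6 + 2)) z = 0 := rfl
  rw [h2] at h1
  push_cast at h1
  linear_combination -h1

lemma serre_hasDerivAt_discriminant (z : ℍ) :
    HasDerivAt (discriminant ∘ ofComplex) (2 * π * Complex.I * (E2 z * discriminant z)) z := by
  have hz : (z : ℂ) ∈ upperHalfPlaneSet := z.im_pos
  have hη := (differentiableAt_eta_of_mem_upperHalfPlaneSet hz).hasDerivAt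
  have hlog := logDeriv_eta_eq_E2 z
  rw [logDeriv_apply, div_eq_iff (eta_ne_zero hz)] at hlog
  have hcomp : (discriminant ∘ ofComplex) =ᶠ[𝓝 (z : ℂ)] fun w => ModularForm.eta w ^ 24 := by
    filter_upwards [isOpen_upperHalfPlaneSet.mem_nhds z.im_pos] with w hw
    simp [discriminant, ofComplex_apply_of_im_pos hw]
  have h1 := (hη.pow 24).congr_of_eventuallyEq hcomp
  have e : 2 * π * Complex.I * (E2 z * discriminant z) =
      ((24 : ℕ) : ℂ) * ModularForm.eta z ^ (24 - 1) * deriv ModularForm.eta z := by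
    rw [hlog, discriminant]
    push_cast
    ring
  rw [e]
  exact h1

lemma serre_hasDerivAt {k : ℤ} (f : ModularForm 𝒮ℒ k) (z : ℍ) :
    HasDerivAt (f ∘ ofComplex) (2 * π * Complex.I * D f z) z := by
  have h := (UpperHalfPlane.mdifferentiableAt_iff.mp (f.holo' z)).hasDerivAt
  have e : 2 * π * Complex.I * D f z = deriv (f ∘ ofComplex) z := by
    have : (2 * π * Complex.I : ℂ) ≠ 0 := by simp [Real.pi_ne_zero]
    simp only [normalizedDerivOfComplex]
    field_simp
  rw [e]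
  exact h

lemma serre_two_pi_I_ne_zero : (2 * π * Complex.I : ℂ) ≠ 0 := by simp [Real.pi_ne_zero]

theorem deriv_E₄_ne_zero (z : ℍ) (hz : E₄ z = 0) : deriv (⇑E₄ ∘ ofComplex) z ≠ 0 := by
  rw [(serre_hasDerivAt E₄ z).deriv, ramanujan_E₄, hz]
  have hΔ := discriminant_ne_zero z
  rw [discriminant_eq_E₄_cube_sub_E₆_sq, hz] at hΔ
  have h6 : E₆ z ≠ 0 := by
    intro h
    rw [h] at hΔ
    simp at hΔ
  refine mul_ne_zero serre_two_pi_I_ne_zero (mul_ne_zero (by norm_num) ?_)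
  simpa using h6

theorem deriv_E₆_ne_zero (z : ℍ) (hz : E₆ z = 0) : deriv (⇑E₆ ∘ ofComplex) z ≠ 0 := by
  rw [(serre_hasDerivAt E₆ z).deriv, ramanujan_E₆, hz]
  have hΔ := discriminant_ne_zero z
  rw [discriminant_eq_E₄_cube_sub_E₆_sq, hz] at hΔ
  have h4 : E₄ z ≠ 0 := by
    intro h
    rw [h] at hΔ
    simp at hΔ
  refine mul_ne_zero serre_two_pi_I_ne_zero (mul_ne_zero (by norm_num) ?_)
  simpa using h4

theorem deriv_generic_ne_zero (z₀ z : ℍ) (h4 : E₄ z₀ ≠ 0) (h6 : E₆ z₀ ≠ 0)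
    (hz : discriminant z₀ * E₄ z ^ 3 - E₄ z₀ ^ 3 * discriminant z = 0) :
    deriv ((fun w : ℍ => discriminant z₀ * E₄ w ^ 3 - E₄ z₀ ^ 3 * discriminant w) ∘ ofComplex) z
      ≠ 0 := by
  have hd : HasDerivAt
      ((fun w : ℍ => discriminant z₀ * E₄ w ^ 3 - E₄ z₀ ^ 3 * discriminant w) ∘ ofComplex) _ z :=
    (((serre_hasDerivAt E₄ z).pow 3).const_mul (discriminant z₀)).sub
      ((serre_hasDerivAt_discriminant z).const_mul (E₄ z₀ ^ 3))
  rw [hd.deriv, ramanujan_E₄]
  simp only [Function.comp_apply, ofComplex_apply]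
  have e : discriminant z₀ * (((3 : ℕ) : ℂ) * E₄ z ^ (3 - 1) *
      (2 * π * Complex.I * (3⁻¹ * (E2 z * E₄ z - E₆ z)))) -
      E₄ z₀ ^ 3 * (2 * π * Complex.I * (E2 z * discriminant z)) =
      2 * π * Complex.I * (-(discriminant z₀ * E₄ z ^ 2 * E₆ z)) := by
    push_cast
    linear_combination (2 * π * Complex.I * E2 z) * hz
  rw [e]
  have hΔ₀ := discriminant_ne_zero z₀
  have hΔ := discriminant_ne_zero z
  have h4z : E₄ z ≠ 0 := by
    intro h
    rw [h] at hz
    have : E₄ z₀ ^ 3 * discriminant z = 0 := by linear_combination -hz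
    exact (mul_ne_zero (pow_ne_zero 3 h4) hΔ) this
  have h6z : E₆ z ≠ 0 := by
    intro h
    have e1 := discriminant_eq_E₄_cube_sub_E₆_sq z
    have e0 := discriminant_eq_E₄_cube_sub_E₆_sq z₀
    rw [h] at e1
    have : E₆ z₀ ^ 2 * E₄ z ^ 3 = 0 := by
      rw [e1, e0] at hz
      linear_combination (-1728 : ℂ) * hz
    exact (mul_ne_zero (pow_ne_zero 2 h6) (pow_ne_zero 3 h4z)) this
  exact mul_ne_zero serre_two_pi_I_ne_zero
    (neg_ne_zero.mpr (mul_ne_zero (mul_ne_zero hΔ₀ (pow_ne_zero 2 h4z)) h6z))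

end Fermat.Agent.S20
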