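/-
S20: replacement for the injectivity of `j`.  If `(E₄ w, E₆ w)` is a weighted rescaling of
`(E₄ z₀, E₆ z₀)` then every level one form rescales, and every vector valued form all of whose
components vanish at `z₀` also vanishes at `w` (characteristic polynomial over level one).
-/
import Fermat.Agent.S20.Basic
import Fermat.Agent.S23.LevelOne

set_option autoImplicit false

open UpperHalfPlane ModularForm CongruenceSubgroup EisensteinSeries Filter Topology
open scoped MatrixGroups Manifold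

namespace Fermat.Agent.S20

open Fermat.Agent.S23 (Q eF eF_slash eF_mdiff eF_bdd exists_levelOne_of charpoly_rel)

section scaling

variable {z w : ℍ} {lam : ℂ}

lemma vanish_discriminant (h4 : E₄ w = lam ^ 4 * E₄ z) (h6 : E₆ w = lam ^ 6 * E₆ z) :
    discriminant w = lam ^ 12 * discriminant z := by
  rw [discriminant_eq_E₄_cube_sub_E₆_sq, discriminant_eq_E₄_cube_sub_E₆_sq, h4, h6]
  ring

lemma vanish_step (hlam : lam ≠ 0) (h4 : E₄ w = lam ^ 4 * E₄ z) (h6 : E₆ w = lam ^ 6 * E₆ z)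
    (k : ℤ) (ih : ∀ F₁ : ModularForm 𝒮ℒ (k - 12), F₁ w = lam ^ (k - 12) * F₁ z)
    (F : ModularForm 𝒮ℒ k) : F w = lam ^ k * F z := by
  rcases lt_trichotomy k 0 with hk | hk | hk
  · rw [rank_zero_iff_forall_zero.mp (levelOne_neg_weight_rank_zero hk) F]
    simp
  · subst hk
    obtain ⟨c, hc⟩ := ModularFormClass.levelOne_weight_zero_const F
    rw [hc]
    simp
  · rcases Int.even_or_odd k with he | ho
    swap
    · rw [levelOne_odd_weight_eq_zero ho F]
      simp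
    by_cases h2 : k = 2
    · subst h2
      rw [rank_zero_iff_forall_zero.mp levelOne_weight_two_rank_zero F]
      simp
    have hk4 : 4 ≤ k := by
      obtain ⟨m, hm⟩ := he
      omega
    obtain ⟨a, b, hab⟩ : ∃ a b : ℕ, (a : ℤ) * 4 + (b : ℤ) * 6 = k := by
      obtain ⟨m, hm⟩ := he
      rcases Int.even_or_odd' m with ⟨c, hc | hc⟩
      · exact ⟨c.toNat, 0, by omega⟩
      · exact ⟨(c - 1).toNat, 1, by omega⟩
    set G : ModularForm 𝒮ℒ k := ModularForm.mcast hab ((E₄.pow a).mul (E₆.pow b)) with hG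
    have hGf : ⇑G = (⇑E₄) ^ a * (⇑E₆) ^ b := by
      ext z; simp [hG]
    have hG0 : (qExpansion 1 G).coeff 0 = 1 := by
      rw [hGf, Fermat.Agent.S23.qExp_mul ((Fermat.Agent.S23.An.of_SL _).pow a)
        ((Fermat.Agent.S23.An.of_SL _).pow b), Fermat.Agent.S23.qExp_pow
        (Fermat.Agent.S23.An.of_SL _), Fermat.Agent.S23.qExp_pow (Fermat.Agent.S23.An.of_SL _)]
      have h4 := E_qExpansion_coeff_zero (k := 4) (by norm_num) ⟨2, rfl⟩
      have h6 := E_qExpansion_coeff_zero (k := 6) (by norm_num) ⟨3, rfl⟩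
      simp only [PowerSeries.coeff_zero_eq_constantCoeff, map_mul, map_pow] at h4 h6 ⊢
      rw [h4, h6]
      simp
    have hcusp := (isCuspForm_iff_coeffZero_eq_zero _).mp (sub_smul_isCuspForm F G hG0)
    generalize (qExpansion 1 F).coeff 0 = c at hcusp
    set F₁ : ModularForm 𝒮ℒ (k - 12) := CuspForm.discriminantEquiv (toCuspForm (F - c • G) hcusp)
      with hF₁
    have hdec : ∀ u : ℍ, F u = c * (E₄ u ^ a * E₆ u ^ b) + discriminant u * F₁ u := by
      intro u
      have h := ModularForm.discriminant_mul_discriminantEquiv_apply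
        (toCuspForm (F - c • G) hcusp) u
      rw [← hF₁] at h
      have h' : (toCuspForm (F - c • G) hcusp) u = F u - c * G u := rfl
      rw [h', hGf] at h
      simp only [Pi.mul_apply, Pi.pow_apply] at h
      linear_combination -h
    rw [hdec w, hdec z, ih F₁, vanish_discriminant h4 h6, h4, h6]
    have e1 : lam ^ k = lam ^ (4 * a + 6 * b) := by
      rw [← zpow_natCast, ← hab]
      congr 1
      push_cast
      ring
    have e2 : lam ^ (k - 12) * lam ^ 12 = lam ^ k := by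
      rw [← zpow_natCast lam 12, ← zpow_add₀ hlam]
      congr 1
      simp
    rw [mul_add, ← e2, e2, e1]
    have e3 : lam ^ 12 * discriminant z * (lam ^ (k - 12) * F₁ z)
        = (lam ^ (k - 12) * lam ^ 12) * (discriminant z * F₁ z) := by ring
    rw [e3, e2, e1]
    ring

/-- every level one form rescales. -/
theorem levelOne_scaling (hlam : lam ≠ 0) (h4 : E₄ w = lam ^ 4 * E₄ z)
    (h6 : E₆ w = lam ^ 6 * E₆ z) {k : ℤ} (F : ModularForm 𝒮ℒ k) : F w = lam ^ k * F z := by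
  have key : ∀ (n : ℕ) (k : ℤ), k < n → ∀ F : ModularForm 𝒮ℒ k, F w = lam ^ k * F z := by
    intro n
    induction n with
    | zero =>
      intro k hk F
      rw [rank_zero_iff_forall_zero.mp (levelOne_neg_weight_rank_zero (by simpa using hk)) F]
      simp
    | succ n ih =>
      intro k hk F
      exact vanish_step hlam h4 h6 k (ih (k - 12) (by push_cast at hk; omega)) F
  exact key (k.toNat + 1) k (by omega) F

lemma vanish_E₆_ne_zero {u : ℍ} (h : E₄ u = 0) : E₆ u ≠ 0 := by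
  intro h6
  apply discriminant_ne_zero u
  rw [discriminant_eq_E₄_cube_sub_E₆_sq, h, h6]
  simp

lemma vanish_E₄_ne_zero {u : ℍ} (h : E₆ u = 0) : E₄ u ≠ 0 := by
  intro h4
  apply discriminant_ne_zero u
  rw [discriminant_eq_E₄_cube_sub_E₆_sq, h, h4]
  simp

/-- all zeros of `E₄` are rescalings of each other. -/
theorem exists_scaling_of_E₄_eq_zero {z₀ u : ℍ} (h0 : E₄ z₀ = 0) (hu : E₄ u = 0) :
    ∃ lam : ℂ, lam ≠ 0 ∧ E₄ u = lam ^ 4 * E₄ z₀ ∧ E₆ u = lam ^ 6 * E₆ z₀ := by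
  obtain ⟨lam, hl⟩ := IsAlgClosed.exists_pow_nat_eq (E₆ u / E₆ z₀) (n := 6) (by norm_num)
  have h1 := vanish_E₆_ne_zero h0
  have h2 := vanish_E₆_ne_zero hu
  refine ⟨lam, ?_, by rw [h0, hu, mul_zero], by rw [hl]; field_simp⟩
  rintro rfl
  rw [zero_pow (by norm_num)] at hl
  exact div_ne_zero h2 h1 hl.symm

/-- all zeros of `E₆` are rescalings of each other. -/
theorem exists_scaling_of_E₆_eq_zero {z₀ u : ℍ} (h0 : E₆ z₀ = 0) (hu : E₆ u = 0) :
    ∃ lam : ℂ, lam ≠ 0 ∧ E₄ u = lam ^ 4 * E₄ z₀ ∧ E₆ u = lam ^ 6 * E₆ z₀ := by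
  obtain ⟨lam, hl⟩ := IsAlgClosed.exists_pow_nat_eq (E₄ u / E₄ z₀) (n := 4) (by norm_num)
  have h1 := vanish_E₄_ne_zero h0
  have h2 := vanish_E₄_ne_zero hu
  refine ⟨lam, ?_, by rw [hl]; field_simp, by rw [h0, hu, mul_zero]⟩
  rintro rfl
  rw [zero_pow (by norm_num)] at hl
  exact div_ne_zero h2 h1 hl.symm

/-- all zeros of `Δ(z₀) E₄³ - E₄(z₀)³ Δ` are rescalings of `z₀`. -/
theorem exists_scaling_of_generic {z₀ u : ℍ} (h4 : E₄ z₀ ≠ 0) (h6 : E₆ z₀ ≠ 0)
    (hu : discriminant z₀ * E₄ u ^ 3 - E₄ z₀ ^ 3 * discriminant u = 0) :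
    ∃ lam : ℂ, lam ≠ 0 ∧ E₄ u = lam ^ 4 * E₄ z₀ ∧ E₆ u = lam ^ 6 * E₆ z₀ := by
  have hd0 := discriminant_ne_zero z₀
  have hdu := discriminant_ne_zero u
  have hu4 : E₄ u ≠ 0 := by
    intro h
    rw [h] at hu
    have : E₄ z₀ ^ 3 * discriminant u = 0 := by linear_combination -hu
    exact mul_ne_zero (pow_ne_zero 3 h4) hdu this
  have e0 := discriminant_eq_E₄_cube_sub_E₆_sq z₀
  have eu := discriminant_eq_E₄_cube_sub_E₆_sq u
  -- `E₆(u)² E₄(z₀)³ = E₆(z₀)² E₄(u)³`
  have hrel : E₆ u ^ 2 * E₄ z₀ ^ 3 = E₆ z₀ ^ 2 * E₄ u ^ 3 := by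
    rw [e0, eu] at hu
    linear_combination (1728 : ℂ) * hu
  have hu6 : E₆ u ≠ 0 := by
    intro h
    rw [h] at hrel
    have : E₆ z₀ ^ 2 * E₄ u ^ 3 = 0 := by linear_combination -hrel
    exact mul_ne_zero (pow_ne_zero 2 h6) (pow_ne_zero 3 hu4) this
  obtain ⟨lam, hl⟩ := IsAlgClosed.exists_pow_nat_eq ((E₆ u / E₆ z₀) / (E₄ u / E₄ z₀)) (n := 2)
    (by norm_num)
  refine ⟨lam, ?_, ?_, ?_⟩
  · rintro rfl
    rw [zero_pow (by norm_num)] at hl
    exact div_ne_zero (div_ne_zero hu6 h6) (div_ne_zero hu4 h4) hl.symm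
  · have : lam ^ 4 = (lam ^ 2) ^ 2 := by ring
    rw [this, hl]
    field_simp
    linear_combination -hrel
  · have : lam ^ 6 = (lam ^ 2) ^ 3 := by ring
    rw [this, hl]
    field_simp
    linear_combination -hrel

end scaling

variable {N : ℕ} {k : ℤ} {φ : Q N → ℍ → ℂ}

/-- If all components of `φ` vanish at `z₀`, they vanish at every `w` with the same
(weighted projective) value of `(E₄, E₆)`. -/
theorem IsVF.vanish_of_scaling [NeZero N] (hφ : IsVF N k φ) {z₀ w : ℍ} {lam : ℂ} (hlam : lam ≠ 0)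
    (h4 : E₄ w = lam ^ 4 * E₄ z₀) (h6 : E₆ w = lam ^ 6 * E₆ z₀) (h0 : ∀ q, φ q z₀ = 0) (q : Q N) :
    φ q w = 0 := by
  have he : ∀ j : ℕ, eF φ (j + 1) w = 0 := by
    intro j
    obtain ⟨M, hM⟩ := exists_levelOne_of _ _ (eF_slash φ hφ.slash (j + 1)) (eF_mdiff φ hφ.holo _)
      (eF_bdd φ hφ.bdd _)
    have h1 := levelOne_scaling hlam h4 h6 M
    rw [hM] at h1
    rw [h1]
    have h2 : eF φ (j + 1) z₀ = 0 := by
      unfold eF
      rw [Finset.sum_apply]
      refine Finset.sum_eq_zero fun s hs => ?_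
      rw [Finset.prod_apply]
      have hc : s.card = j + 1 := (Finset.mem_powersetCard.mp hs).2
      obtain ⟨q', hq'⟩ : s.Nonempty := by
        rw [← Finset.card_pos, hc]; omega
      exact Finset.prod_eq_zero hq' (h0 q')
    rw [h2, mul_zero]
  obtain ⟨μ, hμ⟩ : ∃ μ, Fintype.card (Q N) = μ + 1 :=
    haveI : Nonempty (Q N) := ⟨q⟩; Nat.exists_eq_succ_of_ne_zero Fintype.card_ne_zero
  have h := charpoly_rel (fun q' => φ q' w) q μ hμ
  have h2 : ∑ j ∈ Finset.range (μ + 1),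
      ((-1) ^ (j + 1) * ∑ s ∈ Finset.powersetCard (j + 1) (Finset.univ : Finset (Q N)),
        ∏ q' ∈ s, φ q' w) * (φ q w) ^ (μ - j) = 0 := by
    refine Finset.sum_eq_zero fun j _ => ?_
    have h3 := he j
    unfold eF at h3
    rw [Finset.sum_apply] at h3
    simp only [Finset.prod_apply] at h3
    rw [h3]
    ring
  rw [h2, add_zero] at h
  exact pow_eq_zero_iff (Nat.succ_ne_zero μ) |>.mp h

end Fermat.Agent.S20
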