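/-
S20: level one input, assembled.  The points `i`, `ρ`; level one forms with simple zeros exactly on
one orbit; level one forms with prescribed nonzero value.
-/
import Fermat.Agent.S20.Basic
import Fermat.Agent.S20.JInj
import Fermat.Agent.S20.Serre
import Fermat.Agent.S20.Vanish

set_option autoImplicit false

open UpperHalfPlane ModularForm CongruenceSubgroup Filter Topology EisensteinSeries
open scoped MatrixGroups Manifold

namespace Fermat.Agent.S20

/-- `ρ = exp(2πi/3)` -/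
noncomputable def rho : ℍ :=
  ⟨-1 / 2 + (Real.sqrt 3 / 2 : ℝ) * Complex.I, by simp⟩

lemma l1_tendsto {k : ℤ} (F : ModularForm 𝒮ℒ k) :
    Tendsto F atImInfty (𝓝 ((qExpansion 1 F).coeff 0)) := by
  have han : AnalyticAt ℂ (cuspFunction 1 F) 0 :=
    ModularFormClass.analyticAt_cuspFunction_zero F one_pos one_mem_strictPeriods_SL
  have hper := SlashInvariantFormClass.periodic_comp_ofComplex F one_mem_strictPeriods_SL
  have h1 : (cuspFunction 1 F ∘ fun τ : ℍ => Function.Periodic.qParam 1 τ : ℍ → ℂ) = F := by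
    funext τ
    simpa using eq_cuspFunction τ one_ne_zero hper
  have h2 : (qExpansion 1 F).coeff 0 = cuspFunction 1 F 0 := by
    simp [qExpansion_coeff]
  rw [h2]
  have := han.continuousAt.tendsto.comp (qParam_tendsto_atImInfty (h := 1) one_pos)
  rwa [h1] at this

theorem S_smul_I : ModularGroup.S • (I : ℍ) = I := by
  rw [UpperHalfPlane.ext_iff, coe_specialLinearGroup_apply]
  simp [ModularGroup.S]

theorem denom_S_I : denom (ModularGroup.S : SL(2, ℤ)) (I : ℍ) = Complex.I := by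
  simp [denom, ModularGroup.S]

lemma l1_rho_coe : (rho : ℂ) = -1 / 2 + (Real.sqrt 3 / 2 : ℝ) * Complex.I := rfl

lemma l1_sqrt3 : ((Real.sqrt 3 : ℝ) : ℂ) ^ 2 = 3 := by
  rw [← Complex.ofReal_pow, Real.sq_sqrt (by norm_num)]; norm_num

lemma l1_rho_sq : (rho : ℂ) ^ 2 + rho + 1 = 0 := by
  rw [l1_rho_coe]
  push_cast
  have h := l1_sqrt3
  have hI := Complex.I_sq
  linear_combination (1 / 4 : ℂ) * Complex.I ^ 2 * h + (3 / 4 : ℂ) * hI

theorem ST_smul_rho : (ModularGroup.S * ModularGroup.T) • rho = rho := by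
  rw [UpperHalfPlane.ext_iff, coe_specialLinearGroup_apply]
  have h1 : (rho : ℂ) + 1 ≠ 0 := by
    intro h
    have := l1_rho_sq
    have h2 : (rho : ℂ) = -1 := by linear_combination h
    rw [h2] at this
    norm_num at this
  simp [ModularGroup.S, ModularGroup.T, Matrix.mul_apply, Fin.sum_univ_two]
  rw [div_eq_iff h1]
  linear_combination -l1_rho_sq

lemma l1_denom_ST_rho : denom ((ModularGroup.S * ModularGroup.T : SL(2, ℤ))) rho = rho + 1 := by
  simp [denom, ModularGroup.S, ModularGroup.T, Matrix.mul_apply, Fin.sum_univ_two]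

/-- `ρ + 1 = exp(πi/3)` is a primitive 6th root of unity. -/
theorem isPrimitiveRoot_denom_ST_rho :
    IsPrimitiveRoot (denom ((ModularGroup.S * ModularGroup.T : SL(2, ℤ))) rho) 6 := by
  rw [l1_denom_ST_rho]
  have h := Complex.isPrimitiveRoot_exp 6 (by norm_num)
  have h2 : Complex.exp (2 * Real.pi * Complex.I / (6 : ℕ)) = rho + 1 := by
    have e1 : 2 * (Real.pi : ℂ) * Complex.I / (6 : ℕ) = ((Real.pi / 3 : ℝ) : ℂ) * Complex.I := by
      push_cast; ring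
    rw [e1, Complex.exp_mul_I, ← Complex.ofReal_cos, ← Complex.ofReal_sin, Real.cos_pi_div_three,
      Real.sin_pi_div_three, l1_rho_coe]
    push_cast
    ring
  rwa [h2] at h

lemma l1_transform {k : ℤ} (F : ModularForm 𝒮ℒ k) (γ : SL(2, ℤ)) (z : ℍ) :
    F (γ • z) = denom γ z ^ k * F z := by
  have h : (⇑F) ∣[k] γ = ⇑F := F.slash_action_eq' _ ⟨γ, rfl⟩
  have h2 := congrFun h z
  rw [SL_slash_apply] at h2
  rw [← h2, mul_comm, mul_assoc, ← zpow_add₀ (denom_ne_zero _ _)]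
  simp

theorem E₆_I : E₆ I = 0 := by
  have h := l1_transform E₆ ModularGroup.S I
  rw [S_smul_I, denom_S_I] at h
  have h6 : (Complex.I : ℂ) ^ (6 : ℤ) = -1 := by
    have : (Complex.I : ℂ) ^ (6 : ℤ) = Complex.I ^ (6 : ℕ) := by norm_cast
    rw [this, show (6 : ℕ) = 2 * 3 from rfl, pow_mul, Complex.I_sq]
    norm_num
  rw [h6] at h
  have h2 : (2 : ℂ) * E₆ I = 0 := by linear_combination h
  simpa using h2

theorem E₄_rho : E₄ rho = 0 := by
  have h := l1_transform E₄ (ModularGroup.S * ModularGroup.T) rho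
  rw [ST_smul_rho] at h
  have hp := isPrimitiveRoot_denom_ST_rho
  set d := denom ((ModularGroup.S * ModularGroup.T : SL(2, ℤ))) rho with hd
  have h4 : d ^ (4 : ℤ) ≠ 1 := by
    have : d ^ (4 : ℤ) = d ^ (4 : ℕ) := by norm_cast
    rw [this]
    exact hp.pow_ne_one_of_pos_of_lt (by norm_num) (by norm_num)
  by_contra hne
  apply h4
  have : (d ^ (4 : ℤ) - 1) * E₄ rho = 0 := by linear_combination -h
  rcases mul_eq_zero.mp this with h' | h'
  · linear_combination h'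
  · exact absurd h' hne

theorem E₄_I_ne_zero : E₄ I ≠ 0 := vanish_E₄_ne_zero E₆_I

theorem E₆_rho_ne_zero : E₆ rho ≠ 0 := vanish_E₆_ne_zero E₄_rho

theorem simpleDiv_E₆ : SimpleDiv E₆ I where
  zeros z hz := by
    obtain ⟨lam, hlam, h4, h6⟩ := exists_scaling_of_E₆_eq_zero E₆_I hz
    exact exists_smul_eq_of_E₄_E₆ I z lam hlam h4 h6
  simple z hz := deriv_E₆_ne_zero z hz
  infty := ⟨1, one_ne_zero, by
    have := l1_tendsto E₆
    rwa [serre_E₆_coeff_zero] at this⟩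

theorem simpleDiv_E₄ : SimpleDiv E₄ rho where
  zeros z hz := by
    obtain ⟨lam, hlam, h4, h6⟩ := exists_scaling_of_E₄_eq_zero E₄_rho hz
    exact exists_smul_eq_of_E₄_E₆ rho z lam hlam h4 h6
  simple z hz := deriv_E₄_ne_zero z hz
  infty := ⟨1, one_ne_zero, by
    have := l1_tendsto E₄
    rwa [serre_E₄_coeff_zero] at this⟩

theorem exists_simpleDiv_generic (z₀ : ℍ) (h4 : E₄ z₀ ≠ 0) (h6 : E₆ z₀ ≠ 0) :
    ∃ G : ModularForm 𝒮ℒ 12, SimpleDiv G z₀ := by
  let G : ModularForm 𝒮ℒ 12 := discriminant z₀ • ModularForm.mcast (by norm_num) (E₄.pow 3) -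
    E₄ z₀ ^ 3 • CuspForm.toModularFormₗ CuspForm.discriminant
  have hG : (⇑G : ℍ → ℂ) = fun w : ℍ => discriminant z₀ * E₄ w ^ 3 - E₄ z₀ ^ 3 * discriminant w := by
    funext w
    have h3 : (E₄.pow 3) w = E₄ w ^ 3 := congrFun (ModularForm.coe_pow E₄ 3) w
    simp [G, CuspForm.toModularFormₗ_apply, h3]
  refine ⟨G, ?_, ?_, ?_⟩
  · intro z hz
    rw [hG] at hz
    obtain ⟨lam, hlam, h4', h6'⟩ := exists_scaling_of_generic h4 h6 hz
    exact exists_smul_eq_of_E₄_E₆ z₀ z lam hlam h4' h6'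
  · intro z hz
    rw [hG] at hz ⊢
    exact deriv_generic_ne_zero z₀ z h4 h6 hz
  · refine ⟨discriminant z₀, discriminant_ne_zero z₀, ?_⟩
    rw [hG]
    have h1 : Tendsto E₄ atImInfty (𝓝 1) := by
      have := l1_tendsto E₄
      rwa [serre_E₄_coeff_zero] at this
    have h2 : Tendsto discriminant atImInfty (𝓝 0) := discriminant_isZeroAtImInfty
    have := ((h1.pow 3).const_mul (discriminant z₀)).sub (h2.const_mul (E₄ z₀ ^ 3))
    simpa using this

theorem exists_levelOne_eq_one (z₀ : ℍ) (h4 : E₄ z₀ ≠ 0) (h6 : E₆ z₀ ≠ 0) (m : ℤ) (hm : 4 ≤ m)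
    (he : Even m) : ∃ A : ModularForm 𝒮ℒ m, A z₀ = 1 := by
  obtain ⟨a, b, G, -, hG, -⟩ := jinj_exists_monomial m hm he
  refine ⟨(G z₀)⁻¹ • G, ?_⟩
  have : G z₀ ≠ 0 := by
    rw [hG]
    exact mul_ne_zero (pow_ne_zero _ h4) (pow_ne_zero _ h6)
  simp [this]

theorem exists_levelOne_eq_one_of_four_dvd (z₀ : ℍ) (h4 : E₄ z₀ ≠ 0) (m : ℤ) (hm : 0 ≤ m)
    (he : 4 ∣ m) : ∃ A : ModularForm 𝒮ℒ m, A z₀ = 1 := by
  obtain ⟨c, hc⟩ := he
  have hc' : ((c.toNat : ℕ) : ℤ) * 4 = m := by omega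
  refine ⟨(E₄ z₀ ^ c.toNat)⁻¹ • ModularForm.mcast hc' (E₄.pow c.toNat), ?_⟩
  have : E₄ z₀ ^ c.toNat ≠ 0 := pow_ne_zero _ h4
  simp [this]

theorem exists_levelOne_eq_one_of_six_dvd (z₀ : ℍ) (h6 : E₆ z₀ ≠ 0) (m : ℤ) (hm : 0 ≤ m)
    (he : 6 ∣ m) : ∃ A : ModularForm 𝒮ℒ m, A z₀ = 1 := by
  obtain ⟨c, hc⟩ := he
  have hc' : ((c.toNat : ℕ) : ℤ) * 6 = m := by omega
  refine ⟨(E₆ z₀ ^ c.toNat)⁻¹ • ModularForm.mcast hc' (E₆.pow c.toNat), ?_⟩
  have : E₆ z₀ ^ c.toNat ≠ 0 := pow_ne_zero _ h6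
  simp [this]

theorem exists_levelOne_tendsto_one (m : ℤ) (hm : 4 ≤ m) (he : Even m) :
    ∃ A : ModularForm 𝒮ℒ m, Tendsto A atImInfty (𝓝 1) := by
  obtain ⟨a, b, G, -, -, hG⟩ := jinj_exists_monomial m hm he
  refine ⟨G, ?_⟩
  have := l1_tendsto G
  rwa [hG] at this

end Fermat.Agent.S20
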