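/-
S20: the matrix of a minimal frame is invertible at every point of `ℍ`.
-/
import Fermat.Agent.S20.Frame
import Fermat.Agent.S20.Div
import Fermat.Agent.S20.L1

set_option autoImplicit false

open UpperHalfPlane ModularForm CongruenceSubgroup Filter Topology EisensteinSeries
open scoped MatrixGroups Manifold

namespace Fermat.Agent.S20

open Fermat.Agent.S23 (Q)

variable {N : ℕ} [NeZero N] {k : Q N → ℤ} {φ : Q N → Q N → ℍ → ℂ}

/-- abstract reduction at a point: a nontrivial linear relation between the values at `z₀`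
contradicts minimality, as soon as there are enough level one forms not vanishing at `z₀`. -/
theorem IsMinFrame.no_relation (h : IsMinFrame N k φ) {w : ℤ} {G : ModularForm 𝒮ℒ w} {z₀ : ℍ}
    (hG : SimpleDiv G z₀) (c : Q N → ℂ) (hc : c ≠ 0) (hrel : ∀ q, ∑ j, c j * φ j q z₀ = 0)
    (s : ℤ) (hs : s < w)
    (hA : ∀ j j', c j ≠ 0 → c j' ≠ 0 → k j ≤ k j' →
      ∃ A : ModularForm 𝒮ℒ (k j' + s - k j), A z₀ = 1) : False := by
  classical
  have hne : (Finset.univ.filter fun j => c j ≠ 0).Nonempty := by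
    obtain ⟨j, hj⟩ := Function.ne_iff.mp hc
    exact ⟨j, by simpa using hj⟩
  obtain ⟨j₀, hj₀, hmax⟩ := Finset.exists_max_image _ k hne
  have hj₀' : c j₀ ≠ 0 := (Finset.mem_filter.mp hj₀).2
  have hB : ∀ j, ∃ B : ℍ → ℂ, IsVF N (k j₀ + s) (fun q => B * φ j q) ∧ B z₀ = c j ∧ MDiff B := by
    intro j
    by_cases hj : c j = 0
    · refine ⟨0, ?_, by simp [hj], mdifferentiable_const⟩
      simpa using isVF_zero N (k j₀ + s)
    · obtain ⟨A, hA1⟩ := hA j j₀ hj hj₀' (hmax j (by simpa using hj))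
      refine ⟨c j • ⇑A, ?_, by simp [hA1], A.holo'.const_smul _⟩
      have := (((h.frame.vf j).mul_levelOne A).smul (c j)).cast
        (show k j₀ + s - k j + k j = k j₀ + s by ring)
      simpa [smul_mul_assoc] using this
  choose B hBv hBz hBm using hB
  have hF : IsVF N (k j₀ + s) (fun q => ∑ j, B j * φ j q) := IsVF.sum _ fun j _ => hBv j
  have hF0 : ∀ q, (∑ j, B j * φ j q) z₀ = 0 := by
    intro q
    rw [← hrel q]
    simp [Finset.sum_apply, hBz]
  obtain ⟨ψ, hψ, hψG⟩ := hF.div hG hF0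
  refine h.no_reduction B G ψ (k j₀ + s - w) hψ ?_ j₀ (hBm j₀) ?_ (by omega)
  · intro q z
    rw [hψG]
    simp [Finset.sum_apply]
  · intro h0
    apply hj₀'
    rw [← hBz, h0]
    rfl

/-- splitting a relation at a fixed point `z₀` of `γ₀` according to the values of
`denom γ₀ z₀ ^ k j`. -/
theorem exists_relation_split (hs : ∀ j (γ : SL(2, ℤ)) (q : Q N), φ j q ∣[k j] γ = φ j (γ⁻¹ • q))
    (γ₀ : SL(2, ℤ)) (z₀ : ℍ) (hfix : γ₀ • z₀ = z₀)
    (c : Q N → ℂ) (hc : c ≠ 0) (hrel : ∀ q, ∑ j, c j * φ j q z₀ = 0) :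
    ∃ c' : Q N → ℂ, c' ≠ 0 ∧ (∀ q, ∑ j, c' j * φ j q z₀ = 0) ∧
      ∀ j j', c' j ≠ 0 → c' j' ≠ 0 → denom γ₀ z₀ ^ k j = denom γ₀ z₀ ^ k j' := by
  classical
  set χ : Q N → ℂ := fun j => denom γ₀ z₀ ^ k j with hχ
  -- multiplication by `χ` preserves relations
  have hstep : ∀ d : Q N → ℂ, (∀ q, ∑ j, d j * φ j q z₀ = 0) →
      ∀ q, ∑ j, (χ j * d j) * φ j q z₀ = 0 := by
    intro d hd q
    have h1 := hd (γ₀ • q)
    rw [← h1]
    refine Finset.sum_congr rfl fun j _ => ?_
    have h2 := apply_smul (hs j) γ₀ (γ₀ • q) z₀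
    rw [hfix, inv_smul_smul] at h2
    rw [h2]
    ring
  have hpow : ∀ (n : ℕ) (q : Q N), ∑ j, (χ j ^ n * c j) * φ j q z₀ = 0 := by
    intro n
    induction n with
    | zero => simpa using hrel
    | succ n ih =>
      intro q
      have := hstep _ ih q
      rw [← this]
      refine Finset.sum_congr rfl fun j _ => ?_
      ring
  have hpoly : ∀ (P : Polynomial ℂ) (q : Q N), ∑ j, (P.eval (χ j) * c j) * φ j q z₀ = 0 := by
    intro P q
    simp only [Polynomial.eval_eq_sum_range, Finset.sum_mul]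
    rw [Finset.sum_comm]
    refine Finset.sum_eq_zero fun n _ => ?_
    have := hpow n q
    simp only [mul_assoc] at this ⊢
    rw [← Finset.mul_sum, this, mul_zero]
  obtain ⟨j₁, hj₁⟩ := Function.ne_iff.mp hc
  set P : Polynomial ℂ := Lagrange.basis (Finset.univ.image χ) id (χ j₁) with hP
  have hP1 : P.eval (χ j₁) = 1 :=
    Lagrange.eval_basis_self (Function.injective_id.injOn) (Finset.mem_image_of_mem χ (Finset.mem_univ j₁))
  have hP0 : ∀ j, χ j ≠ χ j₁ → P.eval (χ j) = 0 := fun j hj =>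
    Lagrange.eval_basis_of_ne (v := id) (Ne.symm hj) (Finset.mem_image_of_mem χ (Finset.mem_univ j))
  refine ⟨fun j => P.eval (χ j) * c j, ?_, hpoly P, ?_⟩
  · intro h0
    have := congrFun h0 j₁
    simp only [hP1, one_mul] at this
    exact hj₁ this
  · intro j j' hj hj'
    have e1 : χ j = χ j₁ := by
      by_contra hne
      exact hj (by show P.eval (χ j) * c j = 0; rw [hP0 j hne, zero_mul])
    have e2 : χ j' = χ j₁ := by
      by_contra hne
      exact hj' (by show P.eval (χ j') * c j' = 0; rw [hP0 j' hne, zero_mul])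
    exact e1.trans e2.symm

theorem IsMinFrame.det_ne_zero_generic (h : IsMinFrame N k φ) (z₀ : ℍ) (h4 : E₄ z₀ ≠ 0)
    (h6 : E₆ z₀ ≠ 0) : (Mat φ z₀).det ≠ 0 := by
  intro hdet
  obtain ⟨c, hc, hcM⟩ := Matrix.exists_mulVec_eq_zero_iff.mpr hdet
  obtain ⟨G, hG⟩ := exists_simpleDiv_generic z₀ h4 h6
  refine h.no_relation hG c hc (fun q => ?_) 4 (by norm_num) ?_
  · have := congrFun hcM q
    simpa [Matrix.mulVec, dotProduct, mul_comm] using this
  · intro j j' _ _ hjj
    refine exists_levelOne_eq_one z₀ h4 h6 _ (by omega) ?_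
    obtain ⟨m, hm⟩ := h.frame.weight_even j
    obtain ⟨m', hm'⟩ := h.frame.weight_even j'
    exact ⟨m' + 2 - m, by omega⟩

theorem IsMinFrame.det_ne_zero_I (h : IsMinFrame N k φ) : (Mat φ I).det ≠ 0 := by
  intro hdet
  obtain ⟨c, hc, hcM⟩ := Matrix.exists_mulVec_eq_zero_iff.mpr hdet
  have hrel : ∀ q, ∑ j, c j * φ j q I = 0 := fun q => by
    have := congrFun hcM q
    simpa [Matrix.mulVec, dotProduct, mul_comm] using this
  obtain ⟨c', hc', hrel', hsplit⟩ := exists_relation_split (fun j => (h.frame.vf j).slash)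
    ModularGroup.S I S_smul_I c hc hrel
  refine h.no_relation simpleDiv_E₆ c' hc' hrel' 0 (by norm_num) ?_
  intro j j' hj hj' hjj
  refine exists_levelOne_eq_one_of_four_dvd I E₄_I_ne_zero _ (by omega) ?_
  have h1 := hsplit j j' hj hj'
  rw [denom_S_I] at h1
  have h2 : Complex.I ^ (k j' - k j) = 1 := by
    rw [zpow_sub₀ Complex.I_ne_zero, h1, div_self (zpow_ne_zero _ Complex.I_ne_zero)]
  have h3 : IsPrimitiveRoot Complex.I 4 := Complex.isPrimitiveRoot_I
  have := (h3.zpow_eq_one_iff_dvd _).mp h2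
  simpa using this

theorem IsMinFrame.det_ne_zero_rho (h : IsMinFrame N k φ) : (Mat φ rho).det ≠ 0 := by
  intro hdet
  obtain ⟨c, hc, hcM⟩ := Matrix.exists_mulVec_eq_zero_iff.mpr hdet
  have hrel : ∀ q, ∑ j, c j * φ j q rho = 0 := fun q => by
    have := congrFun hcM q
    simpa [Matrix.mulVec, dotProduct, mul_comm] using this
  obtain ⟨c', hc', hrel', hsplit⟩ := exists_relation_split (fun j => (h.frame.vf j).slash)
    (ModularGroup.S * ModularGroup.T) rho ST_smul_rho c hc hrel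
  refine h.no_relation simpleDiv_E₄ c' hc' hrel' 0 (by norm_num) ?_
  intro j j' hj hj' hjj
  refine exists_levelOne_eq_one_of_six_dvd rho E₆_rho_ne_zero _ (by omega) ?_
  have h1 := hsplit j j' hj hj'
  have h3 := isPrimitiveRoot_denom_ST_rho
  have h0 : denom ((ModularGroup.S * ModularGroup.T : SL(2, ℤ))) rho ≠ 0 := denom_ne_zero _ _
  have h2 : denom ((ModularGroup.S * ModularGroup.T : SL(2, ℤ))) rho ^ (k j' - k j) = 1 := by
    rw [zpow_sub₀ h0, h1, div_self (zpow_ne_zero _ h0)]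
  have := (h3.zpow_eq_one_iff_dvd _).mp h2
  simpa using this

theorem IsMinFrame.det_ne_zero (h : IsMinFrame N k φ) (z : ℍ) : (Mat φ z).det ≠ 0 := by
  by_cases h4 : E₄ z = 0
  · obtain ⟨γ, rfl⟩ := simpleDiv_E₄.zeros z h4
    exact det_Mat_smul_ne_zero (fun j => (h.frame.vf j).slash) γ _ h.det_ne_zero_rho
  by_cases h6 : E₆ z = 0
  · obtain ⟨γ, rfl⟩ := simpleDiv_E₆.zeros z h6
    exact det_Mat_smul_ne_zero (fun j => (h.frame.vf j).slash) γ _ h.det_ne_zero_I
  exact h.det_ne_zero_generic z h4 h6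

end Fermat.Agent.S20
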