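/-
S20: linear algebra of the translation `T` acting on `ℂ^Q`.
`PT^N = 1`, the `pr N r` (`r < N`) are orthogonal idempotents summing to `1`, `(pr N r)ᵀ = pr N (N - r)`.
-/
import Fermat.Agent.S20.Basic

set_option autoImplicit false
set_option linter.unusedSectionVars false
set_option linter.style.haveILetI false

open UpperHalfPlane ModularForm CongruenceSubgroup Filter Topology
open scoped MatrixGroups Manifold

namespace Fermat.Agent.S20

open Fermat.Agent.S23 (Q)

variable (N : ℕ) [NeZero N]


lemma cuspAlg_PT_mul_apply (M : Matrix (Q N) (Q N) ℂ) (q j : Q N) :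
    (PT N * M) q j = M ((ModularGroup.T)⁻¹ • q) j := by
  rw [Matrix.mul_apply]
  simp [PT]

theorem PT_pow_apply (s : ℕ) (M : Matrix (Q N) (Q N) ℂ) (q j : Q N) :
    (PT N ^ s * M) q j = M ((ModularGroup.T ^ s)⁻¹ • q) j := by
  induction s generalizing M with
  | zero => simp
  | succ s ih =>
    rw [pow_succ, Matrix.mul_assoc, ih, cuspAlg_PT_mul_apply, smul_smul, ← mul_inv_rev, ← pow_succ]

theorem PT_pow_mulVec (s : ℕ) (v : Q N → ℂ) (q : Q N) :
    Matrix.mulVec (PT N ^ s) v q = v ((ModularGroup.T ^ s)⁻¹ • q) := by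
  have h := PT_pow_apply N s (Matrix.of fun q' _ => v q') q q
  rw [Matrix.mul_apply] at h
  exact h

lemma cuspAlg_T_pow_smul (q : Q N) : (ModularGroup.T ^ N)⁻¹ • q = q := by
  induction q using QuotientGroup.induction_on with
  | H g =>
    rw [MulAction.Quotient.smul_mk, QuotientGroup.eq]
    have h1 : ModularGroup.T ^ N ∈ Gamma N := by
      rw [Gamma_mem]
      have := ModularGroup.coe_T_zpow (N : ℤ)
      rw [zpow_natCast] at this
      simp [this]
    have h2 : g⁻¹ * ModularGroup.T ^ N * g⁻¹⁻¹ ∈ Gamma N :=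
      (Gamma_normal N).conj_mem _ h1 g⁻¹
    have h3 : Gamma N ≤ Gamma0 N := fun γ hγ => by
      rw [Gamma_mem] at hγ
      rw [Gamma0_mem]
      exact hγ.2.2.1
    have h4 := h3 h2
    simpa [mul_assoc] using h4

theorem PT_pow_N : PT N ^ N = 1 := by
  ext q j
  have h := PT_pow_apply N N 1 q j
  rw [mul_one, cuspAlg_T_pow_smul] at h
  exact h



lemma cuspAlg_zeta_prim : IsPrimitiveRoot (zetaN N) N :=
  Complex.isPrimitiveRoot_exp N (NeZero.ne N)

lemma cuspAlg_zeta_ne_zero : zetaN N ≠ 0 := Complex.exp_ne_zero _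

lemma cuspAlg_zeta_pow_N : zetaN N ^ N = 1 := (cuspAlg_zeta_prim N).pow_eq_one

omit [NeZero N] in
lemma cuspAlg_geom (w : ℂ) (hw : w ^ N = 1) :
    ∑ s ∈ Finset.range N, w ^ s = if w = 1 then (N : ℂ) else 0 := by
  split_ifs with h
  · simp [h]
  · have h1 := mul_neg_geom_sum w N
    rw [hw, sub_self] at h1
    exact (mul_eq_zero.mp h1).resolve_left (sub_ne_zero.mpr (Ne.symm h))

theorem PT_mul_pr (r : ℕ) : PT N * pr N r = zetaN N ^ r • pr N r := by
  have hz := cuspAlg_zeta_ne_zero N
  set a : ℕ → Matrix (Q N) (Q N) ℂ := fun s => (zetaN N ^ r * (zetaN N ^ (r * s))⁻¹) • PT N ^ s with ha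
  have h1 : PT N * pr N r = (N : ℂ)⁻¹ • ∑ s ∈ Finset.range N, a (s + 1) := by
    rw [pr, Matrix.mul_smul, Finset.mul_sum]
    congr 1
    refine Finset.sum_congr rfl fun s _ => ?_
    rw [Matrix.mul_smul, ← pow_succ', ha]
    congr 1
    rw [mul_add, mul_one, pow_add]
    field_simp
  have h2 : zetaN N ^ r • pr N r = (N : ℂ)⁻¹ • ∑ s ∈ Finset.range N, a s := by
    rw [pr, smul_comm, Finset.smul_sum]
    congr 1
    refine Finset.sum_congr rfl fun s _ => ?_
    rw [smul_smul]
  have h3 : a N = a 0 := by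
    simp only [ha]
    rw [PT_pow_N, pow_mul', cuspAlg_zeta_pow_N]
    simp
  rw [h1, h2]
  congr 1
  have h4 := Finset.sum_range_succ a N
  have h5 := Finset.sum_range_succ' a N
  rw [h4, h3] at h5
  exact (add_right_cancel h5).symm

lemma cuspAlg_PT_pow_mul_pr (r s : ℕ) : PT N ^ s * pr N r = zetaN N ^ (r * s) • pr N r := by
  induction s with
  | zero => simp
  | succ s ih =>
    rw [pow_succ, Matrix.mul_assoc, PT_mul_pr, Matrix.mul_smul, ih, smul_smul, mul_add, mul_one,
      pow_add, mul_comm]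

theorem pr_mul_pr (r r' : ℕ) (hr : r < N) (hr' : r' < N) :
    pr N r * pr N r' = if r = r' then pr N r else 0 := by
  have hz := cuspAlg_zeta_ne_zero N
  have hN : (N : ℂ) ≠ 0 := Nat.cast_ne_zero.mpr (NeZero.ne N)
  have h1 : pr N r * pr N r' =
      ((N : ℂ)⁻¹ * ∑ s ∈ Finset.range N, ((zetaN N ^ r)⁻¹ * zetaN N ^ r') ^ s) • pr N r' := by
    conv_lhs => rw [pr]
    rw [Matrix.smul_mul, Finset.sum_mul, mul_smul, Finset.sum_smul]
    congr 1
    refine Finset.sum_congr rfl fun s _ => ?_
    rw [Matrix.smul_mul, cuspAlg_PT_pow_mul_pr, smul_smul, mul_pow, inv_pow, ← pow_mul, ← pow_mul]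
  rw [h1, cuspAlg_geom]
  · by_cases h : r = r'
    · subst h
      rw [if_pos rfl, if_pos (inv_mul_cancel₀ (pow_ne_zero _ hz)), inv_mul_cancel₀ hN, one_smul]
    · rw [if_neg h, if_neg, mul_zero, zero_smul]
      intro h2
      apply h
      have h3 : zetaN N ^ r' = zetaN N ^ r := by
        field_simp at h2
        exact h2
      exact ((cuspAlg_zeta_prim N).pow_inj hr' hr h3).symm
  · rw [mul_pow, inv_pow, ← pow_mul, ← pow_mul, mul_comm r, mul_comm r', pow_mul, pow_mul,
      cuspAlg_zeta_pow_N]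
    simp

theorem sum_pr : ∑ r ∈ Finset.range N, pr N r = 1 := by
  have hz := cuspAlg_zeta_ne_zero N
  have hN : (N : ℂ) ≠ 0 := Nat.cast_ne_zero.mpr (NeZero.ne N)
  have h1 : ∑ r ∈ Finset.range N, pr N r = (N : ℂ)⁻¹ • ∑ s ∈ Finset.range N,
      (∑ r ∈ Finset.range N, ((zetaN N ^ s)⁻¹) ^ r) • PT N ^ s := by
    simp only [pr]
    rw [← Finset.smul_sum, Finset.sum_comm]
    congr 1
    refine Finset.sum_congr rfl fun s _ => ?_
    rw [Finset.sum_smul]
    refine Finset.sum_congr rfl fun r _ => ?_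
    rw [inv_pow, ← pow_mul, mul_comm]
  rw [h1, Finset.sum_eq_single 0]
  · simp [hN]
  · intro s hs hs0
    rw [cuspAlg_geom, if_neg, zero_smul]
    · intro h2
      rw [inv_eq_one] at h2
      exact hs0 ((cuspAlg_zeta_prim N).pow_inj (Finset.mem_range.mp hs) (NeZero.pos N)
        (by rw [h2, pow_zero]))
    · rw [inv_pow, ← pow_mul, mul_comm, pow_mul, cuspAlg_zeta_pow_N]
      simp
  · intro h
    exact absurd (Finset.mem_range.mpr (NeZero.pos N)) h



lemma cuspAlg_EE_mul (z w : ℂ) : EE N z * EE N w = EE N (z + w) := by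
  simp only [EE]
  rw [Finset.sum_mul]
  refine Finset.sum_congr rfl fun r hr => ?_
  rw [Finset.mul_sum, Finset.sum_eq_single r]
  · rw [Matrix.smul_mul, Matrix.mul_smul, pr_mul_pr N r r (Finset.mem_range.mp hr)
      (Finset.mem_range.mp hr), if_pos rfl, smul_smul, ← Complex.exp_add]
    congr 2
    ring
  · intro r' hr' hne
    rw [Matrix.smul_mul, Matrix.mul_smul, pr_mul_pr N r r' (Finset.mem_range.mp hr)
      (Finset.mem_range.mp hr'), if_neg (Ne.symm hne)]
    simp
  · intro h
    exact absurd hr h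

lemma cuspAlg_EE_zero : EE N 0 = 1 := by
  simp only [EE]
  rw [← sum_pr N]
  refine Finset.sum_congr rfl fun r _ => ?_
  simp

theorem EE_mul_EE_neg (z : ℂ) : EE N z * EE N (-z) = 1 := by
  rw [cuspAlg_EE_mul, add_neg_cancel, cuspAlg_EE_zero]

theorem EE_neg_mul_EE (z : ℂ) : EE N (-z) * EE N z = 1 := by
  rw [cuspAlg_EE_mul, neg_add_cancel, cuspAlg_EE_zero]

lemma cuspAlg_PT_transpose_mul : (PT N).transpose * PT N = 1 := by
  ext q j
  rw [Matrix.mul_apply]
  simp only [Matrix.transpose_apply, PT, Matrix.of_apply, Matrix.one_apply]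
  rw [Finset.sum_eq_single (ModularGroup.T • q)]
  · simp [eq_comm]
  · intro b _ hb
    rw [if_neg, zero_mul]
    intro h
    apply hb
    rw [h, smul_inv_smul]
  · intro h
    exact absurd (Finset.mem_univ _) h

lemma cuspAlg_PT_transpose_pow_mul (s : ℕ) : (PT N).transpose ^ s * PT N ^ s = 1 := by
  induction s with
  | zero => simp
  | succ s ih =>
    rw [pow_succ, pow_succ', Matrix.mul_assoc, ← Matrix.mul_assoc (PT N).transpose,
      cuspAlg_PT_transpose_mul, Matrix.one_mul, ih]

lemma cuspAlg_PT_transpose_pow_mul_pr (r s : ℕ) :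
    (PT N).transpose ^ s * pr N r = (zetaN N ^ (r * s))⁻¹ • pr N r := by
  have hz := cuspAlg_zeta_ne_zero N
  have h1 := cuspAlg_PT_pow_mul_pr N r s
  have h2 : (PT N).transpose ^ s * (PT N ^ s * pr N r) = pr N r := by
    rw [← Matrix.mul_assoc, cuspAlg_PT_transpose_pow_mul, Matrix.one_mul]
  rw [h1, Matrix.mul_smul] at h2
  conv_rhs => rw [← h2]
  rw [smul_smul, inv_mul_cancel₀ (pow_ne_zero _ hz), one_smul]

lemma cuspAlg_pr_transpose_mul_pr (r r' : ℕ) :
    (pr N r).transpose * pr N r' = if zetaN N ^ (r + r') = 1 then pr N r' else 0 := by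
  have hz := cuspAlg_zeta_ne_zero N
  have hN : (N : ℂ) ≠ 0 := Nat.cast_ne_zero.mpr (NeZero.ne N)
  have h1 : (pr N r).transpose * pr N r' =
      ((N : ℂ)⁻¹ * ∑ s ∈ Finset.range N, ((zetaN N ^ (r + r'))⁻¹) ^ s) • pr N r' := by
    conv_lhs => rw [pr]
    rw [Matrix.transpose_smul, Matrix.transpose_sum, Matrix.smul_mul, Finset.sum_mul, mul_smul,
      Finset.sum_smul]
    congr 1
    refine Finset.sum_congr rfl fun s _ => ?_
    rw [Matrix.transpose_smul, Matrix.transpose_pow, Matrix.smul_mul,
      cuspAlg_PT_transpose_pow_mul_pr, smul_smul, inv_pow, ← pow_mul, ← mul_inv, ← pow_add,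
      add_mul]
  rw [h1, cuspAlg_geom]
  · by_cases h : zetaN N ^ (r + r') = 1
    · rw [if_pos h, if_pos (by rw [h, inv_one]), inv_mul_cancel₀ hN, one_smul]
    · rw [if_neg h, if_neg (by rwa [inv_eq_one]), mul_zero, zero_smul]
  · rw [inv_pow, ← pow_mul, mul_comm, pow_mul, cuspAlg_zeta_pow_N]
    simp

theorem EE_transpose_mul_EE (z : ℂ) :
    (EE N z).transpose * EE N z
      = pr N 0 + Complex.exp (2 * Real.pi * Complex.I * z) • (1 - pr N 0) := by
  have hN : (N : ℂ) ≠ 0 := Nat.cast_ne_zero.mpr (NeZero.ne N)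
  set t := Complex.exp (2 * Real.pi * Complex.I * z) with ht
  have h1 : (EE N z).transpose * EE N z =
      ∑ r' ∈ Finset.range N, (if r' = 0 then (1 : ℂ) else t) • pr N r' := by
    conv_lhs => rw [EE, Finset.mul_sum]
    refine Finset.sum_congr rfl fun r' hr' => ?_
    have hr'N := Finset.mem_range.mp hr'
    rw [Matrix.transpose_sum, Finset.sum_mul]
    by_cases h0 : r' = 0
    · subst h0
      rw [if_pos rfl, Finset.sum_eq_single 0]
      · rw [Matrix.transpose_smul, Matrix.smul_mul, Matrix.mul_smul, cuspAlg_pr_transpose_mul_pr]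
        simp
      · intro r hr hr0
        rw [Matrix.transpose_smul, Matrix.smul_mul, Matrix.mul_smul, cuspAlg_pr_transpose_mul_pr,
          if_neg]
        · simp
        · intro h
          rw [add_zero] at h
          exact hr0 ((cuspAlg_zeta_prim N).pow_inj (Finset.mem_range.mp hr) (NeZero.pos N)
            (by rw [h, pow_zero]))
      · intro h
        exact absurd hr' h
    · rw [if_neg h0, Finset.sum_eq_single (N - r')]
      · rw [Matrix.transpose_smul, Matrix.smul_mul, Matrix.mul_smul, cuspAlg_pr_transpose_mul_pr,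
          if_pos (by rw [Nat.sub_add_cancel hr'N.le, cuspAlg_zeta_pow_N]), smul_smul,
          ← Complex.exp_add, ht]
        congr 2
        rw [Nat.cast_sub hr'N.le]
        field_simp
        ring
      · intro r hr hne
        rw [Matrix.transpose_smul, Matrix.smul_mul, Matrix.mul_smul, cuspAlg_pr_transpose_mul_pr,
          if_neg]
        · simp
        · intro h
          have h2 := ((cuspAlg_zeta_prim N).pow_eq_one_iff_dvd _).mp h
          have hrN := Finset.mem_range.mp hr
          obtain ⟨c, hc⟩ := h2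
          have hc1 : c = 1 := by
            have h3 : 0 < c := by
              rcases Nat.eq_zero_or_pos c with h | h
              · subst h; omega
              · exact h
            have h4 : c < 2 := by
              by_contra h5
              have : N * 2 ≤ N * c := Nat.mul_le_mul_left _ (by omega)
              omega
            omega
          subst hc1
          apply hne
          omega
      · intro h
        exact absurd (Finset.mem_range.mpr (by omega)) h
  rw [h1]
  have h2 : ∑ r' ∈ Finset.range N, (if r' = 0 then (1 : ℂ) else t) • pr N r' =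
      ∑ r' ∈ Finset.range N, ((if r' = 0 then (1 - t) else 0) • pr N r' + t • pr N r') := by
    refine Finset.sum_congr rfl fun r' _ => ?_
    rw [← add_smul]
    split_ifs <;> simp
  rw [h2, Finset.sum_add_distrib, ← Finset.smul_sum, sum_pr, Finset.sum_eq_single 0]
  · rw [if_pos rfl, sub_smul, one_smul, smul_sub]
    abel
  · intro b _ hb
    rw [if_neg hb, zero_smul]
  · intro h
    exact absurd (Finset.mem_range.mpr (NeZero.pos N)) h



lemma cuspAlg_det_idem {V : Type} [AddCommGroup V] [Module ℂ V] [FiniteDimensional ℂ V]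
    (f : V →ₗ[ℂ] V) (hf : IsIdempotentElem f) (t : ℂ) :
    LinearMap.det (f + t • (1 - f)) =
      t ^ (Module.finrank ℂ V - Module.finrank ℂ (LinearMap.range f)) := by
  let e := Submodule.prodEquivOfIsCompl (LinearMap.range f) (LinearMap.ker f)
    (LinearMap.IsIdempotentElem.isCompl hf)
  let g : Module.End ℂ (LinearMap.range f × LinearMap.ker f) :=
    LinearMap.prodMap (1 : Module.End ℂ (LinearMap.range f)) (t • (1 : Module.End ℂ (LinearMap.ker f)))
  have h1 : f + t • (1 - f) = (e : _ →ₗ[ℂ] V) ∘ₗ g ∘ₗ (e.symm : V →ₗ[ℂ] _) := by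
    refine LinearMap.ext fun v => ?_
    obtain ⟨⟨a, b⟩, rfl⟩ := e.surjective v
    have ha : f (a : V) = a := (LinearMap.IsIdempotentElem.mem_range_iff hf).mp a.2
    have hb : f (b : V) = 0 := b.2
    simp only [LinearMap.comp_apply, LinearEquiv.coe_coe, LinearEquiv.symm_apply_apply]
    change (f + t • (1 - f)) ((a : V) + (b : V)) = ((a : V) + ((t • b : LinearMap.ker f) : V))
    simp [ha, hb]
  rw [h1, LinearMap.det_conj, LinearMap.det_prodMap, LinearMap.det_smul]
  have h2 := LinearMap.finrank_range_add_finrank_ker f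
  have h3 : Module.finrank ℂ V - Module.finrank ℂ (LinearMap.range f) =
      Module.finrank ℂ (LinearMap.ker f) := by omega
  rw [h3]
  simp

/-- functions on the orbit space, pulled back -/
noncomputable def cuspAlgPull :
    (MulAction.orbitRel.Quotient (Subgroup.zpowers ModularGroup.T) (Q N) → ℂ) →ₗ[ℂ] (Q N → ℂ) :=
  LinearMap.funLeft ℂ ℂ (Quotient.mk _)

lemma cuspAlg_range : LinearMap.range (Matrix.toLin' (pr N 0)) = LinearMap.range (cuspAlgPull N) := by
  have hN : (N : ℂ) ≠ 0 := Nat.cast_ne_zero.mpr (NeZero.ne N)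
  apply le_antisymm
  · rintro _ ⟨v, rfl⟩
    set w := Matrix.toLin' (pr N 0) v with hw
    have hinv : ∀ q, w ((ModularGroup.T)⁻¹ • q) = w q := by
      intro q
      have h1 : Matrix.mulVec (PT N ^ 1) w q = w ((ModularGroup.T ^ 1)⁻¹ • q) := PT_pow_mulVec N 1 w q
      rw [pow_one, pow_one] at h1
      rw [← h1, hw, Matrix.toLin'_apply, Matrix.mulVec_mulVec, PT_mul_pr]
      simp
    have hinv' : ∀ q, w (ModularGroup.T • q) = w q := by
      intro q
      have := hinv (ModularGroup.T • q)
      rw [inv_smul_smul] at this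
      exact this.symm
    have hz : ∀ (n : ℤ) q, w (ModularGroup.T ^ n • q) = w q := by
      intro n
      induction n using Int.induction_on with
      | zero => simp
      | succ n ih =>
        intro q
        rw [zpow_add_one, mul_smul, ih, hinv']
      | pred n ih =>
        intro q
        rw [zpow_sub_one, mul_smul, ih, hinv]
    refine ⟨Quotient.lift w ?_, ?_⟩
    · rintro a b ⟨⟨g, n, rfl⟩, rfl⟩
      exact hz n b
    · funext q
      rfl
  · rintro _ ⟨u, rfl⟩
    refine ⟨cuspAlgPull N u, ?_⟩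
    funext q
    rw [Matrix.toLin'_apply, pr, Matrix.smul_mulVec, Matrix.sum_mulVec]
    simp only [zero_mul, pow_zero, inv_one, one_smul, Pi.smul_apply, Finset.sum_apply,
      PT_pow_mulVec]
    have h1 : ∀ s : ℕ, cuspAlgPull N u ((ModularGroup.T ^ s)⁻¹ • q) = cuspAlgPull N u q := by
      intro s
      change u (Quotient.mk _ _) = u (Quotient.mk _ _)
      congr 1
      apply Quotient.sound
      refine ⟨⟨(ModularGroup.T ^ s)⁻¹, -(s : ℤ), by simp⟩, rfl⟩
    simp only [h1]
    simp [hN]

theorem numCusps_le : numCusps N ≤ Nat.card (Q N) :=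
  Nat.card_le_card_of_surjective _ Quotient.mk_surjective

theorem det_pr_zero (t : ℂ) :
    (pr N 0 + t • (1 - pr N 0)).det = t ^ (Nat.card (Q N) - numCusps N) := by
  have hidem : IsIdempotentElem (Matrix.toLin' (pr N 0)) := by
    change Matrix.toLin' (pr N 0) * Matrix.toLin' (pr N 0) = _
    rw [Module.End.mul_eq_comp, ← Matrix.toLin'_mul, pr_mul_pr N 0 0 (NeZero.pos N) (NeZero.pos N), if_pos rfl]
  have h1 := cuspAlg_det_idem (Matrix.toLin' (pr N 0)) hidem t
  have h2 : Matrix.toLin' (pr N 0) + t • (1 - Matrix.toLin' (pr N 0)) =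
      Matrix.toLin' (pr N 0 + t • (1 - pr N 0)) := by
    simp [map_add, map_sub, Matrix.toLin'_one]
    rfl
  rw [h2, LinearMap.det_toLin'] at h1
  rw [h1, cuspAlg_range, LinearMap.finrank_range_of_inj]
  · haveI : Finite (MulAction.orbitRel.Quotient (Subgroup.zpowers ModularGroup.T) (Q N)) :=
      Finite.of_surjective _ Quotient.mk_surjective
    haveI : Fintype (MulAction.orbitRel.Quotient (Subgroup.zpowers ModularGroup.T) (Q N)) :=
      Fintype.ofFinite _
    rw [Module.finrank_fintype_fun_eq_card, Module.finrank_fintype_fun_eq_card, numCusps,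
      Nat.card_eq_fintype_card, Nat.card_eq_fintype_card]
  · exact LinearMap.funLeft_injective_of_surjective _ _ _ Quotient.mk_surjective


theorem det_EE_sq (z : ℂ) :
    (EE N z).det ^ 2 = Complex.exp (2 * Real.pi * Complex.I * z) ^ (Nat.card (Q N) - numCusps N) := by
  have h := congrArg Matrix.det (EE_transpose_mul_EE N z)
  rw [Matrix.det_mul, Matrix.det_transpose, det_pr_zero] at h
  rw [← h, sq]

end Fermat.Agent.S20
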