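/-
S20: behaviour of vector valued forms at `i∞`.
For a vector valued form `φ(z+1) = PT * φ(z)`, so `pr N r * φ(z) = exp(2πi r z/N) * (power series in
exp(2πi z))`, hence `EE N (-z) * φ(z)` is a power series in `exp(2πi z)`.
-/
import Fermat.Agent.S20.CuspAlg

set_option autoImplicit false

open UpperHalfPlane ModularForm CongruenceSubgroup Filter Topology Asymptotics
open scoped MatrixGroups Manifold

namespace Fermat.Agent.S20

open Fermat.Agent.S23 (Q bdd_sum)

variable {N : ℕ} [NeZero N] {k : ℤ} {φ : Q N → ℍ → ℂ}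

lemma cuspAn_periodic (g : ℍ → ℂ) (h : ∀ z : ℍ, g ((1 : ℝ) +ᵥ z) = g z) :
    Function.Periodic (g ∘ ofComplex) (1 : ℝ) := by
  intro w
  by_cases! hw : 0 < Complex.im w
  · have h1 : 0 < Complex.im (w + (1 : ℝ)) := by simp [hw]
    simp only [Function.comp_apply, ofComplex_apply_of_im_pos h1, ofComplex_apply_of_im_pos hw]
    rw [← h ⟨w, hw⟩]
    congr 1
    ext
    simp [add_comm]
  · have h1 : Complex.im (w + (1 : ℝ)) ≤ 0 := by simpa using hw
    simp only [Function.comp_apply]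
    rw [ofComplex_apply_eq_of_im_nonpos h1 hw]

lemma cuspAn_mdiff_exp (c : ℂ) : MDiff (fun z : ℍ => Complex.exp (c * z)) := by
  have h : Differentiable ℂ (fun w : ℂ => Complex.exp (c * w)) := by fun_prop
  exact h.mdifferentiable.comp UpperHalfPlane.mdifferentiable_coe

lemma cuspAn_norm_exp (c : ℝ) (z : ℍ) :
    ‖Complex.exp (c * Complex.I * z)‖ = Real.exp (-c * z.im) := by
  rw [Complex.norm_exp]
  congr 1
  simp

/-- scalar lemma: a holomorphic function on `ℍ`, bounded at `i∞`, with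
`f(z+1) = exp(2πi r/N) f(z)`, `r < N`. -/
theorem exists_tendsto_of_quasiPeriodic (r : ℕ) (hr : r < N) (f : ℍ → ℂ) (hf : MDiff f)
    (hb : IsBoundedAtImInfty f) (hper : ∀ z : ℍ, f ((1 : ℝ) +ᵥ z) = zetaN N ^ r * f z) :
    ∃ a : ℂ, (fun z : ℍ => Complex.exp (-(2 * Real.pi * Complex.I * r * z / N)) * f z - a)
      =O[atImInfty] fun z : ℍ => Real.exp (-2 * Real.pi * z.im) := by
  have hN0 : (N : ℂ) ≠ 0 := Nat.cast_ne_zero.mpr (NeZero.ne N)
  have hNpos : (0 : ℝ) < N := Nat.cast_pos.mpr (NeZero.pos N)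
  set g : ℍ → ℂ := fun z => Complex.exp (-(2 * Real.pi * Complex.I * r * z / N)) * f z with hg
  set g1 : ℍ → ℂ := fun z => Complex.exp (2 * Real.pi * Complex.I * z) * g z with hg1
  -- periodicity
  have hgper : ∀ z : ℍ, g ((1 : ℝ) +ᵥ z) = g z := by
    intro z
    simp only [hg, hper z, zetaN, ← Complex.exp_nat_mul, ← mul_assoc, ← Complex.exp_add]
    congr 2
    simp only [UpperHalfPlane.coe_vadd]
    push_cast
    field_simp
    ring
  have hg1per : ∀ z : ℍ, g1 ((1 : ℝ) +ᵥ z) = g1 z := by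
    intro z
    simp only [hg1, hgper z]
    congr 1
    simp only [UpperHalfPlane.coe_vadd]
    push_cast
    rw [mul_add, mul_one, add_comm, Complex.exp_add, Complex.exp_two_pi_mul_I, mul_one]
  -- holomorphy
  have hghol : MDiff g := by
    have h1 : MDiff (fun z : ℍ => Complex.exp (-(2 * Real.pi * Complex.I * r * z / N))) := by
      have := cuspAn_mdiff_exp (-(2 * Real.pi * Complex.I * r / N))
      convert this using 3
      ring
    exact h1.mul hf
  have hg1hol : MDiff g1 := (cuspAn_mdiff_exp (2 * Real.pi * Complex.I)).mul hghol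
  -- `g1` tends to zero
  have hg1zero : IsZeroAtImInfty g1 := by
    have h1 : Tendsto (fun z : ℍ => Complex.exp (2 * Real.pi * Complex.I * z) *
        Complex.exp (-(2 * Real.pi * Complex.I * r * z / N))) atImInfty (𝓝 0) := by
      have hNr : (0 : ℝ) < N - r := sub_pos.mpr (Nat.cast_lt.mpr hr)
      have hh : (0 : ℝ) < N / (N - r) := div_pos hNpos hNr
      have hNr' : (N : ℂ) - r ≠ 0 := by
        have : ((N : ℝ) - r : ℝ) ≠ 0 := hNr.ne'
        exact_mod_cast this
      refine (qParam_tendsto_atImInfty hh).congr fun z => ?_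
      rw [Function.Periodic.qParam, ← Complex.exp_add]
      congr 1
      push_cast
      field_simp
      ring
    have h2 : g1 = f * fun z : ℍ => (Complex.exp (2 * Real.pi * Complex.I * z) *
        Complex.exp (-(2 * Real.pi * Complex.I * r * z / N))) := by
      funext z
      simp only [hg1, hg, Pi.mul_apply]
      ring
    rw [h2]
    exact BoundedAtFilter.mul_zeroAtFilter hb h1
  have hO1 : g1 =O[atImInfty] fun z : ℍ => Real.exp (-2 * Real.pi * z.im / 1) :=
    hg1zero.exp_decay_atImInfty one_pos (cuspAn_periodic g1 hg1per) hg1hol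
      hg1zero.isBoundedAtImInfty
  have hgb : IsBoundedAtImInfty g := by
    obtain ⟨C, hC⟩ := hO1.bound
    refine IsBigO.of_bound C ?_
    filter_upwards [hC] with z hz
    have h3 : ‖g1 z‖ = Real.exp (-2 * Real.pi * z.im) * ‖g z‖ := by
      simp only [hg1, norm_mul]
      congr 1
      rw [Complex.norm_exp]
      congr 1
      simp
    rw [h3, div_one, Real.norm_of_nonneg (Real.exp_pos _).le, mul_comm] at hz
    have := le_of_mul_le_mul_right hz (Real.exp_pos _)
    simpa using this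
  refine ⟨valueAtInfty g, ?_⟩
  have := exp_decay_sub_atImInfty one_pos (cuspAn_periodic g hgper) hghol hgb
  simpa only [div_one] using this

omit [NeZero N] in
lemma cuspAn_vadd (hs : ∀ (γ : SL(2, ℤ)) (q : Q N), φ q ∣[k] γ = φ (γ⁻¹ • q)) (q : Q N) (z : ℍ) :
    φ q ((1 : ℝ) +ᵥ z) = φ (ModularGroup.T⁻¹ • q) z := by
  have h1 := congrFun (hs ModularGroup.T q) z
  rw [SL_slash_apply] at h1
  rw [← h1, UpperHalfPlane.modular_T_smul]
  simp [denom, ModularGroup.T]

lemma cuspAn_pr_comm (r : ℕ) : pr N r * PT N = PT N * pr N r := by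
  simp only [pr, Matrix.smul_mul, Matrix.mul_smul, Finset.sum_mul, Finset.mul_sum, ← pow_succ,
    ← pow_succ']

lemma cuspAn_mulVec_eq (M : Matrix (Q N) (Q N) ℂ) (q : Q N) :
    (fun z : ℍ => Matrix.mulVec M (fun q' => φ q' z) q) = ∑ q', (fun z => M q q' * φ q' z) := by
  funext z
  simp [Matrix.mulVec, dotProduct, Finset.sum_apply]

lemma cuspAn_mdiff_mulVec (M : Matrix (Q N) (Q N) ℂ) (hφ : ∀ q, MDiff (φ q)) (q : Q N) :
    MDiff (fun z : ℍ => Matrix.mulVec M (fun q' => φ q' z) q) := by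
  rw [cuspAn_mulVec_eq]
  exact MDifferentiable.sum fun q' _ => (hφ q').const_smul (M q q')

lemma cuspAn_bdd_mulVec (M : Matrix (Q N) (Q N) ℂ) (hφ : ∀ q, IsBoundedAtImInfty (φ q)) (q : Q N) :
    IsBoundedAtImInfty (fun z : ℍ => Matrix.mulVec M (fun q' => φ q' z) q) := by
  rw [cuspAn_mulVec_eq]
  exact bdd_sum _ _ fun q' _ => (hφ q').const_smul_left (M q q')

lemma cuspAn_quasi (hs : ∀ (γ : SL(2, ℤ)) (q : Q N), φ q ∣[k] γ = φ (γ⁻¹ • q)) (r : ℕ) (q : Q N)
    (z : ℍ) :
    Matrix.mulVec (pr N r) (fun q' => φ q' ((1 : ℝ) +ᵥ z)) q =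
      zetaN N ^ r * Matrix.mulVec (pr N r) (fun q' => φ q' z) q := by
  have h1 : (fun q' => φ q' ((1 : ℝ) +ᵥ z)) = Matrix.mulVec (PT N) (fun q' => φ q' z) := by
    funext q'
    have := PT_pow_mulVec N 1 (fun q' => φ q' z) q'
    rw [pow_one, pow_one] at this
    rw [this, cuspAn_vadd hs]
  rw [h1, Matrix.mulVec_mulVec, cuspAn_pr_comm, PT_mul_pr, Matrix.smul_mulVec]
  rfl

lemma cuspAn_EE_mulVec (w : ℂ) (v : Q N → ℂ) (q : Q N) :
    Matrix.mulVec (EE N w) v q = ∑ r ∈ Finset.range N,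
      Complex.exp (2 * Real.pi * Complex.I * r * w / N) * Matrix.mulVec (pr N r) v q := by
  simp only [EE, Matrix.sum_mulVec, Matrix.smul_mulVec, Finset.sum_apply, Pi.smul_apply, smul_eq_mul]

lemma cuspAn_tendsto_rexp :
    Tendsto (fun z : ℍ => Real.exp (-2 * Real.pi * z.im)) atImInfty (𝓝 0) := by
  refine Real.tendsto_exp_atBot.comp ?_
  have : Tendsto (fun z : ℍ => z.im) atImInfty atTop := tendsto_comap
  exact this.const_mul_atTop_of_neg (by nlinarith [Real.pi_pos])

lemma IsVF.exists_isBigO_sub (h : IsVF N k φ) (q : Q N) :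
    ∃ a : ℂ, (fun z : ℍ => Matrix.mulVec (EE N (-(z : ℂ))) (fun q' => φ q' z) q - a)
      =O[atImInfty] fun z : ℍ => Real.exp (-2 * Real.pi * z.im) := by
  have h1 : ∀ r ∈ Finset.range N, ∃ a : ℂ,
      (fun z : ℍ => Complex.exp (-(2 * Real.pi * Complex.I * r * z / N)) *
        Matrix.mulVec (pr N r) (fun q' => φ q' z) q - a)
      =O[atImInfty] fun z : ℍ => Real.exp (-2 * Real.pi * z.im) := fun r hr =>
    exists_tendsto_of_quasiPeriodic r (Finset.mem_range.mp hr) _
      (cuspAn_mdiff_mulVec _ h.holo q) (cuspAn_bdd_mulVec _ h.bdd q) (cuspAn_quasi h.slash r q)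
  choose! a ha using h1
  refine ⟨∑ r ∈ Finset.range N, a r, ?_⟩
  have h2 := IsBigO.sum ha
  refine h2.congr_left fun z => ?_
  rw [cuspAn_EE_mulVec, ← Finset.sum_sub_distrib, Finset.sum_apply]
  apply Finset.sum_congr rfl
  intro r _
  congr 3
  ring

lemma IsVF.isBigO_sub_Lam (h : IsVF N k φ) (q : Q N) :
    (fun z : ℍ => Matrix.mulVec (EE N (-(z : ℂ))) (fun q' => φ q' z) q - Lam N φ q)
      =O[atImInfty] fun z : ℍ => Real.exp (-2 * Real.pi * z.im) := by
  obtain ⟨a, ha⟩ := h.exists_isBigO_sub q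
  have h1 : Tendsto (fun z : ℍ => Matrix.mulVec (EE N (-(z : ℂ))) (fun q' => φ q' z) q) atImInfty
      (𝓝 a) := by
    have := ha.trans_tendsto cuspAn_tendsto_rexp
    simpa using this.add_const a
  have h2 : Lam N φ q = a := h1.limUnder_eq
  rw [h2]
  exact ha

theorem IsVF.tendsto_Lam (h : IsVF N k φ) (q : Q N) :
    Tendsto (fun z : ℍ => Matrix.mulVec (EE N (-(z : ℂ))) (fun q' => φ q' z) q) atImInfty
      (𝓝 (Lam N φ q)) := by
  have := (h.isBigO_sub_Lam q).trans_tendsto cuspAn_tendsto_rexp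
  simpa using this.add_const (Lam N φ q)

lemma cuspAn_EE_apply (w : ℂ) (q q' : Q N) :
    EE N w q q' = ∑ r ∈ Finset.range N,
      Complex.exp (2 * Real.pi * Complex.I * r * w / N) * pr N r q q' := by
  simp only [EE, Matrix.sum_apply, Matrix.smul_apply, smul_eq_mul]

lemma cuspAn_EE_bdd (q q' : Q N) :
    (fun z : ℍ => EE N (z : ℂ) q q') =O[atImInfty] fun _ : ℍ => (1 : ℝ) := by
  have hNpos : (0 : ℝ) < N := Nat.cast_pos.mpr (NeZero.pos N)
  refine IsBigO.of_bound (∑ r ∈ Finset.range N, ‖pr N r q q'‖) (Eventually.of_forall fun z => ?_)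
  rw [cuspAn_EE_apply, norm_one, mul_one]
  refine (norm_sum_le _ _).trans (Finset.sum_le_sum fun r _ => ?_)
  rw [norm_mul]
  have h1 : ‖Complex.exp (2 * Real.pi * Complex.I * r * z / N)‖ ≤ 1 := by
    rw [Complex.norm_exp, Real.exp_le_one_iff]
    have : (2 * Real.pi * Complex.I * r * z / N : ℂ).re = -(2 * Real.pi * r * z.im / N) := by
      have h2 : (2 * Real.pi * Complex.I * r * z / N : ℂ)
          = ((2 * Real.pi * r / N : ℝ) : ℂ) * (Complex.I * z) := by
        push_cast; ring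
      rw [h2, Complex.re_ofReal_mul]
      simp
      ring
    rw [this]
    have := z.im_pos
    have hpi := Real.pi_pos
    have : 0 ≤ 2 * Real.pi * r * z.im / N := by positivity
    linarith
  exact mul_le_of_le_one_left (norm_nonneg _) h1

theorem IsVF.isBigO_of_Lam_eq_zero (h : IsVF N k φ) (h0 : ∀ q, Lam N φ q = 0) (q : Q N) :
    φ q =O[atImInfty] fun z : ℍ => Real.exp (-2 * Real.pi * z.im) := by
  have h1 : φ q = fun z : ℍ => ∑ q', EE N (z : ℂ) q q' *
      Matrix.mulVec (EE N (-(z : ℂ))) (fun q'' => φ q'' z) q' := by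
    funext z
    have h2 : Matrix.mulVec (EE N (z : ℂ)) (Matrix.mulVec (EE N (-(z : ℂ))) (fun q'' => φ q'' z))
        = fun q'' => φ q'' z := by
      rw [Matrix.mulVec_mulVec, EE_mul_EE_neg, Matrix.one_mulVec]
    have h3 := congrFun h2 q
    rw [← h3]
    rfl
  rw [h1]
  refine IsBigO.fun_sum fun q' _ => ?_
  have h4 := h.isBigO_sub_Lam q'
  rw [h0 q'] at h4
  simp only [sub_zero] at h4
  simpa using (cuspAn_EE_bdd q q').mul h4

lemma cuspAn_tendsto_exp (r : ℕ) (hr : r < N) :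
    Tendsto (fun z : ℍ => Complex.exp (2 * Real.pi * Complex.I * z) *
        Complex.exp (-(2 * Real.pi * Complex.I * r * z / N))) atImInfty (𝓝 0) := by
  have hN0 : (N : ℂ) ≠ 0 := Nat.cast_ne_zero.mpr (NeZero.ne N)
  have hNpos : (0 : ℝ) < N := Nat.cast_pos.mpr (NeZero.pos N)
  have hNr : (0 : ℝ) < N - r := sub_pos.mpr (Nat.cast_lt.mpr hr)
  have hh : (0 : ℝ) < N / (N - r) := div_pos hNpos hNr
  have hNr' : (N : ℂ) - r ≠ 0 := by
    have : ((N : ℝ) - r : ℝ) ≠ 0 := hNr.ne'
    exact_mod_cast this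
  refine (qParam_tendsto_atImInfty hh).congr fun z => ?_
  rw [Function.Periodic.qParam, ← Complex.exp_add]
  congr 1
  push_cast
  field_simp
  ring

/-- the entries of `Δ(z) E(-z)` tend to zero. -/
theorem tendsto_discriminant_mul_EE_neg (q q' : Q N) :
    Tendsto (fun z : ℍ => discriminant z * EE N (-(z : ℂ)) q q') atImInfty (𝓝 0) := by
  have h1 : ∀ r ∈ Finset.range N, Tendsto (fun z : ℍ => discriminant z *
      (Complex.exp (2 * Real.pi * Complex.I * r * (-(z : ℂ)) / N) * pr N r q q')) atImInfty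
      (𝓝 0) := by
    intro r hr
    have h2 := ((cuspAn_tendsto_exp r (Finset.mem_range.mp hr)).mul
      tendsto_atImInfty_tprod_one_sub_eta_q_pow).mul_const (pr N r q q')
    simp only [zero_mul] at h2
    refine h2.congr fun z => ?_
    rw [discriminant_eq_q_prod, Function.Periodic.qParam]
    have e1 : (2 * Real.pi * Complex.I * (z : ℂ) / (1 : ℝ) : ℂ) = 2 * Real.pi * Complex.I * z := by
      simp
    have e2 : (2 * Real.pi * Complex.I * r * (-(z : ℂ)) / N : ℂ)
        = -(2 * Real.pi * Complex.I * r * z / N) := by ring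
    rw [e1, e2]
    ring
  have h3 := tendsto_finsetSum _ h1
  simp only [Finset.sum_const_zero] at h3
  refine h3.congr fun z => ?_
  rw [cuspAn_EE_apply, Finset.mul_sum]

end Fermat.Agent.S20
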