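/-
S20: the leading coefficient vectors of a minimal frame form a basis of `ℂ^Q`.
-/
import Fermat.Agent.S20.Frame
import Fermat.Agent.S20.Div
import Fermat.Agent.S20.L1
import Fermat.Agent.S20.CuspAn

set_option autoImplicit false

open UpperHalfPlane ModularForm CongruenceSubgroup Filter Topology EisensteinSeries
open scoped MatrixGroups Manifold

namespace Fermat.Agent.S20

open Fermat.Agent.S23 (Q)

variable {N : ℕ} [NeZero N] {k : Q N → ℤ} {φ : Q N → Q N → ℍ → ℂ}

/-- the matrix of leading coefficients -/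
noncomputable def LamMat (φ : Q N → Q N → ℍ → ℂ) : Matrix (Q N) (Q N) ℂ :=
  Matrix.of fun q j => Lam N (φ j) q

theorem IsMinFrame.det_LamMat_ne_zero (h : IsMinFrame N k φ) : (LamMat φ).det ≠ 0 := by
  classical
  intro hdet
  obtain ⟨c, hc, hcM⟩ := Matrix.exists_mulVec_eq_zero_iff.mpr hdet
  have hrel : ∀ q, ∑ j, c j * Lam N (φ j) q = 0 := fun q => by
    have := congrFun hcM q
    simpa [Matrix.mulVec, dotProduct, mul_comm, LamMat] using this
  have hne : (Finset.univ.filter fun j => c j ≠ 0).Nonempty := by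
    obtain ⟨j, hj⟩ := Function.ne_iff.mp hc
    exact ⟨j, by simpa using hj⟩
  obtain ⟨j₀, hj₀, hmax⟩ := Finset.exists_max_image _ k hne
  have hj₀' : c j₀ ≠ 0 := (Finset.mem_filter.mp hj₀).2
  have hB : ∀ j, ∃ B : ℍ → ℂ, IsVF N (k j₀ + 4) (fun q => B * φ j q) ∧
      Tendsto B atImInfty (𝓝 (c j)) ∧ MDiff B := by
    intro j
    by_cases hj : c j = 0
    · refine ⟨0, ?_, by rw [hj]; exact tendsto_const_nhds, mdifferentiable_const⟩
      simpa using isVF_zero N (k j₀ + 4)
    · have hle : k j ≤ k j₀ := hmax j (by simpa using hj)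
      obtain ⟨A, hA1⟩ := exists_levelOne_tendsto_one (k j₀ + 4 - k j) (by omega) (by
        obtain ⟨m, hm⟩ := h.frame.weight_even j
        obtain ⟨m', hm'⟩ := h.frame.weight_even j₀
        exact ⟨m' + 2 - m, by omega⟩)
      have hlim : Tendsto (c j • ⇑A) atImInfty (𝓝 (c j)) := by
        have := hA1.const_smul (c j)
        rw [smul_eq_mul, mul_one] at this
        exact this
      refine ⟨c j • ⇑A, ?_, hlim, A.holo'.const_smul _⟩
      have := (((h.frame.vf j).mul_levelOne A).smul (c j)).cast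
        (show k j₀ + 4 - k j + k j = k j₀ + 4 by ring)
      simpa [smul_mul_assoc] using this
  choose B hBv hBz hBm using hB
  have hF : IsVF N (k j₀ + 4) (fun q => ∑ j, B j * φ j q) := IsVF.sum _ fun j _ => hBv j
  have hF0 : ∀ q, Lam N (fun q => ∑ j, B j * φ j q) q = 0 := by
    intro q
    have t1 := hF.tendsto_Lam q
    have t2 : Tendsto (fun z : ℍ => ∑ j, B j z *
        Matrix.mulVec (EE N (-(z : ℂ))) (fun q' => φ j q' z) q) atImInfty
        (𝓝 (∑ j, c j * Lam N (φ j) q)) :=
      tendsto_finsetSum _ fun j _ => (hBz j).mul ((h.frame.vf j).tendsto_Lam q)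
    have e : (fun z : ℍ => Matrix.mulVec (EE N (-(z : ℂ)))
        (fun q' => (∑ j, B j * φ j q') z) q) = fun z : ℍ => ∑ j, B j z *
        Matrix.mulVec (EE N (-(z : ℂ))) (fun q' => φ j q' z) q := by
      funext z
      simp only [Matrix.mulVec, dotProduct, Finset.sum_apply, Pi.mul_apply, Finset.mul_sum]
      rw [Finset.sum_comm]
      refine Finset.sum_congr rfl fun j _ => Finset.sum_congr rfl fun q' _ => ?_
      ring
    rw [e] at t1
    rw [tendsto_nhds_unique t1 t2, hrel]
  obtain ⟨ψ, hψ, hψG⟩ := hF.div_discriminant (hF.isBigO_of_Lam_eq_zero hF0)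
  refine h.no_reduction B discriminant ψ (k j₀ + 4 - 12) hψ ?_ j₀ (hBm j₀) ?_ (by omega)
  · intro q z
    rw [hψG]
    simp [Finset.sum_apply]
  · intro h0
    apply hj₀'
    have := hBz j₀
    rw [h0] at this
    exact (tendsto_nhds_unique this tendsto_const_nhds)

/-- `E(-z) Φ(z) → Λ` -/
theorem IsFrame.tendsto_LamMat (h : IsFrame N k φ) :
    Tendsto (fun z : ℍ => EE N (-(z : ℂ)) * Mat φ z) atImInfty (𝓝 (LamMat φ)) := by
  refine tendsto_pi_nhds.mpr fun q => tendsto_pi_nhds.mpr fun j => ?_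
  exact (h.vf j).tendsto_Lam q

end Fermat.Agent.S20
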