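/-
S20: the total weight of a minimal frame is `6 (μ - c)`.
`D(z)^2 / Δ^(μ-c)` is a nowhere vanishing level one form with nonzero limit at `i∞`.
-/
import Fermat.Agent.S20.N1
import Fermat.Agent.S20.N2

set_option autoImplicit false

open UpperHalfPlane ModularForm CongruenceSubgroup Filter Topology EisensteinSeries
open scoped MatrixGroups Manifold

namespace Fermat.Agent.S20

open Fermat.Agent.S23 (Q exists_levelOne_of)

variable {N : ℕ} [NeZero N] {k : Q N → ℤ} {φ : Q N → Q N → ℍ → ℂ}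

lemma det_slash_of (F : ℍ → ℂ) (w : ℤ)
    (hF : ∀ (γ : SL(2, ℤ)) (z : ℍ), F (γ • z) = denom γ z ^ w * F z) (γ : SL(2, ℤ)) :
    F ∣[w] γ = F := by
  ext z
  rw [SL_slash_apply, hF, mul_comm, ← mul_assoc, ← zpow_add₀ (denom_ne_zero _ _)]
  simp

lemma det_discriminant_smul (γ : SL(2, ℤ)) (z : ℍ) :
    discriminant (γ • z) = denom γ z ^ (12 : ℤ) * discriminant z := by
  have hs : discriminant ∣[(12 : ℤ)] γ = discriminant :=
    SlashInvariantForm.slash_action_generators_SL2Z discriminant_S_invariant discriminant_T_invariant γ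
  have h := congrFun hs z
  rw [SL_slash_apply] at h
  rw [← h, mul_comm, mul_assoc, ← zpow_add₀ (denom_ne_zero _ _)]
  simp

lemma det_levelOne_eq_zero_of_neg (F : ℍ → ℂ) (w : ℤ) (hw : w < 0)
    (hF : ∀ (γ : SL(2, ℤ)) (z : ℍ), F (γ • z) = denom γ z ^ w * F z)
    (hol : MDiff F) (hbdd : IsBoundedAtImInfty F) : F = 0 := by
  obtain ⟨M, hM⟩ := exists_levelOne_of w F (det_slash_of F w hF) hol hbdd
  rw [← hM]
  exact ModularFormClass.levelOne_neg_weight_eq_zero hw M

theorem IsMinFrame.sum_weights (h : IsMinFrame N k φ) :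
    ∑ j, k j = 6 * ((Nat.card (Q N) : ℤ) - numCusps N) := by
  set m : ℕ := Nat.card (Q N) - numCusps N with hm
  set K : ℤ := ∑ j, k j with hK
  have hmc : (m : ℤ) = (Nat.card (Q N) : ℤ) - numCusps N := by
    rw [hm, Nat.cast_sub (numCusps_le N)]
  rw [← hmc]
  set D : ℍ → ℂ := fun z => (Mat φ z).det with hD
  have hDne : ∀ z, D z ≠ 0 := fun z => h.det_ne_zero z
  have hDhol : MDiff D := mdiff_det fun j q => (h.frame.vf j).holo q
  have hΔhol : MDiff discriminant := CuspForm.discriminant.holo'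
  have hDsm : ∀ (γ : SL(2, ℤ)) (z : ℍ), D (γ • z) ^ 2 = denom γ z ^ (2 * K) * D z ^ 2 :=
    fun γ z => det_Mat_sq_smul (fun j => (h.frame.vf j).slash) γ z
  -- the limit
  set L : ℂ := (LamMat φ).det with hL
  have hLne : L ≠ 0 := h.det_LamMat_ne_zero
  have hlim1 : Tendsto (fun z : ℍ => (EE N (-(z : ℂ)) * Mat φ z).det) atImInfty (𝓝 L) :=
    (continuous_id.matrix_det.tendsto _).comp h.frame.tendsto_LamMat
  have hP := tendsto_atImInfty_tprod_one_sub_eta_q_pow
  set P : ℍ → ℂ := fun x : ℍ => ∏' (n : ℕ), (1 - eta_q n x) ^ 24 with hPdef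
  have hPne : ∀ z, P z ≠ 0 := by
    intro z h0
    apply discriminant_ne_zero z
    rw [discriminant_eq_q_prod]
    exact mul_eq_zero_of_right _ h0
  -- key identity
  have hkey : ∀ z : ℍ, D z ^ 2 * P z ^ m =
      (EE N (-(z : ℂ)) * Mat φ z).det ^ 2 * discriminant z ^ m := by
    intro z
    have e1 : Mat φ z = EE N z * (EE N (-(z : ℂ)) * Mat φ z) := by
      rw [← mul_assoc, EE_mul_EE_neg, one_mul]
    have e2 : D z = (EE N z).det * (EE N (-(z : ℂ)) * Mat φ z).det := by
      rw [← Matrix.det_mul, ← e1]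
    rw [e2, mul_pow, det_EE_sq, discriminant_eq_q_prod, mul_pow]
    have e3 : Function.Periodic.qParam 1 (z : ℂ) = Complex.exp (2 * Real.pi * Complex.I * z) := by
      simp [Function.Periodic.qParam]
    rw [e3]
    ring
  have hf_eq : ∀ z : ℍ, D z ^ 2 / discriminant z ^ m =
      (EE N (-(z : ℂ)) * Mat φ z).det ^ 2 / P z ^ m := by
    intro z
    rw [div_eq_div_iff (pow_ne_zero _ (discriminant_ne_zero z)) (pow_ne_zero _ (hPne z))]
    exact hkey z
  have hflim : Tendsto (fun z : ℍ => D z ^ 2 / discriminant z ^ m) atImInfty (𝓝 (L ^ 2)) := by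
    have := (hlim1.pow 2).div (hP.pow m) (by simp)
    simp only [one_pow, div_one] at this
    exact this.congr fun z => (hf_eq z).symm
  have hglim : Tendsto (fun z : ℍ => discriminant z ^ m / D z ^ 2) atImInfty (𝓝 (L ^ 2)⁻¹) := by
    have := hflim.inv₀ (pow_ne_zero 2 hLne)
    exact this.congr fun z => by rw [inv_div]
  have hfsm : ∀ (γ : SL(2, ℤ)) (z : ℍ), D (γ • z) ^ 2 / discriminant (γ • z) ^ m =
      denom γ z ^ (2 * K - 12 * m) * (D z ^ 2 / discriminant z ^ m) := by
    intro γ z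
    have hd := denom_ne_zero γ z
    rw [hDsm, det_discriminant_smul, mul_pow, ← zpow_natCast (denom γ z ^ (12 : ℤ)), ← zpow_mul,
      zpow_sub₀ hd]
    field_simp
  have hgsm : ∀ (γ : SL(2, ℤ)) (z : ℍ), discriminant (γ • z) ^ m / D (γ • z) ^ 2 =
      denom γ z ^ (-(2 * K - 12 * m)) * (discriminant z ^ m / D z ^ 2) := by
    intro γ z
    rw [← inv_div, hfsm, mul_inv, inv_div, zpow_neg]
  have hfhol : MDiff (fun z : ℍ => D z ^ 2 / discriminant z ^ m) :=
    (hDhol.pow 2).div (hΔhol.pow m) fun z => pow_ne_zero _ (discriminant_ne_zero z)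
  have hghol : MDiff (fun z : ℍ => discriminant z ^ m / D z ^ 2) :=
    (hΔhol.pow m).div (hDhol.pow 2) fun z => pow_ne_zero _ (hDne z)
  have hw : 2 * K - 12 * (m : ℤ) = 0 := by
    rcases lt_trichotomy (2 * K - 12 * (m : ℤ)) 0 with hlt | heq | hgt
    · exfalso
      have h0 := det_levelOne_eq_zero_of_neg _ _ hlt hfsm hfhol (hflim.isBigO_one ℝ)
      have h1 := congrFun h0 I
      exact (div_ne_zero (pow_ne_zero 2 (hDne I)) (pow_ne_zero m (discriminant_ne_zero I))) h1
    · exact heq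
    · exfalso
      have h0 := det_levelOne_eq_zero_of_neg _ _ (neg_lt_zero.mpr hgt) hgsm hghol
        (hglim.isBigO_one ℝ)
      have h1 := congrFun h0 I
      exact (div_ne_zero (pow_ne_zero m (discriminant_ne_zero I)) (pow_ne_zero 2 (hDne I))) h1
  omega

end Fermat.Agent.S20
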