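/-
S20: the dual frame `g = Δ Φ⁻¹` consists of cusp forms of weights `12 - k j`.
-/
import Fermat.Agent.S20.N1
import Fermat.Agent.S20.N2

set_option autoImplicit false

open UpperHalfPlane ModularForm CongruenceSubgroup Filter Topology EisensteinSeries
open scoped MatrixGroups Manifold

namespace Fermat.Agent.S20

open Fermat.Agent.S23 (Q)

variable {N : ℕ} [NeZero N] {k : Q N → ℤ} {φ : Q N → Q N → ℍ → ℂ}

lemma dual_mdiff_det (A : ℍ → Matrix (Q N) (Q N) ℂ) (hA : ∀ i j, MDiff fun z => A z i j) :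
    MDiff fun z => (A z).det := by
  have : (fun z => (A z).det) = ∑ σ : Equiv.Perm (Q N),
      (((Equiv.Perm.sign σ : ℤˣ) : ℤ) : ℂ) • ∏ i, fun z => A z (σ i) i := by
    ext z
    rw [Matrix.det_apply']
    simp [Finset.sum_apply, Finset.prod_apply]
  rw [this]
  exact MDifferentiable.sum fun σ _ => (MDifferentiable.prod fun i _ => hA _ _).const_smul _

lemma dual_mdiff_inv (hh : ∀ j q, MDiff (φ j q)) (hdet : ∀ z, (Mat φ z).det ≠ 0) (j q : Q N) :
    MDiff fun z => (Mat φ z)⁻¹ j q := by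
  have h1 : (fun z => (Mat φ z)⁻¹ j q)
      = fun z => (Mat φ z).adjugate j q / (Mat φ z).det := by
    ext z
    rw [Matrix.inv_def, Ring.inverse_eq_inv', Matrix.smul_apply, smul_eq_mul, div_eq_inv_mul]
  rw [h1]
  refine MDifferentiable.div ?_ (mdiff_det hh) hdet
  simp only [Matrix.adjugate_apply]
  refine dual_mdiff_det _ fun i i' => ?_
  by_cases hi : i = q
  · subst hi
    simp only [Matrix.updateRow_self]
    exact mdifferentiable_const
  · simp only [Matrix.updateRow_ne hi]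
    exact hh _ _

lemma dual_inv_smul (hs : ∀ j (γ : SL(2, ℤ)) (q : Q N), φ j q ∣[k j] γ = φ j (γ⁻¹ • q))
    (γ : SL(2, ℤ)) (z : ℍ) (hdet : (Mat φ z).det ≠ 0) (j q : Q N) :
    (Mat φ (γ • z))⁻¹ j q = denom γ z ^ (-k j) * (Mat φ z)⁻¹ j (γ⁻¹ • q) := by
  have hd : denom γ z ≠ 0 := denom_ne_zero _ _
  have hunit : IsUnit (Mat φ z).det := isUnit_iff_ne_zero.mpr hdet
  have h1 : (Matrix.of fun j q => denom γ z ^ (-k j) * (Mat φ z)⁻¹ j (γ⁻¹ • q)) * Mat φ (γ • z)
      = 1 := by
    ext j i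
    rw [Matrix.mul_apply]
    simp only [Matrix.of_apply, Mat_apply, apply_smul (hs _)]
    have h2 : ∀ q : Q N, denom γ z ^ (-k j) * (Mat φ z)⁻¹ j (γ⁻¹ • q) *
        (denom γ z ^ k i * φ i (γ⁻¹ • q) z)
        = (fun q' => denom γ z ^ (-k j) * denom γ z ^ k i * ((Mat φ z)⁻¹ j q' * Mat φ z q' i))
          (MulAction.toPerm (γ⁻¹ : SL(2, ℤ)) q) := by
      intro q
      simp only [MulAction.toPerm_apply, Mat_apply]
      ring
    have h3 := Equiv.sum_comp (MulAction.toPerm (γ⁻¹ : SL(2, ℤ)) : Equiv.Perm (Q N))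
      (fun q' => denom γ z ^ (-k j) * denom γ z ^ k i * ((Mat φ z)⁻¹ j q' * Mat φ z q' i))
    refine (Finset.sum_congr rfl fun q _ => h2 q).trans (h3.trans ?_)
    rw [← Finset.mul_sum,
      ← Matrix.mul_apply, Matrix.nonsing_inv_mul _ hunit, Matrix.one_apply]
    split_ifs with hji
    · subst hji
      rw [mul_one, ← zpow_add₀ hd]
      simp
    · simp
  rw [Matrix.inv_eq_left_inv h1]
  rfl

theorem IsMinFrame.exists_dual (h : IsMinFrame N k φ) :
    ∃ g : Q N → Q N → ℍ → ℂ, (∀ j, IsVC N (12 - k j) (g j)) ∧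
      (∀ i j z, ∑ q, g j q z * φ i q z = if i = j then discriminant z else 0) ∧
      (∀ q q' z, ∑ j, φ j q z * g j q' z = if q = q' then discriminant z else 0) := by
  have hdet := h.det_ne_zero
  have hunit : ∀ z, IsUnit (Mat φ z).det := fun z => isUnit_iff_ne_zero.mpr (hdet z)
  have hs : ∀ j (γ : SL(2, ℤ)) (q : Q N), φ j q ∣[k j] γ = φ j (γ⁻¹ • q) :=
    fun j => (h.frame.vf j).slash
  refine ⟨fun j q z => discriminant z * (Mat φ z)⁻¹ j q, fun j => ⟨?_, ?_, ?_⟩, ?_, ?_⟩
  · -- slash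
    intro γ q
    ext z
    rw [SL_slash_apply]
    show discriminant (γ • z) * (Mat φ (γ • z))⁻¹ j q * denom γ z ^ (-(12 - k j))
      = discriminant z * (Mat φ z)⁻¹ j (γ⁻¹ • q)
    rw [dual_inv_smul hs γ z (hdet z)]
    have hΔ : discriminant (γ • z) = denom γ z ^ (12 : ℤ) * discriminant z := by
      have h1 : (discriminant : ℍ → ℂ) ∣[(12 : ℤ)] γ = discriminant :=
        SlashInvariantFormClass.slash_action_eq CuspForm.discriminant _ ⟨γ, rfl⟩
      have h2 := congrFun h1 z
      rw [SL_slash_apply] at h2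
      rw [← h2, mul_comm, mul_assoc, ← zpow_add₀ (denom_ne_zero _ _)]
      simp
    rw [hΔ]
    have hd : denom γ z ≠ 0 := denom_ne_zero _ _
    have e : denom γ z ^ (12 : ℤ) * denom γ z ^ (-k j) * denom γ z ^ (-(12 - k j)) = 1 := by
      rw [← zpow_add₀ hd, ← zpow_add₀ hd]
      have : (12 : ℤ) + -k j + -(12 - k j) = 0 := by ring
      rw [this, zpow_zero]
    linear_combination (discriminant z * (Mat φ z)⁻¹ j (γ⁻¹ • q)) * e
  · -- holomorphy
    intro q
    exact CuspForm.discriminant.holo'.mul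
      (dual_mdiff_inv (fun j q => (h.frame.vf j).holo q) hdet j q)
  · -- vanishing at infinity
    intro q
    have hW := h.frame.tendsto_LamMat
    have hΛ := h.det_LamMat_ne_zero
    have hWinv : Tendsto (fun z : ℍ => (EE N (-(z : ℂ)) * Mat φ z)⁻¹) atImInfty
        (𝓝 (LamMat φ)⁻¹) := by
      refine (continuousAt_matrix_inv _ ?_).tendsto.comp hW
      simp only [Ring.inverse_eq_inv']
      exact continuousAt_inv₀ hΛ
    have hinv : ∀ z : ℍ, (Mat φ z)⁻¹ = (EE N (-(z : ℂ)) * Mat φ z)⁻¹ * EE N (-(z : ℂ)) := by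
      intro z
      have hE : IsUnit (EE N (-(z : ℂ))).det := by
        have := congrArg Matrix.det (EE_neg_mul_EE N (z : ℂ))
        rw [Matrix.det_mul, Matrix.det_one] at this
        exact IsUnit.of_mul_eq_one _ this
      apply Matrix.inv_eq_left_inv
      rw [Matrix.mul_assoc]
      exact Matrix.nonsing_inv_mul _ (by rw [Matrix.det_mul]; exact hE.mul (hunit z))
    have e : (fun z : ℍ => discriminant z * (Mat φ z)⁻¹ j q) = fun z : ℍ =>
        ∑ q', (EE N (-(z : ℂ)) * Mat φ z)⁻¹ j q' * (discriminant z * EE N (-(z : ℂ)) q' q) := by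
      funext z
      rw [hinv z, Matrix.mul_apply, Finset.mul_sum]
      refine Finset.sum_congr rfl fun q' _ => ?_
      ring
    show Tendsto (fun z : ℍ => discriminant z * (Mat φ z)⁻¹ j q) atImInfty (𝓝 0)
    rw [e]
    have : Tendsto (fun z : ℍ =>
        ∑ q', (EE N (-(z : ℂ)) * Mat φ z)⁻¹ j q' * (discriminant z * EE N (-(z : ℂ)) q' q))
        atImInfty (𝓝 (∑ q', (LamMat φ)⁻¹ j q' * 0)) := by
      refine tendsto_finsetSum _ fun q' _ => Tendsto.mul ?_ (tendsto_discriminant_mul_EE_neg q' q)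
      exact ((continuous_apply q').tendsto _).comp (((continuous_apply j).tendsto _).comp hWinv)
    simpa using this
  · intro i j z
    have : ∑ q, discriminant z * (Mat φ z)⁻¹ j q * φ i q z
        = discriminant z * ((Mat φ z)⁻¹ * Mat φ z) j i := by
      rw [Matrix.mul_apply, Finset.mul_sum]
      refine Finset.sum_congr rfl fun q _ => ?_
      rw [Mat_apply]
      ring
    rw [this, Matrix.nonsing_inv_mul _ (hunit z), Matrix.one_apply]
    by_cases hij : i = j
    · subst hij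
      simp
    · rw [if_neg hij, if_neg (Ne.symm hij), mul_zero]
  · intro q q' z
    have : ∑ j, φ j q z * (discriminant z * (Mat φ z)⁻¹ j q')
        = discriminant z * (Mat φ z * (Mat φ z)⁻¹) q q' := by
      rw [Matrix.mul_apply, Finset.mul_sum]
      refine Finset.sum_congr rfl fun j _ => ?_
      rw [Mat_apply]
      ring
    rw [this, Matrix.mul_nonsing_inv _ (hunit z), Matrix.one_apply]
    split_ifs <;> simp

end Fermat.Agent.S20
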