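/-
S20: counting the weights of a minimal frame, and the dimension of `S₂(Γ₀(N))`.
-/
import Fermat.Agent.S20.Det
import Fermat.Agent.S20.Dual

set_option autoImplicit false

open UpperHalfPlane ModularForm CongruenceSubgroup Filter Topology EisensteinSeries
open scoped MatrixGroups Manifold

namespace Fermat.Agent.S20

open Fermat.Agent.S23 (Q tr tr_one slash_eq_of_mem_Gamma0)

variable {N : ℕ} [NeZero N] {k : Q N → ℤ} {φ : Q N → Q N → ℍ → ℂ}

/-! ### Traces at elliptic points -/

/-- If `γ₀` fixes `z₀` and the matrix of the family is invertible at `z₀`, the number of fixed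
points of `γ₀` on `Q N` is `∑ j, ξ ^ (- k j)` with `ξ = denom γ₀ z₀`. -/
theorem card_fixed_eq_sum (hs : ∀ j (γ : SL(2, ℤ)) (q : Q N), φ j q ∣[k j] γ = φ j (γ⁻¹ • q))
    (γ₀ : SL(2, ℤ)) (z₀ : ℍ) (hfix : γ₀ • z₀ = z₀) (hdet : (Mat φ z₀).det ≠ 0) :
    (Nat.card {q : Q N // γ₀ • q = q} : ℂ) = ∑ j, denom γ₀ z₀ ^ (-k j) := by
  set M := Mat φ z₀ with hM
  set ξ := denom γ₀ z₀ with hξ
  have hξ0 : ξ ≠ 0 := denom_ne_zero _ _
  set P : Matrix (Q N) (Q N) ℂ := Matrix.of fun q q' => if q' = γ₀⁻¹ • q then 1 else 0 with hP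
  have hunit : IsUnit M.det := isUnit_iff_ne_zero.mpr hdet
  have h1 : P * M = M * Matrix.diagonal fun j => ξ ^ (-k j) := by
    ext q j
    have h2 := congrFun (congrFun (Mat_smul hs γ₀ z₀) q) j
    rw [hfix] at h2
    simp only [Matrix.of_apply, Matrix.submatrix_apply, MulAction.toPerm_apply, id] at h2
    rw [Matrix.mul_diagonal, Matrix.mul_apply]
    simp only [hP, Matrix.of_apply, ite_mul, one_mul, zero_mul, Finset.sum_ite_eq',
      Finset.mem_univ, if_true]
    rw [hM, h2, mul_comm, ← mul_assoc, ← zpow_add₀ hξ0]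
    simp
  have h3 : P = M * (Matrix.diagonal fun j => ξ ^ (-k j)) * M⁻¹ := by
    rw [← h1, Matrix.mul_assoc, Matrix.mul_nonsing_inv _ hunit, Matrix.mul_one]
  have h4 : P.trace = ∑ j, ξ ^ (-k j) := by
    rw [h3, Matrix.trace_mul_comm, ← Matrix.mul_assoc, Matrix.nonsing_inv_mul _ hunit,
      Matrix.one_mul, Matrix.trace_diagonal]
  rw [← h4, Matrix.trace]
  simp only [Matrix.diag_apply, hP, Matrix.of_apply]
  rw [Finset.sum_boole, Nat.card_eq_fintype_card, Fintype.card_subtype]
  congr 2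
  ext q
  simp only [Finset.mem_filter, Finset.mem_univ, true_and]
  constructor
  · intro h
    rw [eq_inv_smul_iff]
    exact h
  · intro h
    rw [eq_inv_smul_iff] at h
    exact h

/-! ### Consequences of duality -/

section dual

variable {g : Q N → Q N → ℍ → ℂ}

lemma weight_le_ten (h : IsFrame N k φ) (hg : ∀ j, IsVC N (12 - k j) (g j))
    (h1 : ∀ i j z, ∑ q, g j q z * φ i q z = if i = j then discriminant z else 0) (j : Q N) :
    k j ≤ 10 := by
  by_contra hk
  have h12 : 12 - k j ≤ 0 := by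
    obtain ⟨m, hm⟩ := h.weight_even j
    omega
  have h0 := (hg j).eq_zero_of_nonpos h12
  have h2 := h1 j j I
  rw [if_pos rfl, h0] at h2
  simp only [Pi.zero_apply, zero_mul, Finset.sum_const_zero] at h2
  exact discriminant_ne_zero I h2.symm

lemma levelOne_cusp_eq_zero {w : ℤ} (hw : w < 12) (M : CuspForm 𝒮ℒ w) : M = 0 :=
  rank_zero_iff_forall_zero.mp (CuspForm.rank_eq_zero_of_weight_lt_twelve hw) M

lemma exists_weight_zero (hg : ∀ j, IsVC N (12 - k j) (g j)) (hk : ∀ j, 0 ≤ k j)
    (h2 : ∀ q q' z, ∑ j, φ j q z * g j q' z = if q = q' then discriminant z else 0) :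
    ∃ j, k j = 0 := by
  by_contra hne
  push_neg at hne
  have hone : IsVF N 0 (fun _ => (1 : ℍ → ℂ)) :=
    ⟨fun γ _ => by
        ext z
        simp [SL_slash_apply], fun _ => mdifferentiable_const,
      fun _ => Filter.const_boundedAtFilter atImInfty (1 : ℂ)⟩
  have h3 : ∀ j z, ∑ q', g j q' z = 0 := by
    intro j z
    obtain ⟨M, hM⟩ := hone.trace_mul_cusp (hg j)
    have hw : 0 + (12 - k j) < 12 := by
      have := hk j
      have := hne j
      omega
    rw [levelOne_cusp_eq_zero hw M] at hM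
    have := congrFun hM z
    simpa [Finset.sum_apply] using this.symm
  have q₀ : Q N := QuotientGroup.mk 1
  have h4 : ∑ q', ∑ j, φ j q₀ I * g j q' I = discriminant I := by
    simp only [h2]
    simp
  rw [Finset.sum_comm] at h4
  simp only [← Finset.mul_sum, h3, mul_zero, Finset.sum_const_zero] at h4
  exact discriminant_ne_zero I h4.symm

lemma weight_zero_unique (h : IsFrame N k φ)
    (h1 : ∀ i j z, ∑ q, g j q z * φ i q z = if i = j then discriminant z else 0)
    (j j' : Q N) (hj : k j = 0) (hj' : k j' = 0) : j = j' := by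
  by_contra hne
  obtain ⟨c, hc⟩ := ((h.vf j).cast hj).const_of_weight_zero
  obtain ⟨c', hc'⟩ := ((h.vf j').cast hj').const_of_weight_zero
  have e1 := h1 j j' I
  have e2 := h1 j' j' I
  rw [if_neg hne] at e1
  rw [if_pos rfl] at e2
  simp only [hc, hc', ← Finset.sum_mul] at e1 e2
  have hs : ∑ q, g j' q I ≠ 0 := by
    intro h0
    rw [h0, zero_mul] at e2
    exact discriminant_ne_zero I e2.symm
  have hc0 : c = 0 := (mul_eq_zero.mp e1).resolve_left hs
  apply h.ne_zero j
  funext q z
  rw [hc, hc0]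
  rfl

theorem finrank_eq_card (h : IsFrame N k φ) (hg : ∀ j, IsVC N (12 - k j) (g j))
    (h1 : ∀ i j z, ∑ q, g j q z * φ i q z = if i = j then discriminant z else 0)
    (h2 : ∀ q q' z, ∑ j, φ j q z * g j q' z = if q = q' then discriminant z else 0)
    (hk10 : ∀ j, k j ≤ 10) :
    Module.finrank ℂ (CuspForm (Gamma0 N) 2) = Fintype.card {j : Q N // k j = 10} := by
  have hg2 : ∀ j : {j : Q N // k j = 10}, IsVC N 2 (g j) := fun j =>
    (hg j).cast (by rw [j.2]; norm_num)
  choose f hf using fun j : {j : Q N // k j = 10} => (hg2 j).exists_cuspForm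
  set Ψ : ({j : Q N // k j = 10} → ℂ) →ₗ[ℂ] CuspForm (Gamma0 N) 2 :=
    Fintype.linearCombination ℂ f with hΨ
  have hΨapp : ∀ (c : {j : Q N // k j = 10} → ℂ),
      (⇑(Ψ c) : ℍ → ℂ) = ∑ j, c j • g j (QuotientGroup.mk 1) := by
    intro c
    rw [hΨ, Fintype.linearCombination_apply]
    ext z
    simp [← hf, Finset.sum_apply]
  have hvec : ∀ (c : {j : Q N // k j = 10} → ℂ), IsVF N 2 (fun q => ∑ j, c j • g j q) := fun c =>
    IsVF.sum _ fun j _ => (hg2 j).isVF.smul (c j)
  have hinj : Function.Injective Ψ := by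
    rw [← LinearMap.ker_eq_bot, LinearMap.ker_eq_bot']
    intro c hc
    have h3 : (fun q => ∑ j, c j • g j q) = fun _ => 0 := by
      refine ext_of_one (hvec c).slash (isVF_zero N 2).slash ?_
      show ∑ j, c j • g j (QuotientGroup.mk 1) = 0
      rw [← hΨapp, hc]
      rfl
    funext i
    have h4 : ∑ q, (∑ j, c j • g j q) I * φ i q I = 0 := by
      have : ∀ q, (∑ j, c j • g j q) = 0 := fun q => congrFun h3 q
      simp only [this]
      simp
    have h5 : ∑ q, (∑ j, c j • g j q) I * φ i q I = c i * discriminant I := by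
      simp only [Finset.sum_apply, Pi.smul_apply, smul_eq_mul, Finset.sum_mul]
      rw [Finset.sum_comm]
      simp only [mul_assoc, ← Finset.mul_sum, h1]
      rw [Finset.sum_eq_single i]
      · simp
      · intro b _ hb
        rw [if_neg (fun hib => hb (Subtype.ext hib.symm)), mul_zero]
      · simp
    rw [h5] at h4
    exact (mul_eq_zero.mp h4).resolve_right (discriminant_ne_zero I)
  have hsurj : Function.Surjective Ψ := by
    intro F
    set ψ : Q N → ℍ → ℂ := tr 2 F (slash_eq_of_mem_Gamma0 F) with hψ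
    have hψc : IsVC N 2 ψ := isVC_tr F
    -- the traces
    have htr : ∀ j, ∃ c : ℂ, (k j ≠ 10 → c = 0) ∧
        ∀ z, ∑ q, φ j q z * ψ q z = c * discriminant z := by
      intro j
      obtain ⟨M, hM⟩ := (h.vf j).trace_mul_cusp hψc
      by_cases hj : k j = 10
      · have hw : k j + 2 = 12 := by omega
        obtain ⟨c, hc⟩ := CuspForm.exists_smul_discriminant_of_weight_eq_twelve
          (CuspForm.mcast hw M)
        refine ⟨c, fun h' => absurd hj h', fun z => ?_⟩
        have e1 := congrFun hM z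
        have e2 := congrArg (fun G : CuspForm 𝒮ℒ 12 => G z) hc
        simp only [Finset.sum_apply, Pi.mul_apply] at e1
        rw [← e1]
        have e3 : (CuspForm.mcast hw M : CuspForm 𝒮ℒ 12) z = M z := rfl
        rw [← e3, ← e2]
        simp
      · have hw : k j + 2 < 12 := by
          have := hk10 j
          obtain ⟨m, hm⟩ := h.weight_even j
          omega
        refine ⟨0, fun _ => rfl, fun z => ?_⟩
        rw [levelOne_cusp_eq_zero hw M] at hM
        have := congrFun hM z
        simpa [Finset.sum_apply] using this.symm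
    choose c hc0 hc using htr
    refine ⟨fun j => c j, ?_⟩
    apply DFunLike.coe_injective
    rw [hΨapp]
    have hF : (⇑F : ℍ → ℂ) = ψ (QuotientGroup.mk 1) := (tr_one _ _ _).symm
    rw [hF]
    ext z
    have e1 : discriminant z * ψ (QuotientGroup.mk 1) z
        = ∑ q', (∑ j, φ j q' z * g j (QuotientGroup.mk 1) z) * ψ q' z := by
      simp only [h2]
      simp
    have e2 : ∑ q', (∑ j, φ j q' z * g j (QuotientGroup.mk 1) z) * ψ q' z
        = ∑ j, g j (QuotientGroup.mk 1) z * (c j * discriminant z) := by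
      simp only [Finset.sum_mul]
      rw [Finset.sum_comm]
      refine Finset.sum_congr rfl fun j _ => ?_
      rw [← hc, Finset.mul_sum]
      refine Finset.sum_congr rfl fun q _ => ?_
      ring
    have e3 : ∑ j, g j (QuotientGroup.mk 1) z * (c j * discriminant z)
        = discriminant z * ∑ j : {j : Q N // k j = 10}, c j * g j (QuotientGroup.mk 1) z := by
      rw [Finset.mul_sum, ← Finset.sum_subtype (p := fun j => k j = 10)
        (Finset.univ.filter fun j => k j = 10) (by simp)
        (fun j => discriminant z * (c j * g j (QuotientGroup.mk 1) z))]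
      rw [Finset.sum_filter]
      refine Finset.sum_congr rfl fun j _ => ?_
      split_ifs with hj
      · ring
      · rw [hc0 j hj]
        ring
    have e4 := e1.trans (e2.trans e3)
    have e5 := mul_left_cancel₀ (discriminant_ne_zero z) e4
    rw [e5]
    simp [Finset.sum_apply]
  have e := LinearEquiv.ofBijective Ψ ⟨hinj, hsurj⟩
  rw [← e.finrank_eq, Module.finrank_fintype_fun_eq_card]

end dual

/-! ### Arithmetic -/

lemma pointwise_aux (ξ : ℂ) (hξ : IsPrimitiveRoot ξ 6) (m : ℤ) (h0 : 0 ≤ m) (h10 : m ≤ 10)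
    (he : Even m) : ∃ ε a b : ℤ, Complex.I ^ (-m) = ε ∧ ξ ^ (-m) = a + b * ξ ∧
      12 * (if m = 10 then 1 else 0 : ℤ) = 12 * (if m = 0 then 1 else 0 : ℤ) - 5 + m - 3 * ε
        - 4 * a := by
  have h6 : ξ ^ 6 = 1 := hξ.pow_eq_one
  have h3 : ξ ^ 3 = -1 := by
    have h1 : (ξ ^ 3 - 1) * (ξ ^ 3 + 1) = 0 := by linear_combination h6
    rcases mul_eq_zero.mp h1 with h | h
    · exact absurd (hξ.pow_ne_one_of_pos_of_lt (by norm_num) (by norm_num : 3 < 6))
        (by simpa [sub_eq_zero] using h)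
    · linear_combination h
  have h2 : ξ ^ 2 = ξ - 1 := by
    have h1 : (ξ + 1) * (ξ ^ 2 - ξ + 1) = 0 := by linear_combination h3
    rcases mul_eq_zero.mp h1 with h | h
    · exfalso
      apply hξ.pow_ne_one_of_pos_of_lt (by norm_num) (by norm_num : 2 < 6)
      have : ξ = -1 := by linear_combination h
      rw [this]
      norm_num
    · linear_combination h
  have hI2 : Complex.I ^ 2 = -1 := Complex.I_sq
  have inv : ∀ (x y : ℂ) (n : ℕ), x ^ n * y = 1 → x ^ (-(n : ℤ)) = y := by
    intro x y n hxy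
    rw [zpow_neg, zpow_natCast]
    exact inv_eq_of_mul_eq_one_right hxy
  obtain ⟨t, ht⟩ := he
  have ht' : t = 0 ∨ t = 1 ∨ t = 2 ∨ t = 3 ∨ t = 4 ∨ t = 5 := by omega
  rcases ht' with rfl | rfl | rfl | rfl | rfl | rfl <;> subst ht
  · exact ⟨1, 1, 0, by simp, by simp, by norm_num⟩
  · refine ⟨-1, 0, -1, ?_, ?_, by norm_num⟩
    · have := inv Complex.I (-1) 2 (by rw [hI2]; norm_num)
      simpa using this
    · have := inv ξ (-ξ) 2 (by linear_combination -h3)
      simpa using this
  · refine ⟨1, -1, 1, ?_, ?_, by norm_num⟩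
    · have := inv Complex.I 1 4 (by linear_combination (Complex.I ^ 2 - 1) * hI2)
      simpa using this
    · have := inv ξ (ξ - 1) 4 (by linear_combination (-ξ ^ 4) * h2 + h6)
      simpa [sub_eq_neg_add] using this
  · refine ⟨-1, 1, 0, ?_, ?_, by norm_num⟩
    · have := inv Complex.I (-1) 6 (by linear_combination (-Complex.I ^ 4 + Complex.I ^ 2 - 1) * hI2)
      simpa using this
    · have := inv ξ 1 6 (by linear_combination h6)
      simpa using this
  · refine ⟨1, 0, -1, ?_, ?_, by norm_num⟩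
    · have := inv Complex.I 1 8
        (by linear_combination (Complex.I ^ 6 - Complex.I ^ 4 + Complex.I ^ 2 - 1) * hI2)
      simpa using this
    · have := inv ξ (-ξ) 8 (by linear_combination (-ξ ^ 6 + ξ ^ 3 - 1) * h3)
      simpa using this
  · refine ⟨-1, -1, 1, ?_, ?_, by norm_num⟩
    · have e : Complex.I ^ 10 * (-1) = 1 := by
        linear_combination (-Complex.I ^ 8 + Complex.I ^ 6 - Complex.I ^ 4 + Complex.I ^ 2 - 1) * hI2
      have := inv Complex.I (-1) 10 e
      simpa using this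
    · have := inv ξ (ξ - 1) 10 (by linear_combination (-ξ ^ 10) * h2 + (ξ ^ 6 + 1) * h6)
      simpa [sub_eq_neg_add] using this

lemma int_of_add_mul_eq_zero (ξ : ℂ) (hξ : ξ ^ 2 = ξ - 1) (A B : ℤ) (h : (A : ℂ) + B * ξ = 0) :
    A = 0 := by
  have h1 : ((A ^ 2 + A * B + B ^ 2 : ℤ) : ℂ) = 0 := by
    push_cast
    linear_combination (A - B * ξ + B) * h + (B : ℂ) ^ 2 * hξ
  have h2 : A ^ 2 + A * B + B ^ 2 = 0 := by exact_mod_cast h1
  have h3 : B = 0 := by nlinarith [sq_nonneg (2 * A + B), sq_nonneg B]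
  subst h3
  simpa using h2

theorem twelve_mul_finrank (N : ℕ) [NeZero N] :
    12 * (Module.finrank ℂ (CuspForm (Gamma0 N) 2) : ℤ)
      = 12 + (Nat.card (Q N) : ℤ) - 3 * (Nat.card {q : Q N // ModularGroup.S • q = q} : ℤ)
        - 4 * (Nat.card {q : Q N // (ModularGroup.S * ModularGroup.T) • q = q} : ℤ)
        - 6 * (numCusps N : ℤ) := by
  obtain ⟨k, φ, h⟩ := exists_minFrame N
  obtain ⟨g, hg, h1, h2⟩ := h.exists_dual
  have hk0 := h.frame.weight_nonneg
  have hke := h.frame.weight_even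
  have hk10 := weight_le_ten h.frame hg h1
  have hs : ∀ j (γ : SL(2, ℤ)) (q : Q N), φ j q ∣[k j] γ = φ j (γ⁻¹ • q) :=
    fun j => (h.frame.vf j).slash
  have E3 := card_fixed_eq_sum hs ModularGroup.S I S_smul_I h.det_ne_zero_I
  have E4 := card_fixed_eq_sum hs (ModularGroup.S * ModularGroup.T) rho ST_smul_rho
    h.det_ne_zero_rho
  rw [denom_S_I] at E3
  set ξ := denom ((ModularGroup.S * ModularGroup.T : SL(2, ℤ))) rho with hξdef
  have hξ : IsPrimitiveRoot ξ 6 := isPrimitiveRoot_denom_ST_rho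
  choose ε a b hε hab hpt using fun j => pointwise_aux ξ hξ (k j) (hk0 j) (hk10 j) (hke j)
  simp only [hε] at E3
  simp only [hab] at E4
  have E3' : (Nat.card {q : Q N // ModularGroup.S • q = q} : ℤ) = ∑ j, ε j := by
    exact_mod_cast E3
  have hξ2 : ξ ^ 2 = ξ - 1 := by
    obtain ⟨_, a', b', -, hh, -⟩ := pointwise_aux ξ hξ 4 (by norm_num) (by norm_num) ⟨2, rfl⟩
    have h6 : ξ ^ 6 = 1 := hξ.pow_eq_one
    have h3 : ξ ^ 3 = -1 := by
      have h1 : (ξ ^ 3 - 1) * (ξ ^ 3 + 1) = 0 := by linear_combination h6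
      rcases mul_eq_zero.mp h1 with h | h
      · exact absurd (hξ.pow_ne_one_of_pos_of_lt (by norm_num) (by norm_num : 3 < 6))
          (by simpa [sub_eq_zero] using h)
      · linear_combination h
    have h1 : (ξ + 1) * (ξ ^ 2 - ξ + 1) = 0 := by linear_combination h3
    rcases mul_eq_zero.mp h1 with h | h
    · exfalso
      apply hξ.pow_ne_one_of_pos_of_lt (by norm_num) (by norm_num : 2 < 6)
      have : ξ = -1 := by linear_combination h
      rw [this]
      norm_num
    · linear_combination h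
  have E4' : (Nat.card {q : Q N // (ModularGroup.S * ModularGroup.T) • q = q} : ℤ)
      = ∑ j, a j := by
    have := int_of_add_mul_eq_zero ξ hξ2
      (∑ j, a j - (Nat.card {q : Q N // (ModularGroup.S * ModularGroup.T) • q = q} : ℤ))
      (∑ j, b j) (by
        push_cast
        rw [E4, Finset.sum_add_distrib, Finset.sum_mul]
        ring)
    omega
  have E2 := h.sum_weights
  have E5 : ∑ j, (if k j = 0 then 1 else 0 : ℤ) = 1 := by
    obtain ⟨j₀, hj₀⟩ := exists_weight_zero hg hk0 h2
    rw [Finset.sum_eq_single j₀]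
    · simp [hj₀]
    · intro j _ hj
      rw [if_neg]
      intro hj'
      exact hj (weight_zero_unique h.frame h1 j j₀ hj' hj₀)
    · simp
  have E6 : ∑ j, (if k j = 10 then 1 else 0 : ℤ)
      = (Module.finrank ℂ (CuspForm (Gamma0 N) 2) : ℤ) := by
    rw [finrank_eq_card h.frame hg h1 h2 hk10, Finset.sum_boole, Fintype.card_subtype]
  have E1 : ∑ _j : Q N, (1 : ℤ) = (Nat.card (Q N) : ℤ) := by
    simp [Nat.card_eq_fintype_card]
  have hsum : 12 * ∑ j, (if k j = 10 then 1 else 0 : ℤ)
      = 12 * ∑ j, (if k j = 0 then 1 else 0 : ℤ) - 5 * ∑ _j : Q N, (1 : ℤ) + ∑ j, k j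
        - 3 * ∑ j, ε j - 4 * ∑ j, a j := by
    simp only [Finset.mul_sum, ← Finset.sum_sub_distrib, ← Finset.sum_add_distrib]
    refine Finset.sum_congr rfl fun j _ => ?_
    rw [hpt j]
    ring
  rw [E6, E5, E1, E2, ← E3', ← E4'] at hsum
  linarith

end Fermat.Agent.S20
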